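import Fermat.Prelude.Def_GaloisRep_Flat

/-!
# Orders in algebras of Galois-equivariant functions

For a finite abelian group `M` with an action `act` of the absolute Galois group of `ℚ`, a
`HopfOrder ℓ M act` is a finite `ℤ_(ℓ)`-algebra of equivariant functions `M → ℚ̄` separating points
and closed under translation in the sense `h (x + y) ∈ H ⊗ H`.  It is the same thing as a finite
flat commutative group scheme over `ℤ_(ℓ)` with `ℚ̄`-points `M`: see `HasFlatModel`.
-/

set_option autoImplicit false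

namespace Fermat.Agent.FlatModel

local notation "ℚbar" => AlgebraicClosure ℚ
local notation "Γℚ" => AlgebraicClosure ℚ ≃ₐ[ℚ] AlgebraicClosure ℚ

/-- Pull back of `ℚ̄`-valued functions along a map. -/
noncomputable def pullFun (R : Type) [CommRing R] [Algebra R ℚbar] {X Y : Type} (f : X → Y) :
    (Y → ℚbar) →ₐ[R] (X → ℚbar) :=
  AlgHom.pi fun x => Pi.evalAlgHom R (fun _ : Y => ℚbar) (f x)

@[simp] theorem pullFun_apply (R : Type) [CommRing R] [Algebra R ℚbar] {X Y : Type} (f : X → Y)
    (g : Y → ℚbar) (x : X) : pullFun R f g x = g (f x) := rfl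

/-- The algebra of functions on `X × Y` generated by `a(x) b(y)`, `a ∈ A`, `b ∈ B`: the image of
`A ⊗ B`. -/
noncomputable def boxAlg {R : Type} [CommRing R] [Algebra R ℚbar] {X Y : Type}
    (A : Subalgebra R (X → ℚbar)) (B : Subalgebra R (Y → ℚbar)) :
    Subalgebra R (X × Y → ℚbar) :=
  A.map (pullFun R Prod.fst) ⊔ B.map (pullFun R Prod.snd)

variable (ℓ : ℕ) (M : Type) [AddCommGroup M] (act : Γℚ → M → M)

/-- A finite `ℤ_(ℓ)`-order, closed under comultiplication, in the algebra of Galois-equivariant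
functions `M → ℚ̄`. -/
structure HopfOrder where
  /-- The algebra of functions. -/
  alg : Subalgebra (GaloisRep.ratLocalizedAt ℓ) (M → ℚbar)
  finite : Module.Finite (GaloisRep.ratLocalizedAt ℓ) alg
  equivariant : ∀ h ∈ alg, ∀ (σ : Γℚ) (m : M), h (act σ m) = σ (h m)
  separates : ∀ x y : M, (∀ h ∈ alg, h x = h y) → x = y
  comul_mem : ∀ h ∈ alg, (fun z : M × M => h (z.1 + z.2)) ∈ boxAlg alg alg

/-- `M` is, Galois-equivariantly, the group of `ℚ̄`-points of a finite flat cocommutative Hopf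
algebra over `ℤ_(ℓ)`.  This has exactly the shape occurring in S19 and in
`GaloisRepAdic.IsFlatAt`. -/
def HasFlatModel : Prop :=
  ∃ (H : Type) (_ : CommRing H) (_ : HopfAlgebra (GaloisRep.ratLocalizedAt ℓ) H),
    Module.Finite (GaloisRep.ratLocalizedAt ℓ) H ∧
    Module.Flat (GaloisRep.ratLocalizedAt ℓ) H ∧
    Coalgebra.IsCocomm (GaloisRep.ratLocalizedAt ℓ) H ∧
    ∃ e : WithConv (H →ₐ[GaloisRep.ratLocalizedAt ℓ] ℚbar) ≃ M,
      (∀ f g : WithConv (H →ₐ[GaloisRep.ratLocalizedAt ℓ] ℚbar), e (f * g) = e f + e g) ∧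
      ∀ (σ : Γℚ) (f g : WithConv (H →ₐ[GaloisRep.ratLocalizedAt ℓ] ℚbar)),
        (∀ h : H, g h = σ (f h)) → e g = act σ (e f)

end Fermat.Agent.FlatModel
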