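import Fermat.Agent.Flat.HopfDefs
import Fermat.Agent.Galois.QbarInstances
import Mathlib.FieldTheory.Galois.Infinite
import Mathlib.RingTheory.Localization.Module
import Mathlib.RingTheory.IntegralClosure.IntegrallyClosed
import Mathlib.LinearAlgebra.TensorProduct.Basis
import Mathlib.RingTheory.TensorProduct.Maps

/-!
# Bases of orders of Galois-equivariant functions
-/

set_option autoImplicit false

namespace Fermat.Agent.FlatModel

open scoped TensorProduct

local notation "ℚbar" => AlgebraicClosure ℚ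
local notation "Γℚ" => AlgebraicClosure ℚ ≃ₐ[ℚ] AlgebraicClosure ℚ

section base

variable (ℓ : ℕ)

theorem ratLocalizedAt_isPrincipal : IsPrincipalIdealRing (GaloisRep.ratLocalizedAt ℓ) := by
  constructor
  intro I
  obtain ⟨g, hg⟩ := (IsPrincipalIdealRing.principal (I.comap (Int.castRingHom (GaloisRep.ratLocalizedAt ℓ)))).principal
  refine ⟨⟨(g : (GaloisRep.ratLocalizedAt ℓ)), le_antisymm (fun x hx => ?_) ?_⟩⟩
  · have hden : ((x : ℚ).den).Coprime ℓ := x.2
    have hu : (1 / ((x : ℚ).den : ℚ)).den.Coprime ℓ := by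
      rw [one_div, Rat.inv_natCast_den_of_pos (x : ℚ).pos]
      exact hden
    have hnum : ((x : ℚ).num : (GaloisRep.ratLocalizedAt ℓ)) = (((x : ℚ).den : ℕ) : (GaloisRep.ratLocalizedAt ℓ)) * x := by
      apply Subtype.ext
      push_cast
      rw [mul_comm, Rat.mul_den_eq_num]
    have hmem : (x : ℚ).num ∈ I.comap (Int.castRingHom (GaloisRep.ratLocalizedAt ℓ)) := by
      show ((x : ℚ).num : (GaloisRep.ratLocalizedAt ℓ)) ∈ I
      rw [hnum]; exact I.mul_mem_left _ hx
    rw [hg] at hmem
    obtain ⟨k, hk⟩ := Submodule.mem_span_singleton.mp hmem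
    rw [Submodule.mem_span_singleton]
    refine ⟨(k : (GaloisRep.ratLocalizedAt ℓ)) * ⟨_, hu⟩, ?_⟩
    apply Subtype.ext
    rw [smul_eq_mul] at hk
    have hne : ((x : ℚ).den : ℚ) ≠ 0 := by exact_mod_cast (x : ℚ).den_nz
    have hk' : (k : ℚ) * (g : ℚ) = ((x : ℚ).num : ℚ) := by exact_mod_cast hk
    simp only [smul_eq_mul, MulMemClass.coe_mul]
    push_cast
    have := Rat.mul_den_eq_num (x : ℚ)
    field_simp
    rw [mul_comm] at this
    linarith
  · rw [Submodule.span_singleton_le_iff_mem]
    have : g ∈ I.comap (Int.castRingHom (GaloisRep.ratLocalizedAt ℓ)) := hg ▸ Submodule.mem_span_singleton_self g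
    exact this

theorem ratLocalizedAt_isFractionRing : IsFractionRing (GaloisRep.ratLocalizedAt ℓ) ℚ := by
  refine IsFractionRing.of_field _ _ fun z => ⟨(z.num : (GaloisRep.ratLocalizedAt ℓ)), ((z.den : ℕ) : (GaloisRep.ratLocalizedAt ℓ)), ?_⟩
  simp [Rat.num_div_den]

end base

section functions

variable {R : Type} [CommRing R] [Algebra R ℚbar] {X Y : Type}

theorem pi_sum_apply {ι : Type*} (s : Finset ι) (u : ι → X → ℚbar) (x : X) :
    (∑ i ∈ s, u i) x = ∑ i ∈ s, u i x := Finset.sum_apply x s u

/-- Galois descent: equivariant functions independent over `ℚ` are independent over `ℚ̄`. -/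
theorem linearIndependent_qbar_of_equivariant {act : Γℚ → X → X}
    (hact : ∀ σ, Function.Surjective (act σ)) {ι : Type*} {v : ι → X → ℚbar}
    (hequiv : ∀ i σ x, v i (act σ x) = σ (v i x)) (hv : LinearIndependent ℚ v) :
    LinearIndependent ℚbar v := by
  classical
  rw [linearIndependent_iff']
  intro s
  induction s using Finset.induction with
  | empty => simp
  | insert a t hat ih =>
    intro c hc
    by_cases hca : c a = 0
    · rw [Finset.sum_insert hat, hca, zero_smul, zero_add] at hc
      intro i hi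
      rcases Finset.mem_insert.mp hi with rfl | hi
      · exact hca
      · exact ih c hc i hi
    exfalso
    set d : ι → ℚbar := fun i => (c a)⁻¹ * c i with hd
    have hda : d a = 1 := inv_mul_cancel₀ hca
    have hd0 : ∑ i ∈ insert a t, d i • v i = 0 := by
      have := congrArg ((c a)⁻¹ • ·) hc
      simpa [hd, Finset.smul_sum, smul_smul] using this
    have hrat : ∀ i ∈ t, d i ∈ Set.range (algebraMap ℚ ℚbar) := by
      intro i hi
      rw [InfiniteGalois.mem_range_algebraMap_iff_fixed]
      intro σ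
      have hσ : ∑ j ∈ insert a t, σ (d j) • v j = 0 := by
        funext x
        obtain ⟨y, rfl⟩ := hact σ x
        have := congrArg σ (congrFun hd0 y)
        simp only [pi_sum_apply, Pi.smul_apply, smul_eq_mul, Pi.zero_apply, map_sum, map_mul,
          map_zero] at this ⊢
        simpa [hequiv] using this
      have hsub : ∑ j ∈ t, (σ (d j) - d j) • v j = 0 := by
        simp only [sub_smul, Finset.sum_sub_distrib]
        rw [Finset.sum_insert hat, hda] at hd0 hσ
        rw [map_one] at hσ
        exact sub_eq_zero.mpr (add_left_cancel (hσ.trans hd0.symm))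
      exact sub_eq_zero.mp (ih _ hsub i hi)
    have hrat' : ∀ i ∈ insert a t, ∃ q : ℚ, algebraMap ℚ ℚbar q = d i := by
      intro i hi
      rcases Finset.mem_insert.mp hi with rfl | hi
      · exact ⟨1, by rw [map_one, hda]⟩
      · exact hrat i hi
    choose! q hq using hrat'
    have hq0 : ∑ i ∈ insert a t, q i • v i = 0 := by
      rw [← hd0]
      refine Finset.sum_congr rfl fun i hi => ?_
      funext x
      simp only [Pi.smul_apply, Algebra.smul_def, ← hq i hi]
      rfl
    have := linearIndependent_iff'.mp hv _ q hq0 a (Finset.mem_insert_self a t)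
    have h1 := hq a (Finset.mem_insert_self a t)
    rw [this, map_zero, hda] at h1
    exact zero_ne_one h1

/-- A set of functions closed under products, containing `1` and separating the points spans
everything over `ℚ̄`. -/
theorem span_eq_top_of_separates [Finite X] (A : Subalgebra R (X → ℚbar))
    (hsep : ∀ x y : X, (∀ h ∈ A, h x = h y) → x = y) :
    Submodule.span ℚbar (A : Set (X → ℚbar)) = ⊤ := by
  classical
  cases nonempty_fintype X
  have hadj : (Algebra.adjoin ℚbar (A : Set (X → ℚbar))).toSubmodule =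
      Submodule.span ℚbar (A : Set (X → ℚbar)) := by
    rw [Algebra.adjoin_eq_span]
    congr 1
    exact congrArg SetLike.coe (Submonoid.closure_eq A.toSubsemiring.toSubmonoid)
  rw [eq_top_iff]
  intro f _
  rw [← hadj, Subalgebra.mem_toSubmodule]
  set T := Algebra.adjoin ℚbar (A : Set (X → ℚbar))
  have hsingle : ∀ x : X, Pi.single x (1 : ℚbar) ∈ T := by
    intro x
    have : ∀ y, ∃ h ∈ A, y ≠ x → h x ≠ h y := fun y => by
      by_cases hy : y = x
      · exact ⟨0, A.zero_mem, fun h => absurd hy h⟩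
      · by_contra hcon
        push Not at hcon
        exact hy ((hsep x y fun h hh => (hcon h hh).2).symm)
    choose h hA hne using this
    have he : Pi.single x (1 : ℚbar) = ∏ y ∈ Finset.univ.erase x,
        (h y x - h y y)⁻¹ • (h y - algebraMap ℚbar (X → ℚbar) (h y y)) := by
      funext z
      rw [Finset.prod_apply]
      by_cases hz : z = x
      · subst hz
        rw [Pi.single_eq_same, eq_comm]
        refine Finset.prod_eq_one fun y hy => ?_
        have hyx := sub_ne_zero.mpr (hne y (Finset.ne_of_mem_erase hy))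
        simp [inv_mul_cancel₀ hyx]
      · rw [Pi.single_eq_of_ne hz, eq_comm]
        exact Finset.prod_eq_zero (Finset.mem_erase.mpr ⟨hz, Finset.mem_univ z⟩) (by simp)
    rw [he]
    exact T.prod_mem fun y _ => T.smul_mem (T.sub_mem (Algebra.subset_adjoin (hA y))
      (T.algebraMap_mem _)) _
  have hf : f = ∑ x, f x • Pi.single x (1 : ℚbar) := by
    funext z
    simp [Finset.sum_apply, Pi.single_apply]
  rw [hf]
  exact T.sum_mem fun x _ => T.smul_mem (hsingle x) _

/-- The map `A ⊗ B → (X × Y → ℚ̄)` attached to two maps into function algebras. -/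
noncomputable def boxHom {A B : Type} [CommRing A] [Algebra R A] [CommRing B] [Algebra R B]
    (f : A →ₐ[R] (X → ℚbar)) (g : B →ₐ[R] (Y → ℚbar)) : A ⊗[R] B →ₐ[R] (X × Y → ℚbar) :=
  Algebra.TensorProduct.productMap ((pullFun R Prod.fst).comp f) ((pullFun R Prod.snd).comp g)

@[simp] theorem boxHom_tmul {A B : Type} [CommRing A] [Algebra R A] [CommRing B] [Algebra R B]
    (f : A →ₐ[R] (X → ℚbar)) (g : B →ₐ[R] (Y → ℚbar)) (a : A) (b : B) (z : X × Y) :
    boxHom f g (a ⊗ₜ b) z = f a z.1 * g b z.2 := by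
  simp [boxHom]

theorem range_boxHom (A : Subalgebra R (X → ℚbar)) (B : Subalgebra R (Y → ℚbar)) :
    (boxHom A.val B.val).range = boxAlg A B := by
  rw [boxHom, Algebra.TensorProduct.productMap_range, AlgHom.range_comp, AlgHom.range_comp,
    Subalgebra.range_val, Subalgebra.range_val, boxAlg]

theorem mem_boxAlg_of_sum {A : Subalgebra R (X → ℚbar)} {B : Subalgebra R (Y → ℚbar)}
    {F : X × Y → ℚbar} {ι : Type*} (s : Finset ι) (a : ι → A) (b : ι → B)
    (h : ∀ x y, F (x, y) = ∑ i ∈ s, (a i : X → ℚbar) x * (b i : Y → ℚbar) y) :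
    F ∈ boxAlg A B := by
  rw [← range_boxHom]
  refine ⟨∑ i ∈ s, a i ⊗ₜ b i, ?_⟩
  funext z
  show boxHom A.val B.val (∑ i ∈ s, a i ⊗ₜ b i) z = F z
  rw [map_sum, Finset.sum_apply]
  simp [h z.1 z.2]

theorem exists_sum_of_mem_boxAlg {A : Subalgebra R (X → ℚbar)} {B : Subalgebra R (Y → ℚbar)}
    {F : X × Y → ℚbar} (h : F ∈ boxAlg A B) :
    ∃ (n : ℕ) (a : Fin n → A) (b : Fin n → B),
      ∀ x y, F (x, y) = ∑ i, (a i : X → ℚbar) x * (b i : Y → ℚbar) y := by
  rw [← range_boxHom] at h
  obtain ⟨t, rfl⟩ := h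
  obtain ⟨S, rfl⟩ := TensorProduct.exists_finset (R := R) t
  refine ⟨_, fun i => ((Finset.equivFin S).symm i).1.1, fun i => ((Finset.equivFin S).symm i).1.2,
    fun x y => ?_⟩
  show boxHom A.val B.val (∑ i ∈ S, i.1 ⊗ₜ i.2) (x, y) = _
  rw [map_sum, Finset.sum_apply, ← Finset.sum_coe_sort, ← (Finset.equivFin S).symm.sum_comp]
  simp

theorem linearIndependent_mul_pairs {κ ι : Type*} [Finite κ] [Finite ι] {u : ι → X → ℚbar}
    {v : κ → Y → ℚbar} (hu : LinearIndependent ℚbar u) (hv : LinearIndependent ℚbar v) :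
    LinearIndependent ℚbar (fun (p : ι × κ) (z : X × Y) => u p.1 z.1 * v p.2 z.2) := by
  classical
  cases nonempty_fintype ι
  cases nonempty_fintype κ
  rw [Fintype.linearIndependent_iff] at hu hv ⊢
  intro c hc p
  have key : ∀ y i, ∑ j, c (i, j) * v j y = 0 := fun y => by
    refine hu (fun i => ∑ j, c (i, j) * v j y) (funext fun x => ?_)
    have := congrFun hc (x, y)
    simp only [Finset.sum_apply, Pi.smul_apply, smul_eq_mul, Pi.zero_apply,
      Fintype.sum_prod_type, Finset.sum_mul] at this ⊢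
    rw [← this]
    exact Finset.sum_congr rfl fun i _ => Finset.sum_congr rfl fun j _ => by ring
  exact hv (fun j => c (p.1, j)) (funext fun y => by
    simpa [Finset.sum_apply] using key y p.1) p.2

omit [Algebra R ℚbar] in
theorem injective_of_linearIndependent_basis {A V ι : Type*} [AddCommGroup A] [Module R A]
    [AddCommGroup V] [Module R V] (f : A →ₗ[R] V) (b : Module.Basis ι R A)
    (h : LinearIndependent R (f ∘ b)) : Function.Injective f := by
  intro x y hxy
  have hf : ∀ z, f z = Finsupp.linearCombination R (f ∘ b) (b.repr z) := fun z => by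
    conv_lhs => rw [← b.linearCombination_repr z]
    rw [Finsupp.apply_linearCombination]
  rw [hf, hf] at hxy
  exact b.repr.injective (h hxy)

end functions

section order

variable {ℓ : ℕ}

variable {X : Type} {act : Γℚ → X → X} (A : Subalgebra (GaloisRep.ratLocalizedAt ℓ) (X → ℚbar))

theorem act_injective (hequiv : ∀ h ∈ A, ∀ (σ : Γℚ) x, h (act σ x) = σ (h x))
    (hsep : ∀ x y : X, (∀ h ∈ A, h x = h y) → x = y) (σ : Γℚ) : Function.Injective (act σ) :=
  fun x y hxy => hsep x y fun h hh => σ.injective (by rw [← hequiv h hh, ← hequiv h hh, hxy])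

/-- A finite algebra of equivariant functions separating points has a `ℤ_(ℓ)`-basis which is a
`ℚ̄`-basis of all functions. -/
theorem exists_basis [Finite X] (hfin : Module.Finite (GaloisRep.ratLocalizedAt ℓ) A)
    (hequiv : ∀ h ∈ A, ∀ (σ : Γℚ) x, h (act σ x) = σ (h x))
    (hsep : ∀ x y : X, (∀ h ∈ A, h x = h y) → x = y) :
    ∃ (n : ℕ) (b : Module.Basis (Fin n) (GaloisRep.ratLocalizedAt ℓ) A) (B : Module.Basis (Fin n) ℚbar (X → ℚbar)),
      ∀ i, B i = (b i : X → ℚbar) := by
  have := ratLocalizedAt_isPrincipal ℓ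
  have := ratLocalizedAt_isFractionRing ℓ
  have : IsScalarTower (GaloisRep.ratLocalizedAt ℓ) ℚ ℚbar := IsScalarTower.of_algebraMap_eq fun _ => rfl
  have : FaithfulSMul (GaloisRep.ratLocalizedAt ℓ) ℚbar := (faithfulSMul_iff_algebraMap_injective _ _).mpr
    ((algebraMap ℚ ℚbar).injective.comp Subtype.val_injective)
  have : Module.IsTorsionFree (GaloisRep.ratLocalizedAt ℓ) (X → ℚbar) := inferInstance
  obtain ⟨n, b⟩ := Module.basisOfFiniteTypeTorsionFree' (R := (GaloisRep.ratLocalizedAt ℓ)) (M := A)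
  set v : Fin n → X → ℚbar := fun i => (b i : X → ℚbar) with hv
  have hR : LinearIndependent (GaloisRep.ratLocalizedAt ℓ) v :=
    b.linearIndependent.map' A.val.toLinearMap (LinearMap.ker_eq_bot.mpr Subtype.val_injective)
  have hQ : LinearIndependent ℚbar v :=
    linearIndependent_qbar_of_equivariant
      (fun σ => Finite.surjective_of_injective (act_injective A hequiv hsep σ))
      (fun i σ x => hequiv _ (b i).2 σ x) ((LinearIndependent.iff_fractionRing (GaloisRep.ratLocalizedAt ℓ) ℚ).mp hR)
  have hspan : ⊤ ≤ Submodule.span ℚbar (Set.range v) := by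
    rw [← span_eq_top_of_separates A hsep, Submodule.span_le]
    intro f hf
    have := congrArg (fun z : A => (z : X → ℚbar)) (b.sum_repr ⟨f, hf⟩)
    simp only [AddSubmonoidClass.coe_finsetSum] at this
    rw [← this]
    refine sum_mem fun i _ => ?_
    rw [SetLike.val_smul, ← algebraMap_smul ℚbar]
    exact Submodule.smul_mem _ _ (Submodule.subset_span ⟨i, rfl⟩)
  exact ⟨n, b, Module.Basis.mk hQ hspan, fun i => Module.Basis.mk_apply hQ hspan i⟩

/-- Every homomorphism of such an algebra to `ℚ̄` is evaluation at a point. -/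
theorem exists_eq_eval [Finite X] (hfin : Module.Finite (GaloisRep.ratLocalizedAt ℓ) A)
    (hequiv : ∀ h ∈ A, ∀ (σ : Γℚ) x, h (act σ x) = σ (h x))
    (hsep : ∀ x y : X, (∀ h ∈ A, h x = h y) → x = y) (φ : A →ₐ[(GaloisRep.ratLocalizedAt ℓ)] ℚbar) :
    ∃ x, ∀ h : A, φ h = (h : X → ℚbar) x := by
  classical
  cases nonempty_fintype X
  obtain ⟨n, b, B, hB⟩ := exists_basis A hfin hequiv hsep
  set Φ : (X → ℚbar) →ₗ[ℚbar] ℚbar := B.constr ℚbar fun i => φ (b i) with hΦ
  have hA : ∀ h : A, Φ (h : X → ℚbar) = φ h := by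
    intro h
    have := b.ext (f₁ := (Φ.restrictScalars (GaloisRep.ratLocalizedAt ℓ)).comp A.val.toLinearMap) (f₂ := φ.toLinearMap)
      fun i => by simp [← hB i, hΦ, Module.Basis.constr_basis]
    exact LinearMap.congr_fun this h
  have hmul : ∀ f g, Φ (f * g) = Φ f * Φ g := by
    have h1 : ∀ i g, Φ (B i * g) = Φ (B i) * Φ g := by
      intro i g
      refine LinearMap.congr_fun (B.ext (f₁ := Φ.comp (LinearMap.mulLeft ℚbar (B i)))
        (f₂ := (Φ (B i)) • Φ) fun j => ?_) g
      simp only [LinearMap.comp_apply, LinearMap.mulLeft_apply, LinearMap.smul_apply, smul_eq_mul]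
      rw [hB i, hB j, ← MulMemClass.coe_mul, hA, hA, hA, map_mul]
    intro f g
    refine LinearMap.congr_fun (B.ext (f₁ := Φ.comp (LinearMap.mulRight ℚbar g))
      (f₂ := (Φ g) • Φ) fun i => ?_) f |>.trans (mul_comm _ _)
    simp [h1 i g, mul_comm (Φ g)]
  have hone : Φ 1 = 1 := by rw [← map_one φ, ← hA 1]; rfl
  obtain ⟨x, hx⟩ : ∃ x, Φ (Pi.single x 1) ≠ 0 := by
    by_contra hcon
    push Not at hcon
    have h1 : (1 : X → ℚbar) = ∑ x, Pi.single x 1 := by
      rw [Finset.univ_sum_single]; rfl
    rw [h1, map_sum, Finset.sum_eq_zero fun x _ => hcon x] at hone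
    exact zero_ne_one hone
  have hx1 : Φ (Pi.single x 1) = 1 := by
    have := hmul (Pi.single x 1) (Pi.single x 1)
    rw [← Pi.single_mul, one_mul] at this
    exact (mul_left_eq_self₀.mp this.symm).resolve_right hx
  refine ⟨x, fun h => ?_⟩
  have h2 : Pi.single x 1 * (h : X → ℚbar) = (h : X → ℚbar) x • Pi.single x (1 : ℚbar) := by
    funext z
    by_cases hz : z = x
    · subst hz; simp
    · simp [hz]
  have := hmul (Pi.single x 1) (h : X → ℚbar)
  rw [h2, map_smul, hx1, one_mul, smul_eq_mul, mul_one, hA] at this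
  exact this.symm

end order

end Fermat.Agent.FlatModel
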