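/-
Elements of `ℚ̄(X₀(N))` with rational `q`-expansion: they are quotients of series with integer
coefficients, hence their size along a good reduction at `ℓ` is a power of `ℓ` and their
reductions have coefficients in the prime field.
-/
import Fermat.Agent.Flat.HopfBasis
import Fermat.Agent.Curve.Setup
import Fermat.Agent.Curve.ReductionLattice
import Fermat.Prelude.Def_ModularCurve_ArithmeticGalois
import Fermat.Prelude.Def_ModularCurve_X0ModL
import Fermat.Prelude.Def_EllipticCurve_FrobeniusTrace
import Mathlib.FieldTheory.IntermediateField.Algebraic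
import Mathlib.Algebra.CharP.Lemmas

set_option autoImplicit false

noncomputable section

namespace Fermat.Agent.FlatModel.BModular

open AlgebraicCurve ModularCurve IntermediateField

local notation "ℚbar" => AlgebraicClosure ℚ
local notation "Γℚ" => AlgebraicClosure ℚ ≃ₐ[ℚ] AlgebraicClosure ℚ

theorem smul_eq_algebraMap_mul {L : Type*} [Field L] (c : L) (y : LaurentSeries L) :
    c • y = algebraMap L (LaurentSeries L) c * y := by
  ext m
  rw [algebraMap_laurentSeries_eq_single, HahnSeries.coeff_single_zero_mul, HahnSeries.coeff_smul,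
    smul_eq_mul]

/-- coefficient map, as a `ℚ`-linear map to functions on exponents -/
def coeffFun : LaurentSeries ℚ →ₗ[ℚ] (ℤ → ℚbar) where
  toFun y m := algebraMap ℚ ℚbar (y.coeff m)
  map_add' y z := funext fun m => by simp
  map_smul' c y := funext fun m => by
    simp [Algebra.smul_def]

theorem coeffFun_injective : Function.Injective coeffFun := fun y z h => by
  ext m; exact (algebraMap ℚ ℚbar).injective (congrFun h m)

theorem coeff_smul_coeffEmb (c : ℚbar) (y : LaurentSeries ℚ) (m : ℤ) :
    (c • coeffEmb ℚbar y).coeff m = c * algebraMap ℚ ℚbar (y.coeff m) := by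
  rw [HahnSeries.coeff_smul, smul_eq_mul, coeffEmb_coeff]

theorem coeffEmb_smul (q : ℚ) (y : LaurentSeries ℚ) :
    coeffEmb ℚbar (q • y) = algebraMap ℚ ℚbar q • coeffEmb ℚbar y := by
  ext m
  rw [coeff_smul_coeffEmb, coeffEmb_coeff, HahnSeries.coeff_smul, smul_eq_mul, map_mul]

variable (F₀ : IntermediateField ℚ (LaurentSeries ℚ))

theorem mem_span_of_mem_baseChange {x : LaurentSeries ℚbar}
    (hx : x ∈ laurentBaseChange ℚbar F₀) :
    x ∈ Submodule.span ℚbar (⇑(coeffEmb ℚbar) '' (F₀ : Set (LaurentSeries ℚ))) := by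
  set K₀ : Subfield (LaurentSeries ℚbar) := F₀.toSubfield.map (coeffEmb ℚbar) with hK₀
  set C : Set (LaurentSeries ℚbar) := Set.range (algebraMap ℚbar (LaurentSeries ℚbar)) with hC
  have halg : ∀ z ∈ C, IsAlgebraic K₀ z := by
    rintro _ ⟨c, rfl⟩
    obtain ⟨p, hp0, hp⟩ := (IsFractionRing.isAlgebraic_iff ℤ ℚ ℚbar).mpr
      (Algebra.IsAlgebraic.isAlgebraic (R := ℚ) c)
    have hinj : Function.Injective (Int.castRingHom K₀) := fun a b h => by
      have h' := congrArg (fun z : K₀ => (z : LaurentSeries ℚbar)) h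
      simp only [eq_intCast, SubringClass.coe_intCast] at h'
      rw [← map_intCast (algebraMap ℚbar (LaurentSeries ℚbar)) a,
        ← map_intCast (algebraMap ℚbar (LaurentSeries ℚbar)) b] at h'
      exact Int.cast_injective ((algebraMap ℚbar _).injective h')
    refine ⟨p.map (Int.castRingHom K₀), (Polynomial.map_ne_zero_iff hinj).mpr hp0, ?_⟩
    rw [Polynomial.aeval_def, Polynomial.eval₂_map,
      show (algebraMap K₀ (LaurentSeries ℚbar)).comp (Int.castRingHom K₀) =
        (algebraMap ℚbar (LaurentSeries ℚbar)).comp (algebraMap ℤ ℚbar) from RingHom.ext_int _ _,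
      ← Polynomial.hom_eval₂]
    rw [Polynomial.aeval_def] at hp
    rw [hp, map_zero]
  have h1 : x ∈ IntermediateField.adjoin K₀ C := by
    rw [mem_laurentBaseChange_iff] at hx
    induction hx using Subfield.closure_induction with
    | mem y hy =>
        rcases hy with hy | ⟨z, hz, rfl⟩
        · exact IntermediateField.subset_adjoin _ _ hy
        · exact IntermediateField.algebraMap_mem _ (⟨_, z, hz, rfl⟩ : K₀)
    | one => exact one_mem _
    | add a b _ _ ha hb => exact add_mem ha hb
    | neg a _ ha => exact neg_mem ha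
    | inv a _ ha => exact inv_mem ha
    | mul a b _ _ ha hb => exact mul_mem ha hb
  rw [← IntermediateField.mem_toSubalgebra,
    IntermediateField.adjoin_toSubalgebra_of_isAlgebraic halg] at h1
  set E := Submodule.span ℚbar (⇑(coeffEmb ℚbar) '' (F₀ : Set (LaurentSeries ℚ))) with hE
  have hone : (1 : LaurentSeries ℚbar) ∈ E :=
    Submodule.subset_span ⟨1, one_mem F₀, map_one _⟩
  clear hx
  induction h1 using Algebra.adjoin_induction with
  | mem z hz =>
      obtain ⟨c, rfl⟩ := hz
      rw [← mul_one (algebraMap ℚbar _ c), ← smul_eq_algebraMap_mul]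
      exact E.smul_mem c hone
  | algebraMap r =>
      obtain ⟨z, hz, hzr⟩ := r.2
      exact Submodule.subset_span ⟨z, hz, hzr⟩
  | add a b _ _ ha hb => exact add_mem ha hb
  | mul a b ha' hb' ha hb =>
      clear ha' hb'
      induction ha, hb using Submodule.span_induction₂ with
      | mem_mem a b ha hb =>
          obtain ⟨y, hy, rfl⟩ := ha
          obtain ⟨z, hz, rfl⟩ := hb
          exact Submodule.subset_span ⟨y * z, mul_mem hy hz, map_mul _ _ _⟩
      | zero_left => simp
      | zero_right => simp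
      | add_left _ _ _ _ _ _ h1 h2 => rw [add_mul]; exact add_mem h1 h2
      | add_right _ _ _ _ _ _ h1 h2 => rw [mul_add]; exact add_mem h1 h2
      | smul_left r a b _ _ h1 =>
          rw [smul_eq_algebraMap_mul, mul_assoc, ← smul_eq_algebraMap_mul]
          exact E.smul_mem r h1
      | smul_right r a b _ _ h1 =>
          rw [smul_eq_algebraMap_mul, mul_left_comm, ← smul_eq_algebraMap_mul]
          exact E.smul_mem r h1

/-- A series in the base change fixed by all coefficientwise conjugations comes from `F₀`. -/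
theorem exists_coeffEmb_eq_of_fixed {x : LaurentSeries ℚbar}
    (hx : x ∈ laurentBaseChange ℚbar F₀)
    (hfix : ∀ σ : Γℚ, coeffMap (σ : ℚbar →+* ℚbar) x = x) :
    ∃ y ∈ F₀, coeffEmb ℚbar y = x := by
  classical
  obtain ⟨n, c, g, hg⟩ := Submodule.mem_span_set'.mp (mem_span_of_mem_baseChange F₀ hx)
  choose y hyF hy using fun i => (g i).2
  set W : Submodule ℚ (LaurentSeries ℚ) := Submodule.span ℚ (Set.range y) with hW
  have : FiniteDimensional ℚ W := FiniteDimensional.span_of_finite ℚ (Set.finite_range y)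
  set b := Module.finBasis ℚ W
  have hWF : ∀ w ∈ W, w ∈ F₀ := fun w hw => by
    induction hw using Submodule.span_induction with
    | mem z hz => obtain ⟨i, rfl⟩ := hz; exact hyF i
    | zero => exact zero_mem _
    | add a b _ _ ha hb => exact add_mem ha hb
    | smul q a _ ha =>
        rw [smul_eq_algebraMap_mul]
        exact mul_mem (IntermediateField.algebraMap_mem _ q) ha
  set d : Fin (Module.finrank ℚ W) → ℚbar := fun j =>
    ∑ i, c i * algebraMap ℚ ℚbar (b.repr ⟨y i, Submodule.subset_span ⟨i, rfl⟩⟩ j) with hd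
  have hcoeff : ∀ m, x.coeff m = ∑ j, d j * algebraMap ℚ ℚbar ((b j : LaurentSeries ℚ).coeff m) := by
    intro m
    rw [← hg, HahnSeries.coeff_sum]
    simp only [hd, Finset.sum_mul]
    rw [Finset.sum_comm]
    refine Finset.sum_congr rfl fun i _ => ?_
    rw [← hy i, coeff_smul_coeffEmb]
    have h := congrArg (fun w : W => coeffFun (w : LaurentSeries ℚ) m)
      (b.sum_repr ⟨y i, Submodule.subset_span ⟨i, rfl⟩⟩)
    simp only [Submodule.coe_sum, Submodule.coe_smul, map_sum, map_smul, Finset.sum_apply,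
      Pi.smul_apply, Algebra.smul_def] at h
    rw [show algebraMap ℚ ℚbar ((y i).coeff m) = coeffFun (y i) m from rfl, ← h, Finset.mul_sum]
    exact Finset.sum_congr rfl fun j _ => (mul_assoc _ _ _).symm
  have hli : LinearIndependent ℚbar fun j => coeffFun (b j : LaurentSeries ℚ) := by
    refine linearIndependent_qbar_of_equivariant (act := fun (_ : Γℚ) (m : ℤ) => m)
      (fun _ => Function.surjective_id) (fun j σ m => (σ.commutes _).symm) ?_
    exact (b.linearIndependent.map' W.subtype (Submodule.ker_subtype W)).map' coeffFun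
      (LinearMap.ker_eq_bot.mpr coeffFun_injective)
  have hrat : ∀ j, d j ∈ Set.range (algebraMap ℚ ℚbar) := by
    intro j
    rw [InfiniteGalois.mem_range_algebraMap_iff_fixed]
    intro σ
    refine sub_eq_zero.mp (Fintype.linearIndependent_iff.mp hli (fun j => σ (d j) - d j) ?_ j)
    funext m
    have h := congrArg (fun z => HahnSeries.coeff z m) (hfix σ)
    simp only [coeffMap_coeff, hcoeff m, map_sum, map_mul, AlgHomClass.commutes,
      RingHom.coe_coe] at h
    simp only [Finset.sum_apply, Pi.smul_apply, smul_eq_mul, Pi.zero_apply, sub_mul,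
      Finset.sum_sub_distrib, sub_eq_zero]
    exact h
  choose q hq using hrat
  refine ⟨∑ j, q j • (b j : LaurentSeries ℚ),
    sum_mem fun j _ => hWF _ (W.smul_mem _ (b j).2), ?_⟩
  ext m
  rw [hcoeff m, map_sum, HahnSeries.coeff_sum]
  exact Finset.sum_congr rfl fun j _ => by rw [coeffEmb_smul, coeff_smul_coeffEmb, hq]

/-- integer series to rational series -/
abbrev intQ : LaurentSeries ℤ →+* LaurentSeries ℚ := coeffMap (Int.castRingHom ℚ)

theorem intQ_injective : Function.Injective intQ := fun u v h => by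
  ext m
  simpa using congrArg (fun z => HahnSeries.coeff z m) h

/-- every element of the rational modular function field is a quotient of integer series in it -/
theorem exists_int_quotient (N : ℕ) {x : LaurentSeries ℚ}
    (hx : x ∈ modularFunctionFieldFull N) :
    ∃ u v : LaurentSeries ℤ, v ≠ 0 ∧ intQ u ∈ modularFunctionFieldFull N ∧
      intQ v ∈ modularFunctionFieldFull N ∧ x * intQ v = intQ u := by
  induction hx using IntermediateField.adjoin_induction with
  | mem y hy =>
      obtain ⟨d, hd, hdN, rfl⟩ := hy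
      haveI := hd
      have he : intQ (qExpand ℤ d (jqModC ℤ)) = qExpand ℚ d jq := by
        rw [intQ, coeffMap_qExpand, coeffMap_jqModC, jqModC_rat]
      exact ⟨qExpand ℤ d (jqModC ℤ), 1, one_ne_zero, by rw [he]; exact jqd_mem_full N hdN,
        by rw [map_one]; exact one_mem _, by rw [map_one, mul_one, he]⟩
  | algebraMap q =>
      refine ⟨HahnSeries.single 0 q.num, HahnSeries.single 0 (q.den : ℤ),
        by simp [q.den_nz], ?_, ?_, ?_⟩
      · rw [coeffMap_single, ← algebraMap_laurentSeries_eq_single]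
        exact IntermediateField.algebraMap_mem _ _
      · rw [coeffMap_single, ← algebraMap_laurentSeries_eq_single]
        exact IntermediateField.algebraMap_mem _ _
      · rw [coeffMap_single, coeffMap_single, algebraMap_laurentSeries_eq_single,
          HahnSeries.single_mul_single, add_zero]
        congr 1
        simp [Rat.mul_den_eq_num]
  | add y z _ _ hy hz =>
      obtain ⟨u, v, hv, huF, hvF, h⟩ := hy
      obtain ⟨u', v', hv', huF', hvF', h'⟩ := hz
      refine ⟨u * v' + u' * v, v * v', mul_ne_zero hv hv', ?_, ?_, ?_⟩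
      · simpa only [map_add, map_mul] using add_mem (mul_mem huF hvF') (mul_mem huF' hvF)
      · simpa only [map_mul] using mul_mem hvF hvF'
      · simp only [map_mul, map_add, ← h, ← h']; ring
  | inv y _ hy =>
      obtain ⟨u, v, hv, huF, hvF, h⟩ := hy
      by_cases hu : u = 0
      · subst hu
        have hy0 : y = 0 := by
          rw [map_zero] at h
          exact (mul_eq_zero.mp h).resolve_right
            ((map_ne_zero_iff _ intQ_injective).mpr hv)
        exact ⟨0, 1, one_ne_zero, by simp, by simp, by simp [hy0]⟩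
      · have hy0 : y ≠ 0 := fun h0 => hu (intQ_injective (by rw [← h, h0, zero_mul, map_zero]))
        refine ⟨v, u, hu, hvF, huF, ?_⟩
        rw [← h, ← mul_assoc, inv_mul_cancel₀ hy0, one_mul]
  | mul y z _ _ hy hz =>
      obtain ⟨u, v, hv, huF, hvF, h⟩ := hy
      obtain ⟨u', v', hv', huF', hvF', h'⟩ := hz
      refine ⟨u * u', v * v', mul_ne_zero hv hv', ?_, ?_, ?_⟩
      · simpa only [map_mul] using mul_mem huF huF'
      · simpa only [map_mul] using mul_mem hvF hvF'
      · simp only [map_mul, ← h, ← h']; ring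

/-- content of an integer series at `ℓ` -/
theorem exists_content {ℓ : ℕ} (hℓ : ℓ.Prime) {v : LaurentSeries ℤ} (hv : v ≠ 0) :
    ∃ (n : ℕ) (w : LaurentSeries ℤ), v = HahnSeries.single 0 ((ℓ : ℤ) ^ n) * w ∧
      ∃ m, ¬ (ℓ : ℤ) ∣ w.coeff m := by
  obtain ⟨m₀, hm₀⟩ : ∃ m, v.coeff m ≠ 0 := by
    by_contra hh
    push Not at hh
    exact hv (HahnSeries.ext (funext hh))
  suffices H : ∀ (N : ℕ) (v : LaurentSeries ℤ), v.coeff m₀ ≠ 0 → (v.coeff m₀).natAbs ≤ N →
      ∃ (n : ℕ) (w : LaurentSeries ℤ), v = HahnSeries.single 0 ((ℓ : ℤ) ^ n) * w ∧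
        ∃ m, ¬ (ℓ : ℤ) ∣ w.coeff m from H _ v hm₀ le_rfl
  intro N
  induction N with
  | zero => intro v h0 hle; exact absurd (Int.natAbs_eq_zero.mp (Nat.le_zero.mp hle)) h0
  | succ N ih =>
    intro v h0 hle
    by_cases hex : ∃ m, ¬ (ℓ : ℤ) ∣ v.coeff m
    · exact ⟨0, v, by simp, hex⟩
    push Not at hex
    let φ : ZeroHom ℤ ℤ := ⟨fun a => a / (ℓ : ℤ), by simp⟩
    set w : LaurentSeries ℤ := v.map φ with hw
    have hvw : v = HahnSeries.single 0 (ℓ : ℤ) * w := by
      ext m
      rw [HahnSeries.coeff_single_zero_mul]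
      exact (Int.mul_ediv_cancel' (hex m)).symm
    have hm : v.coeff m₀ = (ℓ : ℤ) * w.coeff m₀ := by
      conv_lhs => rw [hvw, HahnSeries.coeff_single_zero_mul]
    have hw0 : w.coeff m₀ ≠ 0 := fun h => h0 (by rw [hm, h, mul_zero])
    have hlt : (w.coeff m₀).natAbs ≤ N := by
      have h1 : (v.coeff m₀).natAbs = ℓ * (w.coeff m₀).natAbs := by
        rw [hm, Int.natAbs_mul, Int.natAbs_natCast]
      have h2 : 0 < (w.coeff m₀).natAbs := Int.natAbs_pos.mpr hw0
      nlinarith [hℓ.two_le]
    obtain ⟨n, w', hw', hex'⟩ := ih w hw0 hlt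
    refine ⟨n + 1, w', ?_, hex'⟩
    rw [hvw, hw', ← mul_assoc, HahnSeries.single_mul_single, add_zero, ← pow_succ']

section Reduction

variable {N : ℕ} {ℓ : ℕ} [Fact ℓ.Prime] {A : ValuationSubring (AlgebraicClosure ℚ)}

theorem charP_residue (hA : A.LiesOverPrime ℓ) : CharP (IsLocalRing.ResidueField A) ℓ := by
  have h0 : ((ℓ : ℕ) : IsLocalRing.ResidueField A) = 0 := by
    rw [← map_natCast (IsLocalRing.residue A), IsLocalRing.residue_eq_zero_iff,
      ← ValuationSubring.coe_mem_nonunits_iff]
    exact_mod_cast hA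
  exact (CharP.charP_iff_prime_eq_zero (Fact.out : ℓ.Prime)).mpr h0

theorem coeffMap_int (R : Type*) [CommRing R] {S : Type*} [CommRing S] (f : R →+* S)
    (u : LaurentSeries ℤ) :
    coeffMap f (coeffMap (Int.castRingHom R) u) = coeffMap (Int.castRingHom S) u := by
  rw [coeffMap_coeffMap]
  exact coeffMap_congr (RingHom.ext_int _ _) u

variable
  (G : Curve.GoodReduction A (modularFunctionFieldBar N) (IsLocalRing.ResidueField A)
    (modularFunctionFieldFullC (IsLocalRing.ResidueField A) N))
  (hπ : G.π = IsLocalRing.residue A)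
  (hφ : ∀ (y : LaurentSeries A) (hy : coeffMap A.subtype y ∈ modularFunctionFieldBar N),
    ∃ h : (⟨coeffMap A.subtype y, hy⟩ : modularFunctionFieldBar N) ∈ G.V,
      (G.φ ⟨_, h⟩ : LaurentSeries (IsLocalRing.ResidueField A)) =
        coeffMap (IsLocalRing.residue A) y)

/-- the conjugate of a function -/
abbrev galF (σ : Γℚ) (f : modularFunctionFieldBar N) : modularFunctionFieldBar N :=
  SemilinearAut.toRingAut (arithmeticGalois (modularFunctionFieldFull N) σ) f

include hπ hφ

/-- an integer series in the function field, as an integral function -/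
theorem exists_int_element {u : LaurentSeries ℤ} (hu : intQ u ∈ modularFunctionFieldFull N) :
    ∃ U : G.V, ((U : modularFunctionFieldBar N) : LaurentSeries ℚbar) =
        coeffMap (Int.castRingHom ℚbar) u ∧
      (G.φ U : LaurentSeries (IsLocalRing.ResidueField A)) =
        coeffMap (Int.castRingHom (IsLocalRing.ResidueField A)) u ∧
      ∀ σ : Γℚ, galF σ (U : modularFunctionFieldBar N) = U := by
  have he : coeffMap A.subtype (coeffMap (Int.castRingHom A) u) = coeffEmb ℚbar (intQ u) := by
    rw [coeffMap_int, coeffEmb, intQ, coeffMap_int]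
  have hmem : coeffMap A.subtype (coeffMap (Int.castRingHom A) u) ∈ modularFunctionFieldBar N := by
    rw [he]; exact coeffEmb_mem_laurentBaseChange _ hu
  obtain ⟨h, hh⟩ := hφ _ hmem
  refine ⟨⟨_, h⟩, coeffMap_int A A.subtype u, hh.trans (coeffMap_int A _ u),
    fun σ => Subtype.ext ?_⟩
  show coeffMap (σ : ℚbar →+* ℚbar) (coeffMap A.subtype (coeffMap (Int.castRingHom A) u)) =
    coeffMap A.subtype (coeffMap (Int.castRingHom A) u)
  rw [coeffMap_int, coeffMap_int]

/-- **A rational function is a power of `ℓ` times an integral rational function with non-zero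
reduction with coefficients in the prime field.** -/
theorem exists_zpow_mul (hA : A.LiesOverPrime ℓ) {f : modularFunctionFieldBar N} (hf : f ≠ 0)
    (hfix : ∀ σ : Γℚ, galF σ f = f) :
    ∃ (z : ℤ) (w : G.V), f = ((ℓ : modularFunctionFieldBar N)) ^ z * (w : modularFunctionFieldBar N) ∧
      G.φ w ≠ 0 ∧ (∀ σ : Γℚ, galF σ (w : modularFunctionFieldBar N) = w) ∧
      ∀ m, ((G.φ w : LaurentSeries (IsLocalRing.ResidueField A)).coeff m) ^ ℓ =
        (G.φ w : LaurentSeries (IsLocalRing.ResidueField A)).coeff m := by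
  have hℓ : ℓ.Prime := Fact.out
  have := charP_residue hA
  obtain ⟨y, hyF, hy⟩ := exists_coeffEmb_eq_of_fixed (modularFunctionFieldFull N) f.2
    fun σ => congrArg Subtype.val (hfix σ)
  obtain ⟨u, v, hv, huF, hvF, huv⟩ := exists_int_quotient N hyF
  have hy0 : y ≠ 0 := by
    rintro rfl
    exact hf (Subtype.ext (hy.symm.trans (map_zero _)))
  have hu : u ≠ 0 := by
    rintro rfl
    rw [map_zero] at huv
    exact (mul_ne_zero hy0 ((map_ne_zero_iff _ intQ_injective).mpr hv)) huv
  obtain ⟨a, u₀, hu₀, mu, hmu⟩ := exists_content hℓ hu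
  obtain ⟨b, v₀, hv₀, mv, hmv⟩ := exists_content hℓ hv
  have hint : ∀ {n : ℕ} {w : LaurentSeries ℤ},
      intQ (HahnSeries.single 0 ((ℓ : ℤ) ^ n) * w) ∈ modularFunctionFieldFull N →
      intQ w ∈ modularFunctionFieldFull N := by
    intro n w h
    rw [map_mul, coeffMap_single, ← algebraMap_laurentSeries_eq_single] at h
    have h2 := mul_mem (IntermediateField.algebraMap_mem (modularFunctionFieldFull N)
      ((ℓ : ℚ) ^ n)⁻¹) h
    rwa [← mul_assoc, map_inv₀, show ((Int.castRingHom ℚ) ((ℓ : ℤ) ^ n)) = (ℓ : ℚ) ^ n by simp,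
      inv_mul_cancel₀ (by
        rw [map_ne_zero]; exact pow_ne_zero _ (Nat.cast_ne_zero.mpr hℓ.ne_zero)), one_mul] at h2
  obtain ⟨U, hU, hUφ, hUfix⟩ := exists_int_element G hπ hφ (hint (hu₀ ▸ huF))
  obtain ⟨V, hV, hVφ, hVfix⟩ := exists_int_element G hπ hφ (hint (hv₀ ▸ hvF))
  have hne : ∀ {w : LaurentSeries ℤ} {m : ℤ}, ¬ (ℓ : ℤ) ∣ w.coeff m →
      coeffMap (Int.castRingHom (IsLocalRing.ResidueField A)) w ≠ 0 := by
    intro w m hm h0
    apply hm
    rw [← CharP.intCast_eq_zero_iff (IsLocalRing.ResidueField A) ℓ]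
    simpa using congrArg (fun z => HahnSeries.coeff z m) h0
  have hVφ0 : G.φ V ≠ 0 := fun h => hne hmv (by rw [← hVφ, h]; rfl)
  have hV0 : (V : modularFunctionFieldBar N) ≠ 0 := fun h =>
    hVφ0 (by rw [show V = 0 from Subtype.ext h, map_zero])
  set w : G.V := U * ⟨((V : modularFunctionFieldBar N))⁻¹, G.inv_mem_of_φ_ne_zero hVφ0⟩ with hw
  refine ⟨(a : ℤ) - b, w, ?_, ?_, ?_, ?_⟩
  · have hℓ0 : ((ℓ : ℕ) : modularFunctionFieldBar N) ≠ 0 := by
      rw [← map_natCast (algebraMap ℚbar (modularFunctionFieldBar N)), map_ne_zero]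
      exact Nat.cast_ne_zero.mpr hℓ.ne_zero
    have key : f * ((ℓ : modularFunctionFieldBar N) ^ b * V) =
        (ℓ : modularFunctionFieldBar N) ^ a * U := by
      apply Subtype.ext
      push_cast
      rw [← hy, hU, hV]
      have h := congrArg (coeffEmb ℚbar) huv
      rw [map_mul, hu₀, hv₀] at h
      simp only [coeffEmb, intQ, coeffMap_int, map_mul, coeffMap_single, map_pow,
        map_natCast] at h ⊢
      have hc : ∀ n : ℕ, ((ℓ : LaurentSeries ℚbar)) ^ n =
          HahnSeries.single 0 ((ℓ : ℚbar) ^ n) := fun n => by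
        rw [← algebraMap_laurentSeries_eq_single, map_pow, map_natCast]
      rw [hc, hc]
      exact h
    rw [zpow_sub₀ hℓ0, zpow_natCast, zpow_natCast, hw]
    push_cast
    field_simp
    linear_combination key
  · rw [hw, map_mul, G.φ_inv hVφ0]
    exact mul_ne_zero (fun h => hne hmu (by rw [← hUφ, h]; rfl)) (inv_ne_zero hVφ0)
  · intro σ
    rw [hw]
    push_cast
    rw [galF, map_mul, map_inv₀]
    exact congrArg₂ _ (hUfix σ) (congrArg _ (hVfix σ))
  · intro m
    have key : (G.φ w : LaurentSeries (IsLocalRing.ResidueField A)) *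
        coeffMap (Int.castRingHom (IsLocalRing.ResidueField A)) v₀ =
        coeffMap (Int.castRingHom (IsLocalRing.ResidueField A)) u₀ := by
      rw [← hUφ, ← hVφ, hw, map_mul, G.φ_inv hVφ0]
      push_cast
      rw [inv_mul_cancel_right₀]
      exact fun h => hVφ0 (Subtype.ext h)
    have h2 := congrArg (coeffMap (frobenius (IsLocalRing.ResidueField A) ℓ)) key
    rw [map_mul, coeffMap_int, coeffMap_int, ← key] at h2
    have h3 := congrArg (fun z => HahnSeries.coeff z m)
      (mul_right_cancel₀ (hne hmv) h2)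
    simpa [frobenius_def] using h3

end Reduction

end Fermat.Agent.FlatModel.BModular
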