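/-
Elementary facts about valuation subrings of `ℚ̄` over a prime `ℓ`.
-/
import Fermat.Agent.Galois.Frobenius
import Fermat.Prelude.Def_GaloisRep_Flat
import Fermat.Prelude.Def_FLTPrelim_Ramification

set_option autoImplicit false

open scoped Pointwise

namespace Fermat.Agent.FlatModel.JacArith

local notation "ℚbar" => AlgebraicClosure ℚ
local notation "Γℚ" => AlgebraicClosure ℚ ≃ₐ[ℚ] AlgebraicClosure ℚ

open Polynomial

variable {ℓ : ℕ} [Fact ℓ.Prime] {A : ValuationSubring (AlgebraicClosure ℚ)} (hA : A.LiesOverPrime ℓ)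

theorem exists_intPoly (a : ℚbar) :
    ∃ f : ℤ[X], f.IsPrimitive ∧ Polynomial.aeval a f = 0 := by
  have halg : IsAlgebraic ℤ a :=
    (IsFractionRing.isAlgebraic_iff ℤ ℚ ℚbar).mpr (Algebra.IsAlgebraic.isAlgebraic a)
  obtain ⟨f₀, hf₀, hf₀a⟩ := halg
  exact ⟨f₀.primPart, f₀.isPrimitive_primPart, Polynomial.aeval_primPart_eq_zero hf₀ hf₀a⟩

theorem intCast_mem (A : ValuationSubring ℚbar) (n : ℤ) : (n : ℚbar) ∈ A := _root_.intCast_mem A n

include hA

omit [Fact ℓ.Prime] in
theorem natCast_prime_mem_maximalIdeal : (ℓ : A) ∈ IsLocalRing.maximalIdeal A := by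
  rw [← ValuationSubring.coe_mem_nonunits_iff]
  simpa [ValuationSubring.LiesOverPrime] using hA

theorem isUnit_intCast {n : ℤ} (hn : ¬ (ℓ : ℤ) ∣ n) : IsUnit (n : A) := by
  by_contra h
  rw [← mem_nonunits_iff, ← IsLocalRing.mem_maximalIdeal,
    ← ValuationSubring.coe_mem_nonunits_iff] at h
  apply hn
  rw [← Galois.intCast_mem_nonunits_iff Fact.out hA]
  simpa using h

/-- a power of an element of the maximal ideal is divisible by `ℓ` -/
theorem exists_pow_mem_span {a : A} (ha : a ∈ IsLocalRing.maximalIdeal A) :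
    ∃ N : ℕ, a ^ N ∈ Ideal.span {(ℓ : A)} := by
  classical
  obtain ⟨f, hf, hfa⟩ := exists_intPoly (a : ℚbar)
  have hfa' : Polynomial.aeval a f = 0 := by
    apply Subtype.ext
    rw [ZeroMemClass.coe_zero, ← hfa]
    exact (Polynomial.aeval_algHom_apply (A.subtype.toIntAlgHom) a f).symm
  have hex : ∃ i, ¬ (ℓ : ℤ) ∣ f.coeff i := by
    by_contra h
    push Not at h
    have := hf _ ((Polynomial.C_dvd_iff_dvd_coeff _ _).2 h)
    rw [Int.isUnit_iff_natAbs_eq, Int.natAbs_natCast] at this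
    exact (Fact.out : ℓ.Prime).ne_one this
  set i0 := Nat.find hex
  have hi0 : ¬ (ℓ : ℤ) ∣ f.coeff i0 := Nat.find_spec hex
  have hlt : ∀ i < i0, (ℓ : ℤ) ∣ f.coeff i := fun i hi => not_not.1 (Nat.find_min hex hi)
  refine ⟨i0, ?_⟩
  set n := f.natDegree + 1
  have hi0n : i0 < n := by
    by_contra h
    exact hi0 (by rw [f.coeff_eq_zero_of_natDegree_lt (by omega)]; exact dvd_zero _)
  rw [Polynomial.aeval_eq_sum_range' (n := n) (by omega)] at hfa'
  rw [← Ideal.Quotient.eq_zero_iff_mem, map_pow]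
  set J := Ideal.span {(ℓ : A)}
  set q := Ideal.Quotient.mk J
  have hq : ∀ i < i0, q (f.coeff i : A) = 0 := by
    intro i hi
    obtain ⟨c, hc⟩ := hlt i hi
    rw [Ideal.Quotient.eq_zero_iff_mem, hc, Int.cast_mul, Int.cast_natCast]
    exact Ideal.mul_mem_right _ _ (Ideal.mem_span_singleton_self _)
  have h0 : q (∑ i ∈ Finset.range n, (f.coeff i : A) * a ^ i) = 0 := by
    rw [← (map_zero q)]
    congr 1
    simpa [zsmul_eq_mul] using hfa'
  rw [map_sum, ← Finset.sum_range_add_sum_Ico _ hi0n.le, Finset.sum_eq_zero (fun i hi => by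
    rw [map_mul, hq i (Finset.mem_range.1 hi), zero_mul]), zero_add,
    Finset.sum_eq_sum_Ico_succ_bot hi0n] at h0
  have htail : ∑ i ∈ Finset.Ico (i0 + 1) n, q ((f.coeff i : A) * a ^ i) =
      q a ^ i0 * q (∑ i ∈ Finset.Ico (i0 + 1) n, (f.coeff i : A) * a ^ (i - i0)) := by
    rw [map_sum, Finset.mul_sum]
    refine Finset.sum_congr rfl fun i hi => ?_
    rw [← map_pow, ← map_mul]
    congr 1
    rw [mul_left_comm, ← pow_add, Nat.add_sub_cancel' (by simp at hi; omega)]
  rw [htail, map_mul, map_pow, mul_comm, ← mul_add, ← map_add] at h0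
  have hu : IsUnit ((f.coeff i0 : A) + ∑ i ∈ Finset.Ico (i0 + 1) n, (f.coeff i : A) * a ^ (i - i0)) := by
    by_contra h
    have h' : _ ∈ IsLocalRing.maximalIdeal A := h
    have hs : ∑ i ∈ Finset.Ico (i0 + 1) n, (f.coeff i : A) * a ^ (i - i0) ∈
        IsLocalRing.maximalIdeal A := Ideal.sum_mem _ fun i hi =>
      Ideal.mul_mem_left _ _ (Ideal.pow_mem_of_mem _ ha _ (by simp at hi; omega))
    exact (Ideal.add_mem_iff_left _ hs).1 h' (isUnit_intCast hA hi0)
  exact (hu.map q).mul_left_eq_zero.1 h0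

/-- every nonzero element of `A` divides a power of `ℓ` -/
theorem exists_dvd_pow {a : A} (ha : a ≠ 0) : ∃ M : ℕ, a ∣ (ℓ : A) ^ M := by
  classical
  obtain ⟨f, hf, hfa⟩ := exists_intPoly (a : ℚbar)
  have hf0 : f ≠ 0 := hf.ne_zero
  -- remove the powers of `X` dividing `f`
  obtain ⟨g, hfg, hg⟩ := f.exists_eq_pow_rootMultiplicity_mul_and_not_dvd hf0 0
  simp only [map_zero, sub_zero] at hfg hg
  rw [Polynomial.X_dvd_iff] at hg
  have hga : Polynomial.aeval a g = 0 := by
    apply Subtype.ext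
    rw [ZeroMemClass.coe_zero]
    rw [hfg, map_mul, map_pow, Polynomial.aeval_X] at hfa
    have := (mul_eq_zero.1 hfa).resolve_left (pow_ne_zero _ (by simpa using ha))
    rw [← this]
    exact (Polynomial.aeval_algHom_apply (A.subtype.toIntAlgHom) a g).symm
  have hdvd : a ∣ (g.coeff 0 : A) := by
    have := congrArg (Polynomial.aeval a) g.X_mul_divX_add
    rw [map_add, map_mul, Polynomial.aeval_X, Polynomial.aeval_C, hga] at this
    refine ⟨- Polynomial.aeval a g.divX, ?_⟩
    rw [mul_neg, ← eq_neg_of_add_eq_zero_right this]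
    simp
  obtain ⟨u, hu, hg0⟩ := FiniteMultiplicity.exists_eq_pow_mul_and_not_dvd
    (Int.finiteMultiplicity_iff.2 ⟨by simpa using (Fact.out : ℓ.Prime).ne_one, hg⟩ :
      FiniteMultiplicity (ℓ : ℤ) (g.coeff 0))
  refine ⟨multiplicity (ℓ : ℤ) (g.coeff 0), ?_⟩
  rw [hu, Int.cast_mul, Int.cast_pow, Int.cast_natCast] at hdvd
  exact (isUnit_intCast hA hg0).dvd_mul_right.1 hdvd

omit [Fact ℓ.Prime] hA

/-- elements of the decomposition group fixing all residues lie in the inertia group -/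
theorem mem_inertia_of_forall (A : ValuationSubring ℚbar) {h : Γℚ}
    (hD : h ∈ A.decompositionSubgroup ℚ)
    (hc : ∀ c : ℚbar, IsIntegral ℤ c → h c - c ∈ A.nonunits) :
    h ∈ A.inertiaSubgroupIn ℚ := by
  refine ⟨⟨h, hD⟩, ?_, rfl⟩
  rw [ValuationSubring.inertiaSubgroup, SetLike.mem_coe, MonoidHom.mem_ker]
  refine RingEquiv.ext fun y => ?_
  change (⟨h, hD⟩ : A.decompositionSubgroup ℚ) • y = y
  obtain ⟨y, rfl⟩ := IsLocalRing.residue_surjective y
  obtain ⟨b, s, hb, hs, hsu, hys⟩ := Galois.exists_integral_num_den A y.2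
  have key : ∀ c (hc' : IsIntegral ℤ c), (⟨h, hD⟩ : A.decompositionSubgroup ℚ) •
      IsLocalRing.residue A ⟨c, Galois.mem_valuationSubring_of_isIntegral A hc'⟩ =
      IsLocalRing.residue A ⟨c, Galois.mem_valuationSubring_of_isIntegral A hc'⟩ := by
    intro c hc'
    rw [← IsLocalRing.ResidueField.residue_smul, ← sub_eq_zero, ← map_sub,
      IsLocalRing.residue_eq_zero_iff, ← ValuationSubring.coe_mem_nonunits_iff]
    exact hc c hc'
  set bA : A := ⟨b, Galois.mem_valuationSubring_of_isIntegral A hb⟩ with hbA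
  set sA : A := ⟨s, Galois.mem_valuationSubring_of_isIntegral A hs⟩ with hsA
  have hprod : IsLocalRing.residue A y * IsLocalRing.residue A sA = IsLocalRing.residue A bA := by
    rw [← map_mul]; exact congrArg _ (Subtype.ext hys)
  have hsne : IsLocalRing.residue A sA ≠ 0 := by
    rw [Ne, IsLocalRing.residue_eq_zero_iff, ← ValuationSubring.coe_mem_nonunits_iff]
    exact hsu
  have h2 := congrArg ((⟨h, hD⟩ : A.decompositionSubgroup ℚ) • ·) hprod
  simp only [smul_mul', key b hb, key s hs, hbA, hsA] at h2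
  rw [← hbA, ← hsA, ← hprod] at h2
  exact mul_right_cancel₀ hsne h2

/-- an element lying in all valuation subrings over `ℓ` is integral over `ℤ_(ℓ)` -/
theorem isIntegral_of_forall (hℓ : ℓ.Prime) {x : ℚbar}
    (hx : ∀ B : ValuationSubring ℚbar, B.LiesOverPrime ℓ → x ∈ B) :
    IsIntegral (GaloisRep.ratLocalizedAt ℓ) x := by
  set R := (algebraMap (GaloisRep.ratLocalizedAt ℓ) ℚbar).range with hR
  have hmem : x ∈ integralClosure R ℚbar := by
    have := iInf_valuationSubring_superset (K := ℚbar) (s := (R : Set ℚbar))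
    rw [Subring.closure_eq] at this
    have h2 : x ∈ (⨅ B : { B : ValuationSubring ℚbar // (R : Set ℚbar) ⊆ B },
        B.1.toSubring) := by
      refine Subring.mem_iInf.2 fun B => ?_
      by_cases hB : B.1.LiesOverPrime ℓ
      · exact hx B.1 hB
      · have hℓinv : ((ℓ : ℚbar))⁻¹ ∈ B.1 := by
          by_contra h
          exact hB ((ValuationSubring.mem_nonunits_iff_or _).2 (Or.inr h))
        have hQ : ∀ q : ℚ, (q : ℚbar) ∈ B.1 := by
          intro q
          obtain ⟨e, d', hd', hd⟩ := Nat.exists_eq_pow_mul_and_not_dvd q.den_nz ℓ hℓ.ne_one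
          have h1 : ((d' : ℚbar))⁻¹ ∈ B.1 := by
            refine B.2 ⟨⟨(d' : ℚ)⁻¹, ?_⟩, by
              change (algebraMap ℚ ℚbar) ((d' : ℚ)⁻¹) = _
              simp⟩
            change ((d' : ℚ)⁻¹).den.Coprime ℓ
            rw [Rat.inv_natCast_den_of_pos (Nat.pos_of_ne_zero (by rintro rfl; simp at hd'))]
            exact ((Nat.Prime.coprime_iff_not_dvd hℓ).2 hd').symm
          rw [Rat.cast_def, hd, Nat.cast_mul, Nat.cast_pow, div_eq_mul_inv, mul_inv, ← inv_pow]
          exact mul_mem (intCast_mem B.1 q.num) (mul_mem (pow_mem hℓinv e) h1)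
        let g : ℚ →+* B.1 := (algebraMap ℚ ℚbar).codRestrict B.1.toSubring fun q => by
          rw [eq_ratCast]; exact hQ q
        obtain ⟨f, hf, hfx⟩ : IsIntegral ℚ x := Algebra.IsIntegral.isIntegral x
        obtain ⟨y, hy⟩ := IsIntegrallyClosed.algebraMap_eq_of_integral (R := B.1) (K := ℚbar)
          (x := x) ⟨f.map g, hf.map g, by rw [Polynomial.eval₂_map]; exact hfx⟩
        exact hy ▸ y.2
    exact this.le h2
  obtain ⟨p, hp, hpx⟩ := hmem
  have hlift : p ∈ Polynomial.lifts (algebraMap (GaloisRep.ratLocalizedAt ℓ) ℚbar).rangeRestrict :=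
    (Polynomial.lifts_iff_coeff_lifts p).2 fun n =>
      (algebraMap (GaloisRep.ratLocalizedAt ℓ) ℚbar).rangeRestrict_surjective _
  obtain ⟨q, hq, -, hqm⟩ := Polynomial.lifts_and_natDegree_eq_and_monic hlift hp
  refine ⟨q, hqm, ?_⟩
  rw [← hq, Polynomial.eval₂_map] at hpx
  exact hpx

end Fermat.Agent.FlatModel.JacArith
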