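/-
Linear algebra over algebras of functions on a finite set with values in a valuation ring:
families of constant rank are split.
-/
import Mathlib.LinearAlgebra.Matrix.NonsingularInverse
import Mathlib.LinearAlgebra.Matrix.Rank
import Mathlib.RingTheory.Valuation.ValuationSubring
import Mathlib.Algebra.MvPolynomial.Funext
import Mathlib.RingTheory.Adjoin.Basic

set_option autoImplicit false

namespace Fermat.Agent.FlatModel.JacLinAlg

open Matrix Module

section Field

variable {F : Type*} [Field F] {m n : Type*} [Fintype m] [Fintype n]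

/-- a matrix of rank at least `r` has an invertible `r × r` compression -/
theorem exists_compression [DecidableEq m] [DecidableEq n] (M : Matrix m n F) {r : ℕ}
    (h : r ≤ M.rank) :
    ∃ (Y : Matrix (Fin r) m F) (X : Matrix n (Fin r) F), Y * M * X = 1 := by
  obtain ⟨v, hv⟩ := exists_linearIndependent_of_le_finrank (R := F)
    (M := LinearMap.range M.mulVecLin) h
  have hmem : ∀ i, ∃ u, M.mulVecLin u = (v i : m → F) := fun i => (v i).2
  choose u hu using hmem
  let X : Matrix n (Fin r) F := Matrix.of fun j i => u i j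
  have hinj : Function.Injective (M * X).mulVecLin := by
    rw [Matrix.mulVecLin, ← LinearMap.ker_eq_bot]
    rw [show LinearMap.ker _ = LinearMap.ker (M * X).mulVecLin from rfl,
      Matrix.ker_mulVecLin_eq_bot_iff]
    intro c hc
    have hli : LinearIndependent F (fun i => (v i : m → F)) :=
      hv.map' (Submodule.subtype _) (Submodule.ker_subtype _)
    rw [Fintype.linearIndependent_iff] at hli
    refine funext (hli c ?_)
    rw [← hc]
    ext p
    simp only [Finset.sum_apply, Pi.smul_apply, smul_eq_mul, Matrix.mulVec, dotProduct]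
    refine Finset.sum_congr rfl fun i _ => ?_
    rw [mul_comm, ← hu i]
    rfl
  obtain ⟨g, hg⟩ := (M * X).mulVecLin.exists_leftInverse_of_injective
    (LinearMap.ker_eq_bot.2 hinj)
  refine ⟨LinearMap.toMatrix' g, X, ?_⟩
  rw [Matrix.mul_assoc]
  apply Matrix.toLin'.injective
  rw [Matrix.toLin'_mul, Matrix.toLin'_toMatrix', Matrix.toLin'_one]
  exact hg

/-- if `Y M X = 1` and `M` has rank at most `r` then `M X` spans the range of `M` -/
theorem range_mul_eq_of_compression {r : ℕ} (M : Matrix m n F) (Y : Matrix (Fin r) m F)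
    (X : Matrix n (Fin r) F) (h : Y * M * X = 1) (hr : M.rank ≤ r) :
    LinearMap.range (M * X).mulVecLin = LinearMap.range M.mulVecLin := by
  refine Submodule.eq_of_le_of_finrank_le ?_ ?_
  · rw [Matrix.mulVecLin_mul]
    exact LinearMap.range_comp_le_range _ _
  · have hinj : Function.Injective (M * X).mulVecLin := by
      intro a b hab
      have := congrArg (Y.mulVec) hab
      simpa [Matrix.mulVec_mulVec, ← Matrix.mul_assoc, h] using this
    rw [LinearMap.finrank_range_of_inj hinj, Module.finrank_fin_fun]
    exact hr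

/-- if `Y M X = 1` and `M` has rank at most `r` then `M X Y` fixes `M` -/
theorem compression_mul [DecidableEq n] (r : ℕ) (M : Matrix m n F) (Y : Matrix (Fin r) m F)
    (X : Matrix n (Fin r) F) (h : Y * M * X = 1) (hr : M.rank ≤ r) :
    M * X * Y * M = M := by
  refine Matrix.ext_of_mulVec_single fun j => ?_
  have hj : M *ᵥ Pi.single j 1 ∈ LinearMap.range (M * X).mulVecLin := by
    rw [range_mul_eq_of_compression M Y X h hr]
    exact ⟨_, rfl⟩
  obtain ⟨z, hz⟩ := hj
  rw [Matrix.mulVecLin_apply] at hz
  rw [← Matrix.mulVec_mulVec, ← hz, Matrix.mulVec_mulVec, Matrix.mul_assoc (M * X) Y,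
    ← Matrix.mul_assoc Y M X, h, Matrix.mul_one]

/-- range of a product of a matrix with a generalised inverse -/
theorem range_mul_of_genInv (M : Matrix m n F) (Z : Matrix n m F) (h : M * Z * M = M) :
    LinearMap.range (M * Z).mulVecLin = LinearMap.range M.mulVecLin := by
  refine le_antisymm (by rw [Matrix.mulVecLin_mul]; exact LinearMap.range_comp_le_range _ _) ?_
  conv_lhs => rw [← h]
  rw [Matrix.mulVecLin_mul]
  exact LinearMap.range_comp_le_range _ _

theorem range_one_sub_of_genInv [DecidableEq n] (M : Matrix m n F) (Z : Matrix n m F)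
    (h : M * Z * M = M) :
    LinearMap.range ((1 : Matrix n n F) - Z * M).mulVecLin = LinearMap.ker M.mulVecLin := by
  apply le_antisymm
  · rintro _ ⟨v, rfl⟩
    simp [Matrix.mulVec_sub, Matrix.mulVec_mulVec, ← Matrix.mul_assoc, h]
  · intro v hv
    refine ⟨v, ?_⟩
    simp only [LinearMap.mem_ker, Matrix.mulVecLin_apply] at hv
    rw [Matrix.mulVecLin_apply, Matrix.sub_mulVec, Matrix.one_mulVec, ← Matrix.mulVec_mulVec, hv,
      Matrix.mulVec_zero, sub_zero]

theorem ker_one_sub_of_genInv [DecidableEq m] (M : Matrix m n F) (Z : Matrix n m F)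
    (h : M * Z * M = M) :
    LinearMap.ker ((1 : Matrix m m F) - M * Z).mulVecLin = LinearMap.range M.mulVecLin := by
  apply le_antisymm
  · intro v hv
    simp only [LinearMap.mem_ker, Matrix.mulVecLin_apply, Matrix.sub_mulVec, Matrix.one_mulVec,
      sub_eq_zero] at hv
    exact ⟨Z *ᵥ v, by rw [Matrix.mulVecLin_apply, Matrix.mulVec_mulVec, ← hv]⟩
  · rintro _ ⟨v, rfl⟩
    rw [LinearMap.mem_ker, Matrix.mulVecLin_apply, Matrix.mulVecLin_apply, Matrix.sub_mulVec,
      Matrix.one_mulVec, Matrix.mulVec_mulVec, h, sub_self]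

/-- matrices with the same range and the same normalisation are equal -/
theorem eq_of_range_eq_of_mul_eq_one {r : ℕ} (B B' : Matrix m (Fin r) F) (Y : Matrix (Fin r) m F)
    (hB : Y * B = 1) (hB' : Y * B' = 1)
    (h : LinearMap.range B.mulVecLin = LinearMap.range B'.mulVecLin) : B = B' := by
  refine Matrix.ext_of_mulVec_single fun j => ?_
  have hj : B *ᵥ Pi.single j 1 ∈ LinearMap.range B'.mulVecLin := h ▸ ⟨_, rfl⟩
  obtain ⟨z, hz⟩ := hj
  rw [Matrix.mulVecLin_apply] at hz
  have h1 := congrArg Y.mulVec hz
  rw [Matrix.mulVec_mulVec, hB', Matrix.mulVec_mulVec, hB, Matrix.one_mulVec,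
    Matrix.one_mulVec] at h1
  rw [← hz, h1]

/-- finitely many matrices of rank at least `r` have a common invertible compression -/
theorem exists_common_compression [Infinite F] [DecidableEq m] [DecidableEq n] {ι : Type*}
    [Finite ι] (M : ι → Matrix m n F) (r : ℕ) (h : ∀ i, r ≤ (M i).rank) :
    ∃ (Y : Matrix (Fin r) m F) (X : Matrix n (Fin r) F), ∀ i, (Y * M i * X).det ≠ 0 := by
  classical
  have : Fintype ι := Fintype.ofFinite ι
  let σ := (Fin r × m) ⊕ (n × Fin r)
  let Yg : Matrix (Fin r) m (MvPolynomial σ F) :=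
    Matrix.of fun a b => MvPolynomial.X (Sum.inl (a, b))
  let Xg : Matrix n (Fin r) (MvPolynomial σ F) :=
    Matrix.of fun a b => MvPolynomial.X (Sum.inr (a, b))
  let P : ι → MvPolynomial σ F := fun i => (Yg * (M i).map MvPolynomial.C * Xg).det
  have heval : ∀ (e : σ → F) (i : ι), MvPolynomial.eval e (P i) =
      ((Matrix.of fun a b => e (Sum.inl (a, b))) * M i *
        (Matrix.of fun a b => e (Sum.inr (a, b)))).det := by
    intro e i
    rw [RingHom.map_det]
    congr 1
    ext a b
    simp [RingHom.mapMatrix_apply, Matrix.mul_apply, Yg, Xg, map_sum, Finset.sum_mul]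
  have hne : ∀ i, P i ≠ 0 := by
    intro i hi
    obtain ⟨Y, X, hYX⟩ := exists_compression (M i) (h i)
    have := heval (Sum.elim (fun p => Y p.1 p.2) (fun p => X p.1 p.2)) i
    rw [hi, map_zero] at this
    simp only [Sum.elim_inl, Sum.elim_inr] at this
    rw [show (Matrix.of fun a b => Y a b) = Y from rfl,
      show (Matrix.of fun a b => X a b) = X from rfl, hYX, Matrix.det_one] at this
    exact zero_ne_one this
  have hprod : ∏ i, P i ≠ 0 := Finset.prod_ne_zero_iff.2 fun i _ => hne i
  obtain ⟨e, he⟩ : ∃ e, MvPolynomial.eval e (∏ i, P i) ≠ 0 := by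
    by_contra hall
    push Not at hall
    exact hprod (MvPolynomial.funext fun e => by rw [hall e, map_zero])
  refine ⟨Matrix.of fun a b => e (Sum.inl (a, b)), Matrix.of fun a b => e (Sum.inr (a, b)),
    fun i => ?_⟩
  rw [← heval e i]
  rw [map_prod, Finset.prod_ne_zero_iff] at he
  exact he i (Finset.mem_univ i)

/-- finitely many subspaces of dimension `r` have a common coordinate projection -/
theorem exists_common_left_inverse [Infinite F] [DecidableEq m] {ι : Type*} [Finite ι] {r : ℕ}
    (B : ι → Matrix m (Fin r) F) (h : ∀ i, r ≤ (B i).rank) :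
    ∃ Y : Matrix (Fin r) m F, ∀ i, (Y * B i).det ≠ 0 := by
  obtain ⟨Y, X, hYX⟩ := exists_common_compression B r h
  exact ⟨Y, fun i h0 => hYX i (by rw [Matrix.det_mul, h0, zero_mul])⟩

end Field

section Family

variable {K : Type*} [Field K] {A : ValuationSubring K} {k : Type*} [Field k] {π : A →+* k}
  {X : Type*}

/-- evaluation of a subalgebra of functions at a point -/
def ev (S : Subalgebra A (X → A)) (x : X) : S →+* A :=
  ((Pi.evalAlgHom A (fun _ : X => A) x).comp S.val).toRingHom

@[simp] theorem ev_apply (S : Subalgebra A (X → A)) (x : X) (f : S) :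
    ev S x f = (f : X → A) x := rfl

/-- evaluation at a point, in the fraction field -/
def evK (S : Subalgebra A (X → A)) (x : X) : S →+* K := A.subtype.comp (ev S x)

theorem matrix_ext {S : Subalgebra A (X → A)} {m n : Type*} {M M' : Matrix m n S}
    (h : ∀ x, M.map (evK S x) = M'.map (evK S x)) : M = M' := by
  ext i j x
  exact congrFun (congrFun (h x) i) j

/-- a function with unit values is a unit in every algebra containing it -/
theorem isUnit_of_forall [Finite X] (S : Subalgebra A (X → A)) (f : S)
    (h : ∀ x, IsUnit ((f : X → A) x)) : IsUnit f := by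
  classical
  have : Fintype X := Fintype.ofFinite X
  let p : Polynomial A := ∏ x, (Polynomial.X - Polynomial.C ((f : X → A) x))
  have hp : Polynomial.aeval (f : X → A) p = 0 := by
    funext y
    simp only [p, map_prod, map_sub, Polynomial.aeval_X, Polynomial.aeval_C, Pi.zero_apply,
      Finset.prod_apply, Pi.sub_apply]
    exact Finset.prod_eq_zero (Finset.mem_univ y) (sub_self _)
  have hp0 : IsUnit (p.coeff 0) := by
    rw [Polynomial.coeff_zero_eq_eval_zero, Polynomial.eval_prod]
    refine IsUnit.prod_iff.2 fun x _ => ?_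
    simpa using (h x).neg
  have hS : Polynomial.aeval f p = 0 := Subtype.ext (by
    rw [Polynomial.aeval_subalgebra_coe]; exact hp)
  have hd : f * Polynomial.aeval f p.divX = - algebraMap A S (p.coeff 0) := by
    have := congrArg (Polynomial.aeval f) p.X_mul_divX_add
    rw [map_add, map_mul, Polynomial.aeval_X, Polynomial.aeval_C, hS] at this
    exact eq_neg_of_add_eq_zero_left this
  have hu : IsUnit (f * Polynomial.aeval f p.divX) := by
    rw [hd]
    exact IsUnit.neg (α := S) (hp0.map (algebraMap A S))
  exact isUnit_of_mul_isUnit_left hu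

variable (hπ : ∀ a : A, π a ≠ 0 → IsUnit a)
include hπ

/-- a family of square matrices invertible on the special fibre is invertible -/
theorem isUnit_det_of_forall [Finite X] {S : Subalgebra A (X → A)} {r : ℕ}
    (N : Matrix (Fin r) (Fin r) S) (h : ∀ x, ((N.map (ev S x)).map π).det ≠ 0) :
    IsUnit N.det := by
  refine isUnit_of_forall S _ fun x => hπ _ ?_
  rw [← ev_apply, RingHom.map_det, RingHom.map_det]
  exact h x

/-- a family of constant rank has a generalised inverse -/
theorem exists_genInv [Finite X] [Infinite k] (hsurj : Function.Surjective π)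
    {S : Subalgebra A (X → A)} {m n : Type*} [Fintype m] [Fintype n] [DecidableEq m]
    [DecidableEq n] (M : Matrix m n S) (r : ℕ) (hK : ∀ x, (M.map (evK S x)).rank ≤ r)
    (hk : ∀ x, r ≤ ((M.map (ev S x)).map π).rank) :
    ∃ Z : Matrix n m S, M * Z * M = M := by
  obtain ⟨Yb, Xb, hdet⟩ := exists_common_compression (fun x => (M.map (ev S x)).map π) r hk
  let Y0 : Matrix (Fin r) m A := Yb.map (Function.surjInv hsurj)
  let X0 : Matrix n (Fin r) A := Xb.map (Function.surjInv hsurj)
  have hY0 : Y0.map π = Yb := by ext; simp [Y0, Function.surjInv_eq hsurj]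
  have hX0 : X0.map π = Xb := by ext; simp [X0, Function.surjInv_eq hsurj]
  let Y : Matrix (Fin r) m S := Y0.map (algebraMap A S)
  let X1 : Matrix n (Fin r) S := X0.map (algebraMap A S)
  have hevY : ∀ x, Y.map (ev S x) = Y0 := fun x => by ext; simp [Y]
  have hevX : ∀ x, X1.map (ev S x) = X0 := fun x => by ext; simp [X1]
  let N : Matrix (Fin r) (Fin r) S := Y * M * X1
  have hN : IsUnit N.det := isUnit_det_of_forall hπ N fun x => by
    have : (N.map (ev S x)).map π = Yb * (M.map (ev S x)).map π * Xb := by
      simp only [N, Matrix.map_mul, hevY, hevX, hY0, hX0]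
    rw [this]
    exact hdet x
  refine ⟨X1 * N⁻¹ * Y, matrix_ext fun x => ?_⟩
  have h1 : Y * M * (X1 * N⁻¹) = 1 := by
    rw [← Matrix.mul_assoc]; exact Matrix.mul_nonsing_inv N hN
  have h2 := congrArg (fun L : Matrix (Fin r) (Fin r) S => L.map (evK S x)) h1
  simp only [Matrix.map_mul, Matrix.map_one _ (map_zero _) (map_one _)] at h2
  have h3 := compression_mul r _ _ _ h2 (hK x)
  simp only [Matrix.map_mul, Matrix.mul_assoc] at h3 ⊢
  exact h3

/-- the normalised basis of a family of constant rank -/
theorem exists_normalised [Finite X] [Infinite k] (hsurj : Function.Surjective π)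
    {S : Subalgebra A (X → A)} {m n : Type*} [Fintype m] [Fintype n] [DecidableEq m]
    [DecidableEq n] (M : Matrix m n S) {r : ℕ} (Y0 : Matrix (Fin r) m A)
    (hk : ∀ x, r ≤ (Y0.map π * (M.map (ev S x)).map π).rank) :
    ∃ (X0 : Matrix n (Fin r) S), Y0.map (algebraMap A S) * (M * X0) = 1 := by
  obtain ⟨Cb, Xb, hdet⟩ :=
    exists_common_compression (fun x => Y0.map π * (M.map (ev S x)).map π) r hk
  let X1 : Matrix n (Fin r) S := (Xb.map (Function.surjInv hsurj)).map (algebraMap A S)
  let N : Matrix (Fin r) (Fin r) S := Y0.map (algebraMap A S) * M * X1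
  have hN : IsUnit N.det := isUnit_det_of_forall hπ N fun x => by
    have : (N.map (ev S x)).map π = Y0.map π * (M.map (ev S x)).map π * Xb := by
      have e1 : (Y0.map (algebraMap A S)).map (ev S x) = Y0 := by ext; simp
      have e2 : (X1.map (ev S x)).map π = Xb := by
        ext; simp [X1, Function.surjInv_eq hsurj]
      simp only [N, Matrix.map_mul, e1, e2]
    rw [this]
    intro h0
    apply hdet x
    rw [show Cb * (Y0.map π * (M.map (ev S x)).map π) * Xb =
      Cb * (Y0.map π * (M.map (ev S x)).map π * Xb) by simp only [Matrix.mul_assoc],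
      Matrix.det_mul, h0, mul_zero]
  refine ⟨X1 * N⁻¹, ?_⟩
  rw [← Matrix.mul_assoc, ← Matrix.mul_assoc]
  exact Matrix.mul_nonsing_inv N hN

end Family

end Fermat.Agent.FlatModel.JacLinAlg
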