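/-
Consequences of Riemann-Roch used for the finite flat models: base point freeness, colon spaces,
products of spaces of functions, general translates.
-/
import Fermat.Agent.Curve.ReductionAux
import Mathlib.GroupTheory.CosetCover
import Mathlib.LinearAlgebra.FiniteDimensional.Lemmas
import Mathlib.Algebra.Algebra.Operations

set_option autoImplicit false

namespace Fermat.Agent.FlatModel.JacSpaces

open AlgebraicCurve Fermat.Agent.Curve Module

variable {K F : Type*} [Field K] [Field F] [Algebra K F]

/-- the numerical content of Riemann-Roch -/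
structure RRFormula (K F : Type*) [Field K] [Field F] [Algebra K F] (g : ℕ) : Prop where
  finite : ∀ D : Divisor K F, Module.Finite K ↥(riemannRochSpace D)
  le_finrank : ∀ D : Divisor K F,
    Divisor.degree D + 1 - (g : ℤ) ≤ (finrank K ↥(riemannRochSpace D) : ℤ)
  finrank_eq : ∀ D : Divisor K F, 2 * (g : ℤ) - 1 ≤ Divisor.degree D →
    (finrank K ↥(riemannRochSpace D) : ℤ) = Divisor.degree D + 1 - g

local notation "L" => riemannRochSpace

theorem le_ord_of_mem {D : Divisor K F} {f : F} (hf : f ∈ L D) (h0 : f ≠ 0) (v : Place K F) :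
    -D v ≤ v.ord f :=
  (RedAux.mem_L_iff h0).1 hf v

theorem mul_mem_iff {D E : Divisor K F} {f : F} (hf : f ≠ 0) {h : F}
    (hE : ∀ v, E v = D v - v.ord f) : f * h ∈ L E ↔ h ∈ L D := by
  rcases eq_or_ne h 0 with rfl | h0
  · simp
  rw [RedAux.mem_L_iff (mul_ne_zero hf h0), RedAux.mem_L_iff h0]
  refine forall_congr' fun v => ?_
  rw [v.ord_mul hf h0, hE]
  omega

/-- linearly equivalent divisors have isomorphic spaces -/
theorem finrank_eq_of_equiv {D E : Divisor K F} {f : F} (hf : f ≠ 0)
    (hE : ∀ v, E v = D v - v.ord f) : finrank K ↥(L E) = finrank K ↥(L D) := by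
  have hmap : L E = (L D).map (LinearMap.mulLeft K f) := by
    apply le_antisymm
    · intro y hy
      exact ⟨f⁻¹ * y, (mul_mem_iff hf hE).1 (by rwa [← mul_assoc, mul_inv_cancel₀ hf, one_mul]),
        by simp [← mul_assoc, mul_inv_cancel₀ hf]⟩
    · rintro _ ⟨h, hh, rfl⟩
      exact (mul_mem_iff hf hE).2 hh
  rw [hmap]
  exact ((L D).equivMapOfInjective _ (mul_right_injective₀ hf)).finrank_eq.symm

theorem finrank_eq_of_sub_mem_principal {D E : Divisor K F}
    (h : E - D ∈ Divisor.principal (K := K) (F := F)) : finrank K ↥(L E) = finrank K ↥(L D) := by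
  obtain ⟨f, hf, hfv⟩ := h
  refine finrank_eq_of_equiv (f := f⁻¹) (inv_ne_zero hf) fun v => ?_
  have := hfv v
  rw [Finsupp.sub_apply] at this
  rw [v.ord_inv]
  omega

variable [IsAlgClosed K] [IsFunctionFieldOne K F] {g : ℕ} (rr : RRFormula K F g)

theorem degree_single_one (v : Place K F) :
    Divisor.degree (Finsupp.single v (1 : ℤ)) = 1 := by
  simp [RedAux.deg_one]

include rr

/-- base point freeness in degree `≥ 2g` -/
theorem exists_ord_eq {D : Divisor K F} (hD : 2 * (g : ℤ) ≤ Divisor.degree D) (v : Place K F) :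
    ∃ f ∈ L D, f ≠ 0 ∧ v.ord f = -D v := by
  by_contra hall
  push Not at hall
  have := rr.finite (D - Finsupp.single v 1)
  have hle : L D ≤ L (D - Finsupp.single v 1) := by
    intro f hf
    rcases eq_or_ne f 0 with rfl | h0
    · exact zero_mem _
    rw [RedAux.mem_L_iff h0]
    intro w
    have h1 := le_ord_of_mem hf h0 w
    rw [Finsupp.sub_apply]
    by_cases hw : w = v
    · subst hw
      have := hall f hf h0
      rw [Finsupp.single_eq_same]
      omega
    · rw [Finsupp.single_eq_of_ne hw]
      omega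
  have h1 := Submodule.finrank_mono hle
  have h2 := rr.finrank_eq D (by omega)
  have h3 := rr.finrank_eq (D - Finsupp.single v 1) (by
    rw [map_sub, degree_single_one]; omega)
  rw [map_sub, degree_single_one] at h3
  omega

/-- colon spaces -/
theorem mem_sub_iff {D E : Divisor K F} (hD : 2 * (g : ℤ) ≤ Divisor.degree D) {f : F} :
    f ∈ L (E - D) ↔ ∀ w ∈ L D, f * w ∈ L E := by
  refine ⟨fun hf w hw => by simpa using RedAux.mul_mem_L hf hw, fun h => ?_⟩
  rcases eq_or_ne f 0 with rfl | h0
  · exact zero_mem _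
  rw [RedAux.mem_L_iff h0]
  intro v
  obtain ⟨w, hw, hw0, hwv⟩ := exists_ord_eq rr hD v
  have := le_ord_of_mem (h w hw) (mul_ne_zero h0 hw0) v
  rw [v.ord_mul h0 hw0] at this
  rw [Finsupp.sub_apply]
  omega

/-- a divisor of degree `≥ 2g` is determined by its space of functions -/
theorem eq_of_space_eq {D D' : Divisor K F} (hD : 2 * (g : ℤ) ≤ Divisor.degree D)
    (hD' : 2 * (g : ℤ) ≤ Divisor.degree D') (h : L D = L D') : D = D' := by
  ext v
  obtain ⟨f, hf, hf0, hfv⟩ := exists_ord_eq rr hD v
  obtain ⟨f', hf', hf0', hfv'⟩ := exists_ord_eq rr hD' v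
  have h1 := le_ord_of_mem (h ▸ hf) hf0 v
  have h2 := le_ord_of_mem (h.symm ▸ hf') hf0' v
  omega

omit rr in
/-- finitely many proper subspaces do not cover a space of functions -/
theorem exists_mem_forall_notMem [Infinite K] {ι : Type*} [Finite ι] (W : Submodule K F)
    (P : ι → Submodule K F) (h : ∀ i, ¬ W ≤ P i) : ∃ f ∈ W, ∀ i, f ∉ P i := by
  classical
  have : Fintype ι := Fintype.ofFinite ι
  by_contra hall
  push Not at hall
  refine Subspace.biUnion_ne_univ_of_top_notMem (k := K) (E := W)
    (s := (Finset.univ.image fun i => (P i).comap W.subtype)) ?_ ?_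
  · simp only [Finset.mem_image, Finset.mem_univ, true_and, not_exists]
    intro i hi
    exact h i fun f hf => (Submodule.eq_top_iff'.1 hi ⟨f, hf⟩ :)
  · refine Set.eq_univ_of_forall fun f => ?_
    obtain ⟨i, hi⟩ := hall f f.2
    exact Set.mem_biUnion (Finset.mem_image.2 ⟨i, Finset.mem_univ i, rfl⟩) hi

/-- a pencil without base points -/
theorem exists_pencil [Infinite K] {D : Divisor K F} (hD : 2 * (g : ℤ) ≤ Divisor.degree D) :
    ∃ u ∈ L D, ∃ v ∈ L D, u ≠ 0 ∧ v ≠ 0 ∧
      ∀ P : Place K F, P.ord u = -D P ∨ P.ord v = -D P := by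
  classical
  have hex : ∃ u ∈ L D, u ≠ 0 := by
    rw [← Submodule.ne_bot_iff]
    intro hbot
    have h2 := rr.finrank_eq D (by omega)
    rw [hbot, finrank_bot] at h2
    omega
  obtain ⟨u, hu, hu0⟩ := hex
  set S := (divisorOf K u).support ∪ D.support with hS
  let P : Option S → Submodule K F := fun o => o.elim ⊥ fun p =>
    L (D - Finsupp.single (p : Place K F) 1)
  obtain ⟨v, hv, hvP⟩ := exists_mem_forall_notMem (L D) P (by
    rintro (_ | p) hle
    · exact hu0 (by simpa [P] using hle hu)
    · obtain ⟨f, hf, hf0, hfv⟩ := exists_ord_eq rr hD (p : Place K F)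
      have := le_ord_of_mem (hle hf) hf0 (p : Place K F)
      rw [Finsupp.sub_apply, Finsupp.single_eq_same] at this
      omega)
  have hv0 : v ≠ 0 := fun h => hvP none (by simp [P, h])
  refine ⟨u, hu, v, hv, hu0, hv0, fun p => ?_⟩
  by_cases hp : p ∈ S
  · right
    by_contra hne
    refine hvP (some ⟨p, hp⟩) ?_
    change v ∈ L (D - Finsupp.single p 1)
    rw [RedAux.mem_L_iff hv0]
    intro w
    have := le_ord_of_mem hv hv0 w
    rw [Finsupp.sub_apply]
    by_cases hw : w = p
    · subst hw; rw [Finsupp.single_eq_same]; omega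
    · rw [Finsupp.single_eq_of_ne hw]; omega
  · left
    simp only [hS, Finset.mem_union, Finsupp.mem_support_iff, not_or, not_not,
      divisorOf_apply] at hp
    omega

/-- products span -/
theorem mul_eq [Infinite K] {D E : Divisor K F} (hD : 2 * (g : ℤ) ≤ Divisor.degree D)
    (hE : Divisor.degree D + 2 * (g : ℤ) - 1 ≤ Divisor.degree E) : L E * L D = L (E + D) := by
  refine le_antisymm (Submodule.mul_le.2 fun a ha b hb => RedAux.mul_mem_L ha hb) ?_
  obtain ⟨u, hu, v, hv, hu0, hv0, huv⟩ := exists_pencil rr hD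
  let Φ : ↥(L E) × ↥(L E) →ₗ[K] F :=
    ((LinearMap.mulRight K u).comp (L E).subtype).coprod
      ((LinearMap.mulRight K v).comp (L E).subtype)
  have hΦ : ∀ a b : ↥(L E), Φ (a, b) = (a : F) * u + (b : F) * v := fun a b => rfl
  have := rr.finite E
  have := rr.finite (E + D)
  have := rr.finite (E - D)
  have hker : ∀ ab : LinearMap.ker Φ, ((ab.1.1 : F) / v) ∈ L (E - D) := by
    rintro ⟨⟨a, b⟩, hab⟩
    rw [LinearMap.mem_ker, hΦ] at hab
    show (a : F) / v ∈ L (E - D)
    rcases eq_or_ne ((a : F)) 0 with ha | ha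
    · simp [ha]
    have hc : (a : F) / v ≠ 0 := div_ne_zero ha hv0
    have hb : (b : F) = -((a : F) / v * u) := by
      field_simp
      linear_combination hab
    have hbm : (a : F) / v * u ∈ L E := by
      rw [← neg_neg ((a : F) / v * u), ← hb]
      exact neg_mem b.2
    rw [RedAux.mem_L_iff hc]
    intro w
    have h1 := le_ord_of_mem hbm (mul_ne_zero hc hu0) w
    have h2 := le_ord_of_mem (f := (a : F) / v * v) (by rw [div_mul_cancel₀ _ hv0]; exact a.2)
      (mul_ne_zero hc hv0) w
    rw [w.ord_mul hc hu0] at h1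
    rw [w.ord_mul hc hv0] at h2
    rw [Finsupp.sub_apply]
    rcases huv w with h | h <;> omega
  let ψ : LinearMap.ker Φ →ₗ[K] ↥(L (E - D)) :=
    { toFun := fun ab => ⟨(ab.1.1 : F) / v, hker ab⟩
      map_add' := fun a b => Subtype.ext (by simp [add_div])
      map_smul' := fun r a => Subtype.ext (by simp [smul_div_assoc]) }
  have hψ : Function.Injective ψ := by
    rw [injective_iff_map_eq_zero]
    rintro ⟨⟨a, b⟩, hab⟩ h0
    have ha : (a : F) = 0 := by
      have : (a : F) / v = 0 := congrArg Subtype.val h0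
      simpa [hv0] using this
    rw [LinearMap.mem_ker, hΦ, ha, zero_mul, zero_add, mul_eq_zero] at hab
    exact Subtype.ext (Prod.ext (Subtype.ext ha) (Subtype.ext (hab.resolve_right hv0)))
  have hrange : LinearMap.range Φ ≤ L E * L D := by
    rintro _ ⟨⟨a, b⟩, rfl⟩
    rw [hΦ]
    exact add_mem (Submodule.mul_mem_mul a.2 hu) (Submodule.mul_mem_mul b.2 hv)
  have hle : LinearMap.range Φ ≤ L (E + D) :=
    hrange.trans (Submodule.mul_le.2 fun a ha b hb => RedAux.mul_mem_L ha hb)
  refine le_trans (le_of_eq (Submodule.eq_of_le_of_finrank_le hle ?_).symm) hrange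
  have h1 := LinearMap.finrank_range_add_finrank_ker Φ
  have h2 := LinearMap.finrank_le_finrank_of_injective hψ
  rw [Module.finrank_prod] at h1
  have hE' := rr.finrank_eq E (by omega)
  have hED := rr.finrank_eq (E + D) (by rw [map_add]; omega)
  have hEsD := rr.finrank_eq (E - D) (by rw [map_sub]; omega)
  rw [map_add] at hED
  rw [map_sub] at hEsD
  omega

omit rr in
/-- effective equivalent divisors with one dimensional space of functions are equal -/
theorem eq_of_equiv {E E' : Divisor K F} (hE : 0 ≤ E) (hE' : 0 ≤ E')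
    (h1 : finrank K ↥(L E) ≤ 1) [Module.Finite K ↥(L E)]
    (h : E' - E ∈ Divisor.principal (K := K) (F := F)) : E = E' := by
  obtain ⟨f, hf, hfv⟩ := h
  have hfE : f ∈ L E := by
    rw [RedAux.mem_L_iff hf]
    intro v
    have := hfv v
    have := Finsupp.le_def.1 hE' v
    simp only [Finsupp.sub_apply, Finsupp.zero_apply] at *
    omega
  have h1E : (1 : F) ∈ L E := RedAux.one_mem_L hE
  have hne : (⟨1, h1E⟩ : L E) ≠ 0 := fun h => one_ne_zero (congrArg Subtype.val h)
  obtain ⟨c, hc⟩ := exists_smul_eq_of_finrank_eq_one (K := K) (V := L E)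
    (le_antisymm h1 (Nat.one_le_iff_ne_zero.2 fun h0 => hne (by
      rw [Module.finrank_zero_iff] at h0
      exact Subsingleton.elim _ _))) hne ⟨f, hfE⟩
  have hfc : f = algebraMap K F c := by
    rw [Algebra.algebraMap_eq_smul_one]; exact (congrArg Subtype.val hc).symm
  ext v
  have := hfv v
  rw [hfc, ord_algebraMap, Finsupp.sub_apply] at this
  omega

/-- a divisor of degree `≥ g` is equivalent to an effective one -/
theorem exists_effective {D : Divisor K F} (hD : (g : ℤ) ≤ Divisor.degree D) :
    ∃ E : Divisor K F, 0 ≤ E ∧ E - D ∈ Divisor.principal (K := K) (F := F) := by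
  have h := rr.le_finrank D
  obtain ⟨f, hf, hf0⟩ : ∃ f ∈ L D, f ≠ 0 := by
    rw [← Submodule.ne_bot_iff]
    intro hb
    rw [hb, finrank_bot] at h
    omega
  refine ⟨D + divisorOf K f, Finsupp.le_def.2 fun v => ?_, ⟨f, hf0, fun v => ?_⟩⟩
  · have := le_ord_of_mem hf hf0 v
    rw [Finsupp.add_apply, divisorOf_apply, Finsupp.zero_apply]
    omega
  · simp [divisorOf_apply]

omit rr in
/-- removing a general point lowers a positive dimension -/
theorem finite_setOf_finrank_le (D : Divisor K F) (h : L D ≠ ⊥) [Module.Finite K ↥(L D)] :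
    {Q : Place K F | finrank K ↥(L D) ≤ finrank K ↥(L (D - Finsupp.single Q 1))}.Finite := by
  classical
  obtain ⟨f, hf, hf0⟩ := (Submodule.ne_bot_iff _).1 h
  refine Set.Finite.subset (D + divisorOf K f).support.finite_toSet fun Q hQ => ?_
  simp only [Set.mem_setOf_eq] at hQ
  have hle : L (D - Finsupp.single Q 1) ≤ L D :=
    RedAux.L_mono (sub_le_self _ (Finsupp.le_def.2 fun w => by
      rw [Finsupp.zero_apply, Finsupp.single_apply]; split_ifs <;> omega))
  have heq := Submodule.eq_of_le_of_finrank_le hle hQ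
  have hmem : f ∈ L (D - Finsupp.single Q 1) := heq.symm ▸ hf
  have := le_ord_of_mem hmem hf0 Q
  simp only [Finset.mem_coe, Finsupp.mem_support_iff, Finsupp.add_apply, divisorOf_apply]
  rw [Finsupp.sub_apply, Finsupp.single_eq_same] at this
  omega

end Fermat.Agent.FlatModel.JacSpaces
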