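/-
Lattices in spaces of functions along a good reduction, families of subspaces over algebras of
functions on a finite set, products and colon spaces of such families.
-/
import Fermat.Agent.Flat.JacobianLinAlg
import Fermat.Agent.Flat.JacobianSpaces
import Fermat.Agent.Curve.ReductionMap

set_option autoImplicit false

namespace Fermat.Agent.FlatModel.JacLattice

open AlgebraicCurve Fermat.Agent.Curve Fermat.Agent.Curve.GoodReduction Module JacLinAlg JacSpaces
open scoped Matrix

local notation "L" => riemannRochSpace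

section Bilin

variable {R : Type*} [CommRing R] {ι₁ ι₂ ι₃ : Type*} [Fintype ι₁] [Fintype ι₂]

/-- matrix of multiplication by the vector `u` in a bilinear structure -/
def mulMat (T : ι₁ → ι₂ → ι₃ → R) (u : ι₁ → R) : Matrix ι₃ ι₂ R :=
  Matrix.of fun l j => ∑ i, u i * T i j l

end Bilin

universe uK uF uk uFb

variable {K : Type uK} [Field K] {A : ValuationSubring K}
  {F : Type uF} [Field F] [Algebra K F]
  {k : Type uk} [Field k] {Fb : Type uFb} [Field Fb] [Algebra k Fb]
  [IsAlgClosed K] [IsAlgClosed k] [IsFunctionFieldOne K F] [IsFunctionFieldOne k Fb]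
  (G : GoodReduction A F k Fb)

/-- a basis of `L D ∩ V` reducing to a basis of `L (r D)` -/
structure Lat (D : Divisor K F) (ι : Type) [Fintype ι] where
  /-- the basis -/
  e : ι → G.V
  mem : ∀ i, (e i : F) ∈ L D
  gen : ∀ f : G.V, (f : F) ∈ L D → ∃ c : ι → A, (f : F) = ∑ i, (c i : K) • (e i : F)
  indep : LinearIndependent k (fun i => G.φ (e i))
  spanb : Submodule.span k (Set.range fun i => G.φ (e i)) = L (G.divMap D)

theorem exists_lat {g : ℕ} (rr : RRFormula K F g) (rrb : RRFormula k Fb g) (D : Divisor K F)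
    (hD : 2 * (g : ℤ) - 1 ≤ Divisor.degree D) :
    Nonempty (Lat G D (Fin (finrank K ↥(L D)))) := by
  have := rr.finite D
  have := rrb.finite (G.divMap D)
  obtain ⟨e, he, hind, hgen⟩ := G.exists_lattice_basis (L D)
  refine ⟨⟨e, he, hgen, hind, Submodule.eq_of_le_of_finrank_le (Submodule.span_le.2 ?_) ?_⟩⟩
  · rintro _ ⟨i, rfl⟩
    exact G.φ_mem_riemannRochSpace (e i) (he i)
  · rw [finrank_span_eq_card hind, Fintype.card_fin]
    have h1 := rr.finrank_eq D hD
    have h2 := rrb.finrank_eq (G.divMap D) (by rw [G.degree_divMap]; exact hD)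
    rw [G.degree_divMap] at h2
    omega

namespace Lat

variable {G} {D : Divisor K F} {ι : Type} [Fintype ι] (Λ : Lat G D ι)

/-- coordinates to functions -/
noncomputable def toF : (ι → K) →ₗ[K] F := Fintype.linearCombination K fun i => (Λ.e i : F)

/-- coordinates to reduced functions -/
noncomputable def toFb : (ι → k) →ₗ[k] Fb := Fintype.linearCombination k fun i => G.φ (Λ.e i)

theorem toF_apply (a : ι → K) : Λ.toF a = ∑ i, a i • (Λ.e i : F) := rfl

theorem toFb_apply (a : ι → k) : Λ.toFb a = ∑ i, a i • G.φ (Λ.e i) := rfl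

@[simp] theorem toF_single [DecidableEq ι] (i : ι) : Λ.toF (Pi.single i 1) = (Λ.e i : F) := by
  simp [toF]

@[simp] theorem toFb_single [DecidableEq ι] (i : ι) :
    Λ.toFb (Pi.single i 1) = G.φ (Λ.e i) := by
  simp [toFb]

theorem toFb_injective : Function.Injective Λ.toFb :=
  Λ.indep.fintypeLinearCombination_injective

theorem range_toFb : LinearMap.range Λ.toFb = L (G.divMap D) := by
  rw [toFb, Fintype.range_linearCombination, Λ.spanb]

/-- integral coordinates give integral functions, compatibly with the reduction -/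
theorem toF_integral (a : ι → A) :
    ∃ h : Λ.toF (fun i => (a i : K)) ∈ G.V, G.φ ⟨_, h⟩ = Λ.toFb fun i => G.π (a i) := by
  classical
  have key : ∀ s : Finset ι, ∃ f : G.V, (f : F) = ∑ i ∈ s, (a i : K) • (Λ.e i : F) ∧
      G.φ f = ∑ i ∈ s, G.π (a i) • G.φ (Λ.e i) := by
    intro s
    induction s using Finset.induction_on with
    | empty => exact ⟨0, by simp, by simp⟩
    | insert i s hi ih =>
      obtain ⟨f, hf, he⟩ := ih
      refine ⟨⟨(a i : K) • (Λ.e i : F), G.smul_mem (a i) (Λ.e i).2⟩ + f, ?_, ?_⟩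
      · rw [Finset.sum_insert hi, AddMemClass.coe_add, hf]
      · rw [Finset.sum_insert hi, map_add, G.φ_smul (a i) (Λ.e i), he]
  obtain ⟨f, hf, he⟩ := key Finset.univ
  have hf' : Λ.toF (fun i => (a i : K)) = (f : F) := hf.symm
  refine ⟨hf' ▸ f.2, (congrArg G.φ (Subtype.ext hf')).trans he⟩

theorem toF_injective : Function.Injective Λ.toF := by
  classical
  rw [injective_iff_map_eq_zero]
  intro a ha
  by_contra hne
  obtain ⟨j, hj⟩ : ∃ j, a j ≠ 0 := Function.ne_iff.1 hne
  obtain ⟨j0, -, hmax⟩ := Finset.exists_max_image (Finset.univ : Finset ι)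
    (fun i => A.valuation (a i)) ⟨j, Finset.mem_univ _⟩
  have hj0 : a j0 ≠ 0 := by
    intro h0
    have := hmax j (Finset.mem_univ _)
    rw [h0, map_zero, le_zero_iff, Valuation.zero_iff] at this
    exact hj this
  have hb : ∀ i, a i / a j0 ∈ A := fun i => by
    rw [← ValuationSubring.valuation_le_one_iff, map_div₀]
    exact div_le_one_of_le₀ (hmax i (Finset.mem_univ _)) zero_le
  obtain ⟨h, he⟩ := Λ.toF_integral fun i => ⟨a i / a j0, hb i⟩
  have h0 : Λ.toF (fun i => a i / a j0) = 0 := by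
    rw [show (fun i => a i / a j0) = (a j0)⁻¹ • a from funext fun i => by
      simp [div_eq_mul_inv, mul_comm], map_smul, ha, smul_zero]
  have hz : (⟨_, h⟩ : G.V) = 0 := Subtype.ext h0
  rw [hz, map_zero] at he
  have h1 := congrFun (Λ.toFb_injective (he.symm.trans (map_zero Λ.toFb).symm)) j0
  rw [Pi.zero_apply, show (⟨a j0 / a j0, hb j0⟩ : A) = 1 from Subtype.ext (div_self hj0),
    map_one] at h1
  exact one_ne_zero h1

theorem range_toF : LinearMap.range Λ.toF = L D := by
  refine le_antisymm ?_ ?_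
  · rw [toF, Fintype.range_linearCombination, Submodule.span_le]
    rintro _ ⟨i, rfl⟩
    exact Λ.mem i
  · intro f hf
    rcases eq_or_ne f 0 with rfl | hf0
    · exact zero_mem _
    obtain ⟨c, hc, hc0⟩ := G.exists_scale f hf0
    obtain ⟨a, ha⟩ := Λ.gen ⟨c • f, hc⟩ ((L D).smul_mem c hf)
    have hcne : c ≠ 0 := by
      rintro rfl
      exact hc0 (by rw [show (⟨(0 : K) • f, hc⟩ : G.V) = 0 from Subtype.ext (zero_smul _ _), map_zero])
    refine ⟨fun i => c⁻¹ * (a i : K), ?_⟩
    rw [show (fun i => c⁻¹ * (a i : K)) = c⁻¹ • (fun i => (a i : K)) from rfl, map_smul, toF_apply,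
      ← ha, smul_smul, inv_mul_cancel₀ hcne, one_smul]

/-- coordinates of an integral function -/
noncomputable def coord (f : G.V) (hf : (f : F) ∈ L D) : ι → A := (Λ.gen f hf).choose

theorem toF_coord (f : G.V) (hf : (f : F) ∈ L D) :
    Λ.toF (fun i => (Λ.coord f hf i : K)) = (f : F) :=
  ((Λ.gen f hf).choose_spec).symm

theorem toFb_coord (f : G.V) (hf : (f : F) ∈ L D) :
    Λ.toFb (fun i => G.π (Λ.coord f hf i)) = G.φ f := by
  obtain ⟨h, he⟩ := Λ.toF_integral (Λ.coord f hf)
  rw [← he]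
  congr 1
  exact Subtype.ext (Λ.toF_coord f hf)

end Lat

/-! ### Multiplication -/

section Mul

variable {G} {D₁ D₂ D₃ : Divisor K F} {ι₁ ι₂ ι₃ : Type} [Fintype ι₁] [Fintype ι₂] [Fintype ι₃]
  (Λ₁ : Lat G D₁ ι₁) (Λ₂ : Lat G D₂ ι₂) (Λ₃ : Lat G D₃ ι₃) (h : D₁ + D₂ = D₃)

/-- structure constants of multiplication -/
noncomputable def mulTensor (i : ι₁) (j : ι₂) : ι₃ → A :=
  Λ₃.coord (Λ₁.e i * Λ₂.e j) (by rw [← h]; exact RedAux.mul_mem_L (Λ₁.mem i) (Λ₂.mem j))

theorem toF_mulMat (u : ι₁ → K) (v : ι₂ → K) :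
    Λ₃.toF (mulMat (fun i j l => (mulTensor Λ₁ Λ₂ Λ₃ h i j l : K)) u *ᵥ v) =
      Λ₁.toF u * Λ₂.toF v := by
  have hT : ∀ i j, ∑ l, (mulTensor Λ₁ Λ₂ Λ₃ h i j l : K) • (Λ₃.e l : F) =
      (Λ₁.e i : F) * (Λ₂.e j : F) := fun i j => Λ₃.toF_coord _ _
  rw [Lat.toF_apply Λ₁, Lat.toF_apply Λ₂, Finset.sum_mul_sum]
  simp only [Lat.toF_apply, mulMat, Matrix.mulVec, dotProduct, Matrix.of_apply, Finset.sum_mul,
    Finset.sum_smul, smul_mul_smul_comm, ← hT, Finset.smul_sum, smul_smul]
  calc _ = ∑ j, ∑ l, ∑ i, (u i * (mulTensor Λ₁ Λ₂ Λ₃ h i j l : K) * v j) • (Λ₃.e l : F) :=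
        Finset.sum_comm
    _ = ∑ j, ∑ i, ∑ l, (u i * (mulTensor Λ₁ Λ₂ Λ₃ h i j l : K) * v j) • (Λ₃.e l : F) :=
        Finset.sum_congr rfl fun j _ => Finset.sum_comm
    _ = _ := by
        rw [Finset.sum_comm]
        refine Finset.sum_congr rfl fun i _ => Finset.sum_congr rfl fun j _ =>
          Finset.sum_congr rfl fun l _ => ?_
        congr 1
        ring

theorem toFb_mulMat (u : ι₁ → k) (v : ι₂ → k) :
    Λ₃.toFb (mulMat (fun i j l => G.π (mulTensor Λ₁ Λ₂ Λ₃ h i j l)) u *ᵥ v) =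
      Λ₁.toFb u * Λ₂.toFb v := by
  have hT : ∀ i j, ∑ l, G.π (mulTensor Λ₁ Λ₂ Λ₃ h i j l) • G.φ (Λ₃.e l) =
      G.φ (Λ₁.e i) * G.φ (Λ₂.e j) := fun i j => by
    rw [← map_mul]; exact Λ₃.toFb_coord _ _
  rw [Lat.toFb_apply Λ₁, Lat.toFb_apply Λ₂, Finset.sum_mul_sum]
  simp only [Lat.toFb_apply, mulMat, Matrix.mulVec, dotProduct, Matrix.of_apply, Finset.sum_mul,
    Finset.sum_smul, smul_mul_smul_comm, ← hT, Finset.smul_sum, smul_smul]
  calc _ = ∑ j, ∑ l, ∑ i, (u i * G.π (mulTensor Λ₁ Λ₂ Λ₃ h i j l) * v j) • G.φ (Λ₃.e l) :=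
        Finset.sum_comm
    _ = ∑ j, ∑ i, ∑ l, (u i * G.π (mulTensor Λ₁ Λ₂ Λ₃ h i j l) * v j) • G.φ (Λ₃.e l) :=
        Finset.sum_congr rfl fun j _ => Finset.sum_comm
    _ = _ := by
        rw [Finset.sum_comm]
        refine Finset.sum_congr rfl fun i _ => Finset.sum_congr rfl fun j _ =>
          Finset.sum_congr rfl fun l _ => ?_
        congr 1
        ring

end Mul

/-! ### Families of subspaces -/

section Fam

variable {G} {X : Type} (S : Subalgebra A (X → A)) {D : Divisor K F} {ι : Type} [Fintype ι]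

/-- the matrix `M` over `S` presents the family of spaces `L (E x)` inside `L D` -/
structure Presents (Λ : Lat G D ι) (E : X → Divisor K F) {n : Type} [Fintype n]
    (M : Matrix ι n S) : Prop where
  gen : ∀ x, (LinearMap.range (M.map (evK S x)).mulVecLin).map Λ.toF = L (E x)
  special : ∀ x, (LinearMap.range ((M.map (ev S x)).map G.π).mulVecLin).map Λ.toFb =
    L (G.divMap (E x))

/-- the family of spaces `L (E x)` inside `L D` is regular over `S` -/
def Regular (Λ : Lat G D ι) (E : X → Divisor K F) : Prop :=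
  ∃ (n : Type) (_ : Fintype n) (_ : DecidableEq n) (M : Matrix ι n S), Presents S Λ E M

variable {S}

theorem Presents.rank_gen {Λ : Lat G D ι} {E : X → Divisor K F} {n : Type} [Fintype n]
    {M : Matrix ι n S} (h : Presents S Λ E M) (x : X) :
    (M.map (evK S x)).rank = finrank K ↥(L (E x)) := by
  rw [← h.gen x]
  exact ((LinearMap.range _).equivMapOfInjective _ Λ.toF_injective).finrank_eq

theorem Presents.rank_special {Λ : Lat G D ι} {E : X → Divisor K F} {n : Type} [Fintype n]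
    {M : Matrix ι n S} (h : Presents S Λ E M) (x : X) :
    ((M.map (ev S x)).map G.π).rank = finrank k ↥(L (G.divMap (E x))) := by
  rw [← h.special x]
  exact ((LinearMap.range _).equivMapOfInjective _ Λ.toFb_injective).finrank_eq

theorem Presents.genInv [Finite X] {Λ : Lat G D ι} {E : X → Divisor K F} {n : Type} [Fintype n]
    [DecidableEq n] [DecidableEq ι] {M : Matrix ι n S} (h : Presents S Λ E M) (c : ℕ)
    (hK : ∀ x, finrank K ↥(L (E x)) ≤ c) (hk : ∀ x, c ≤ finrank k ↥(L (G.divMap (E x)))) :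
    ∃ Z : Matrix n ι S, M * Z * M = M :=
  exists_genInv (π := G.π) (fun a ha => not_not.1 fun hu => ha ((G.π_eq_zero_iff a).2 hu))
    G.π_surjective M c (fun x => (h.rank_gen x).le.trans (hK x))
    (fun x => (hk x).trans (h.rank_special x).ge)

/-- a constant family -/
theorem regular_const (Λ : Lat G D ι) [DecidableEq ι] : Regular S Λ fun _ : X => D := by
  refine ⟨ι, inferInstance, inferInstance, 1, fun x => ?_, fun x => ?_⟩
  · rw [Matrix.map_one _ (map_zero _) (map_one _), Matrix.mulVecLin_one, LinearMap.range_id,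
      Submodule.map_top, Λ.range_toF]
  · rw [Matrix.map_one _ (map_zero _) (map_one _), Matrix.map_one _ (map_zero _) (map_one _),
      Matrix.mulVecLin_one, LinearMap.range_id, Submodule.map_top, Λ.range_toFb]

variable {D₁ D₂ D₃ : Divisor K F} {ι₁ ι₂ ι₃ : Type} [Fintype ι₁] [Fintype ι₂] [Fintype ι₃]
  {Λ₁ : Lat G D₁ ι₁} {Λ₂ : Lat G D₂ ι₂} {Λ₃ : Lat G D₃ ι₃}

theorem map_range_mulVecLin_eq_span {R M : Type*} [CommRing R] [AddCommGroup M] [Module R M]
    {m n : Type*} [Fintype n] (N : Matrix m n R) (f : (m → R) →ₗ[R] M) :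
    (LinearMap.range N.mulVecLin).map f = Submodule.span R (Set.range fun j => f (N.col j)) := by
  rw [Matrix.range_mulVecLin, Submodule.map_span, ← Set.range_comp]
  rfl

/-- multiplication of a family with a full lattice -/
theorem Regular.mul {E₁ E₃ : X → Divisor K F} (h₁ : Regular S Λ₁ E₁) (Λ₂ : Lat G D₂ ι₂)
    (h : D₁ + D₂ = D₃)
    (hK : ∀ x, L (E₁ x) * L D₂ = L (E₃ x))
    (hk : ∀ x, L (G.divMap (E₁ x)) * L (G.divMap D₂) = L (G.divMap (E₃ x))) :
    Regular S Λ₃ E₃ := by
  classical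
  obtain ⟨n, _, _, M, hM⟩ := h₁
  let P : Matrix ι₃ (n × ι₂) S := Matrix.of fun l p =>
    (mulMat (fun i j l => algebraMap A S (mulTensor Λ₁ Λ₂ Λ₃ h i j l)) (M.col p.1)) l p.2
  refine ⟨n × ι₂, inferInstance, inferInstance, P, fun x => ?_, fun x => ?_⟩
  · rw [← hK x, ← hM.gen x, map_range_mulVecLin_eq_span, map_range_mulVecLin_eq_span,
      ← Λ₂.range_toF, (show LinearMap.range Λ₂.toF = Submodule.span K
        (Set.range fun i => (Λ₂.e i : F)) from Fintype.range_linearCombination _ _),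
      Submodule.span_mul_span]
    congr 1
    ext y
    simp only [Set.mem_mul, Set.mem_range, exists_exists_eq_and, Prod.exists]
    refine exists₂_congr fun q j => ?_
    rw [← Λ₂.toF_single j, ← toF_mulMat Λ₁ Λ₂ Λ₃ h]
    constructor <;> rintro rfl <;> congr 1 <;> funext l <;>
      simp [P, mulMat, Matrix.col, evK, map_sum]
  · rw [← hk x, ← hM.special x, map_range_mulVecLin_eq_span, map_range_mulVecLin_eq_span,
      ← Λ₂.range_toFb, (show LinearMap.range Λ₂.toFb = Submodule.span k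
        (Set.range fun i => G.φ (Λ₂.e i)) from Fintype.range_linearCombination _ _),
      Submodule.span_mul_span]
    congr 1
    ext y
    simp only [Set.mem_mul, Set.mem_range, exists_exists_eq_and, Prod.exists]
    refine exists₂_congr fun q j => ?_
    rw [← Λ₂.toFb_single j, ← toFb_mulMat Λ₁ Λ₂ Λ₃ h]
    constructor <;> rintro rfl <;> congr 1 <;> funext l <;>
      simp [P, mulMat, Matrix.col, map_sum]

theorem mem_span_iff_forall_generators {R' : Type*} [CommRing R'] {F' : Type*} [CommRing F']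
    [Algebra R' F'] {s : Set F'} {P : Submodule R' F'} {f : F'} :
    (∀ w ∈ Submodule.span R' s, f * w ∈ P) ↔ ∀ w ∈ s, f * w ∈ P := by
  refine ⟨fun h w hw => h w (Submodule.subset_span hw), fun h w hw => ?_⟩
  induction hw using Submodule.span_induction with
  | mem w hw => exact h w hw
  | zero => simp
  | add a b _ _ ha hb => rw [mul_add]; exact add_mem ha hb
  | smul r a _ ha => rw [mul_smul_comm]; exact P.smul_mem r ha

/-- colon of two families -/
theorem Regular.colon [Finite X] {g : ℕ} (rr : RRFormula K F g) (rrb : RRFormula k Fb g)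
    {E₁ E₂ E₃ : X → Divisor K F} (h₂ : Regular S Λ₂ E₂) (h₃ : Regular S Λ₃ E₃)
    (h : D₁ + D₂ = D₃) (hle : ∀ x, E₁ x ≤ D₁) (heq : ∀ x, E₃ x - E₂ x = E₁ x)
    (hdeg : ∀ x, 2 * (g : ℤ) ≤ Divisor.degree (E₂ x))
    (c₃ : ℕ) (h3K : ∀ x, finrank K ↥(L (E₃ x)) ≤ c₃)
    (h3k : ∀ x, c₃ ≤ finrank k ↥(L (G.divMap (E₃ x))))
    (c₁ : ℕ) (h1K : ∀ x, c₁ ≤ finrank K ↥(L (E₁ x)))
    (h1k : ∀ x, finrank k ↥(L (G.divMap (E₁ x))) ≤ c₁) :
    Regular S Λ₁ E₁ := by
  classical
  obtain ⟨n₂, _, _, N, hN⟩ := h₂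
  obtain ⟨n₃, _, _, M, hM⟩ := h₃
  obtain ⟨Z, hZ⟩ := hM.genInv c₃ h3K h3k
  let Tm : (q : n₂) → Matrix ι₃ ι₁ S := fun q => Matrix.of fun l i =>
    ∑ j, algebraMap A S (mulTensor Λ₁ Λ₂ Λ₃ h i j l) * N j q
  let Q : Matrix (n₂ × ι₃) ι₁ S := Matrix.of fun p i =>
    (((1 : Matrix ι₃ ι₃ S) - M * Z) * Tm p.1) p.2 i
  have hZK : ∀ x, M.map (evK S x) * Z.map (evK S x) * M.map (evK S x) = M.map (evK S x) := by
    intro x; rw [← Matrix.map_mul, ← Matrix.map_mul, hZ]
  have hZk : ∀ x, (M.map (ev S x)).map G.π * (Z.map (ev S x)).map G.π * (M.map (ev S x)).map G.π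
      = (M.map (ev S x)).map G.π := by
    intro x; rw [← Matrix.map_mul, ← Matrix.map_mul, ← Matrix.map_mul, ← Matrix.map_mul, hZ]
  have hkerK : ∀ x, (LinearMap.ker (Q.map (evK S x)).mulVecLin).map Λ₁.toF = L (E₁ x) := by
    intro x
    have hcol : ∀ (q : n₂) (v : ι₁ → K), Λ₃.toF ((Tm q).map (evK S x) *ᵥ v) =
        Λ₁.toF v * Λ₂.toF ((N.map (evK S x)).col q) := by
      intro q v
      rw [← toF_mulMat Λ₁ Λ₂ Λ₃ h]
      congr 1
      funext l
      simp only [mulMat, Matrix.mulVec, dotProduct, Matrix.map_apply, Matrix.of_apply, Tm,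
        Matrix.col, Matrix.transpose_apply, map_sum, map_mul, Finset.sum_mul]
      rw [Finset.sum_comm]
      refine Finset.sum_congr rfl fun j _ => Finset.sum_congr rfl fun i _ => ?_
      simp [evK]
      ring
    have hchar : ∀ v : ι₁ → K, (Q.map (evK S x)).mulVecLin v = 0 ↔
        Λ₁.toF v ∈ L (E₁ x) := by
      intro v
      rw [← heq x, mem_sub_iff rr (hdeg x), ← hN.gen x, map_range_mulVecLin_eq_span,
        mem_span_iff_forall_generators]
      simp only [Set.forall_mem_range, ← hcol, ← hM.gen x]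
      rw [funext_iff, Prod.forall]
      refine forall_congr' fun q => ?_
      rw [← Submodule.mem_comap, Submodule.comap_map_eq_of_injective Λ₃.toF_injective]
      rw [← ker_one_sub_of_genInv _ _ (hZK x), LinearMap.mem_ker, funext_iff]
      refine forall_congr' fun l => ?_
      rw [Matrix.mulVecLin_apply, Matrix.mulVecLin_apply, Matrix.mulVec_mulVec]
      rw [show ((1 : Matrix ι₃ ι₃ K) - M.map (evK S x) * Z.map (evK S x)) * (Tm q).map (evK S x) =
        (((1 : Matrix ι₃ ι₃ S) - M * Z) * Tm q).map (evK S x) by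
          rw [Matrix.map_mul, Matrix.map_sub _ (map_sub _), Matrix.map_mul,
            Matrix.map_one _ (map_zero _) (map_one _)]]
      rfl
    apply le_antisymm
    · rintro _ ⟨v, hv, rfl⟩
      exact (hchar v).1 hv
    · intro f hf
      obtain ⟨v, rfl⟩ : f ∈ LinearMap.range Λ₁.toF := Λ₁.range_toF ▸ RedAux.L_mono (hle x) hf
      exact ⟨v, (hchar v).2 hf, rfl⟩
  have hkerk : ∀ x, (LinearMap.ker ((Q.map (ev S x)).map G.π).mulVecLin).map Λ₁.toFb =
      L (G.divMap (E₁ x)) := by
    intro x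
    have hcol : ∀ (q : n₂) (v : ι₁ → k), Λ₃.toFb (((Tm q).map (ev S x)).map G.π *ᵥ v) =
        Λ₁.toFb v * Λ₂.toFb (((N.map (ev S x)).map G.π).col q) := by
      intro q v
      rw [← toFb_mulMat Λ₁ Λ₂ Λ₃ h]
      congr 1
      funext l
      simp only [mulMat, Matrix.mulVec, dotProduct, Matrix.map_apply, Matrix.of_apply, Tm,
        Matrix.col, Matrix.transpose_apply, map_sum, map_mul, Finset.sum_mul]
      rw [Finset.sum_comm]
      refine Finset.sum_congr rfl fun j _ => Finset.sum_congr rfl fun i _ => ?_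
      simp
      ring
    have hchar : ∀ v : ι₁ → k, ((Q.map (ev S x)).map G.π).mulVecLin v = 0 ↔
        Λ₁.toFb v ∈ L (G.divMap (E₁ x)) := by
      intro v
      rw [← heq x, map_sub, mem_sub_iff rrb (by rw [G.degree_divMap]; exact hdeg x),
        ← hN.special x, map_range_mulVecLin_eq_span, mem_span_iff_forall_generators]
      simp only [Set.forall_mem_range, ← hcol, ← hM.special x]
      rw [funext_iff, Prod.forall]
      refine forall_congr' fun q => ?_
      rw [← Submodule.mem_comap, Submodule.comap_map_eq_of_injective Λ₃.toFb_injective]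
      rw [← ker_one_sub_of_genInv _ _ (hZk x), LinearMap.mem_ker, funext_iff]
      refine forall_congr' fun l => ?_
      rw [Matrix.mulVecLin_apply, Matrix.mulVecLin_apply, Matrix.mulVec_mulVec]
      rw [show ((1 : Matrix ι₃ ι₃ k) - (M.map (ev S x)).map G.π * (Z.map (ev S x)).map G.π) *
          ((Tm q).map (ev S x)).map G.π =
        ((((1 : Matrix ι₃ ι₃ S) - M * Z) * Tm q).map (ev S x)).map G.π by
          simp only [Matrix.map_mul, Matrix.map_sub _ (map_sub _),
            Matrix.map_one _ (map_zero _) (map_one _)]]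
      rfl
    apply le_antisymm
    · rintro _ ⟨v, hv, rfl⟩
      exact (hchar v).1 hv
    · intro f hf
      obtain ⟨v, rfl⟩ : f ∈ LinearMap.range Λ₁.toFb :=
        Λ₁.range_toFb ▸ RedAux.L_mono (G.divMap_mono (hle x)) hf
      exact ⟨v, (hchar v).2 hf, rfl⟩
  have hrK : ∀ x, (Q.map (evK S x)).rank ≤ Fintype.card ι₁ - c₁ := by
    intro x
    have h1 := LinearMap.finrank_range_add_finrank_ker (Q.map (evK S x)).mulVecLin
    have h2 := ((LinearMap.ker (Q.map (evK S x)).mulVecLin).equivMapOfInjective _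
      Λ₁.toF_injective).finrank_eq
    rw [hkerK x] at h2
    rw [Module.finrank_pi] at h1
    have h3 := h1K x
    rw [Matrix.rank]
    omega
  have hrk : ∀ x, Fintype.card ι₁ - c₁ ≤ ((Q.map (ev S x)).map G.π).rank := by
    intro x
    have h1 := LinearMap.finrank_range_add_finrank_ker ((Q.map (ev S x)).map G.π).mulVecLin
    have h2 := ((LinearMap.ker ((Q.map (ev S x)).map G.π).mulVecLin).equivMapOfInjective _
      Λ₁.toFb_injective).finrank_eq
    rw [hkerk x] at h2
    rw [Module.finrank_pi] at h1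
    have h3 := h1k x
    rw [Matrix.rank]
    omega
  obtain ⟨W, hW⟩ := exists_genInv (π := G.π)
    (fun a ha => not_not.1 fun hu => ha ((G.π_eq_zero_iff a).2 hu)) G.π_surjective Q _ hrK hrk
  refine ⟨ι₁, inferInstance, inferInstance, 1 - W * Q, fun x => ?_, fun x => ?_⟩
  · rw [Matrix.map_sub _ (map_sub _), Matrix.map_mul, Matrix.map_one _ (map_zero _) (map_one _),
      range_one_sub_of_genInv _ _ (by rw [← Matrix.map_mul, ← Matrix.map_mul, hW])]
    exact hkerK x
  · rw [Matrix.map_sub _ (map_sub _), Matrix.map_sub _ (map_sub _), Matrix.map_mul, Matrix.map_mul,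
      Matrix.map_one _ (map_zero _) (map_one _), Matrix.map_one _ (map_zero _) (map_one _),
      range_one_sub_of_genInv _ _ (by
        rw [← Matrix.map_mul, ← Matrix.map_mul, ← Matrix.map_mul, ← Matrix.map_mul, hW])]
    exact hkerk x

/-- normalised coordinates of a regular family of constant dimension -/
theorem Regular.exists_normalised [Finite X] {Λ : Lat G D ι} {E : X → Divisor K F}
    (hE : Regular S Λ E) {r : ℕ} (hK : ∀ x, finrank K ↥(L (E x)) ≤ r)
    (hk : ∀ x, finrank k ↥(L (G.divMap (E x))) = r) [DecidableEq ι] (Y : Matrix (Fin r) ι A)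
    (hY : ∀ x, ∀ v, Λ.toFb v ∈ L (G.divMap (E x)) → Y.map G.π *ᵥ v = 0 → v = 0) :
    ∃ B : Matrix ι (Fin r) S, Y.map (algebraMap A S) * B = 1 ∧ Presents S Λ E B := by
  obtain ⟨n, _, _, M, hM⟩ := hE
  have hYr : ∀ x, r ≤ (Y.map G.π * (M.map (ev S x)).map G.π).rank := by
    intro x
    have hr := (hM.rank_special x).trans (hk x)
    rw [Matrix.rank] at hr ⊢
    have h1 := LinearMap.finrank_range_add_finrank_ker
      (Y.map G.π * (M.map (ev S x)).map G.π).mulVecLin
    have h2 := LinearMap.finrank_range_add_finrank_ker ((M.map (ev S x)).map G.π).mulVecLin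
    have h3 : LinearMap.ker (Y.map G.π * (M.map (ev S x)).map G.π).mulVecLin =
        LinearMap.ker ((M.map (ev S x)).map G.π).mulVecLin := by
      ext v
      simp only [LinearMap.mem_ker, Matrix.mulVecLin_apply, ← Matrix.mulVec_mulVec]
      refine ⟨fun hv => hY x _ ?_ hv, fun hv => by rw [hv, Matrix.mulVec_zero]⟩
      rw [← hM.special x]
      exact ⟨_, ⟨v, rfl⟩, rfl⟩
    rw [h3] at h1
    omega
  obtain ⟨X0, hX0⟩ := JacLinAlg.exists_normalised (π := G.π)
    (fun a ha => not_not.1 fun hu => ha ((G.π_eq_zero_iff a).2 hu)) G.π_surjective M Y hYr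
  refine ⟨M * X0, hX0, fun x => ?_, fun x => ?_⟩
  · rw [Matrix.map_mul, range_mul_eq_of_compression _ ((Y.map (algebraMap A S)).map (evK S x)) _
      (by rw [← Matrix.map_mul, ← Matrix.map_mul, Matrix.mul_assoc, hX0,
        Matrix.map_one _ (map_zero _) (map_one _)]) ((hM.rank_gen x).le.trans (hK x))]
    exact hM.gen x
  · rw [Matrix.map_mul, Matrix.map_mul, range_mul_eq_of_compression _
      (((Y.map (algebraMap A S)).map (ev S x)).map G.π) _
      (by rw [← Matrix.map_mul, ← Matrix.map_mul, ← Matrix.map_mul, ← Matrix.map_mul,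
        Matrix.mul_assoc, hX0, Matrix.map_one _ (map_zero _) (map_one _),
        Matrix.map_one _ (map_zero _) (map_one _)]) ((hM.rank_special x).le.trans (hk x).le)]
    exact hM.special x

end Fam

end Fermat.Agent.FlatModel.JacLattice
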