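/-
The abstract setting for finite flat models of torsion in Jacobians: a function field over `ℚ̄`
with an action of the Galois group and an equivariant good reduction along a valuation subring.
-/
import Fermat.Agent.Flat.JacobianLattice
import Fermat.Agent.Flat.JacobianArith
import Fermat.Agent.Curve.ReductionFunctorial
import Fermat.Agent.Curve.RiemannRochDuality

set_option autoImplicit false

open scoped Pointwise

namespace Fermat.Agent.FlatModel.JacSetting

open AlgebraicCurve Fermat.Agent.Curve Fermat.Agent.Curve.GoodReduction Module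
  JacSpaces JacLattice

local notation "L" => riemannRochSpace
local notation "ℚbar" => AlgebraicClosure ℚ
local notation "Γℚ" => AlgebraicClosure ℚ ≃ₐ[ℚ] AlgebraicClosure ℚ

theorem rrFormula (K F : Type*) [Field K] [Field F] [Algebra K F] [IsAlgClosed K]
    [IsFunctionFieldOne K F] : RRFormula K F (genusFF K F) :=
  ⟨fun D => inferInstance, fun D => by
    have := riemann_inequality D
    simp only [ellDim] at this
    omega, fun D hD => ellDim_eq_of_degree_ge hD⟩

theorem rrFormula_special {K : Type*} [Field K] {A : ValuationSubring K}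
    {F : Type*} [Field F] [Algebra K F] {k : Type*} [Field k] {Fb : Type*} [Field Fb]
    [Algebra k Fb] [IsAlgClosed k] [IsFunctionFieldOne k Fb] (G : GoodReduction A F k Fb) :
    RRFormula k Fb (genusFF K F) :=
  G.genus_eq ▸ rrFormula k Fb

section Semilinear

variable {K F : Type*} [Field K] [Field F] [Algebra K F]

theorem toRingAut_mem_L (g : SemilinearAut K F) {D : Divisor K F} {f : F} (hf : f ∈ L D) :
    SemilinearAut.toRingAut g f ∈ L (g • D) := by
  rcases eq_or_ne f 0 with rfl | hf0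
  · simp
  rw [RedAux.mem_L_iff (by simpa using hf0)]
  intro v
  have h := SemilinearAut.ord_smul g (g⁻¹ • v) f
  rw [smul_inv_smul, SemilinearAut.smul_def] at h
  rw [SemilinearAut.divisor_smul_apply, h]
  exact (RedAux.mem_L_iff hf0).1 hf _

theorem toRingAut_mem_L_iff (g : SemilinearAut K F) {D : Divisor K F} {f : F} :
    SemilinearAut.toRingAut g f ∈ L (g • D) ↔ f ∈ L D := by
  refine ⟨fun h => ?_, toRingAut_mem_L g⟩
  have h2 := toRingAut_mem_L g⁻¹ h
  rwa [inv_smul_smul, SemilinearAut.toRingAut_inv, RingEquiv.symm_apply_apply] at h2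

/-- a semilinear automorphism preserves the dimensions of spaces of functions -/
theorem finrank_L_smul (g : SemilinearAut K F) (D : Divisor K F) :
    finrank K ↥(L (g • D)) = finrank K ↥(L D) := by
  let e : ↥(L D) ≃+ ↥(L (g • D)) :=
    { toFun := fun f => ⟨SemilinearAut.toRingAut g f, toRingAut_mem_L g f.2⟩
      invFun := fun f => ⟨(SemilinearAut.toRingAut g).symm f, by
        have := toRingAut_mem_L g⁻¹ f.2
        rwa [inv_smul_smul, SemilinearAut.toRingAut_inv] at this⟩
      left_inv := fun f => Subtype.ext (by simp)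
      right_inv := fun f => Subtype.ext (by simp)
      map_add' := fun f f' => Subtype.ext (by simp) }
  have h : Module.rank K ↥(L D) = Module.rank K ↥(L (g • D)) :=
    rank_eq_of_equiv_equiv (SemilinearAut.baseAut g) e (SemilinearAut.baseAut g).bijective
      (fun c f => Subtype.ext (by
        show SemilinearAut.toRingAut g (c • (f : F)) =
          SemilinearAut.baseAut g c • SemilinearAut.toRingAut g (f : F)
        rw [Algebra.smul_def, Algebra.smul_def, map_mul, SemilinearAut.commutes]))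
  exact (congrArg Cardinal.toNat h).symm

theorem smul_le_smul_iff (g : SemilinearAut K F) {D E : Divisor K F} :
    g • D ≤ g • E ↔ D ≤ E := by
  rw [Finsupp.le_def, Finsupp.le_def]
  refine ⟨fun h v => ?_, fun h v => ?_⟩
  · have := h (g • v)
    rwa [SemilinearAut.divisor_smul_apply_smul, SemilinearAut.divisor_smul_apply_smul] at this
  · rw [SemilinearAut.divisor_smul_apply, SemilinearAut.divisor_smul_apply]
    exact h _

end Semilinear

/-- a Galois-equivariant good reduction along a valuation subring over `ℓ` -/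
structure Setting (ℓ : ℕ) (F : Type) [Field F] [Algebra ℚbar F] where
  A : ValuationSubring ℚbar
  over : A.LiesOverPrime ℓ
  Fb : Type
  [fieldFb : Field Fb]
  [algebraFb : Algebra (IsLocalRing.ResidueField A) Fb]
  [closed : IsAlgClosed (IsLocalRing.ResidueField A)]
  [special : IsFunctionFieldOne (IsLocalRing.ResidueField A) Fb]
  G : GoodReduction A F (IsLocalRing.ResidueField A) Fb
  π_eq : G.π = IsLocalRing.residue A
  /-- the Galois action on `F` -/
  gal : Γℚ →* SemilinearAut ℚbar F
  baseAut_gal : ∀ (σ : Γℚ) (a : ℚbar), SemilinearAut.baseAut (gal σ) a = σ a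
  /-- the decomposition group acts on the reduction -/
  decomp : ∀ σ ∈ A.decompositionSubgroup ℚ, ∃ gb : SemilinearAut (IsLocalRing.ResidueField A) Fb,
    ∀ f : G.V, ∃ h : SemilinearAut.toRingAut (gal σ) (f : F) ∈ G.V,
      G.φ ⟨_, h⟩ = SemilinearAut.toRingAut gb (G.φ f)
  /-- the inertia group acts trivially on the reduction -/
  inertia : ∀ σ ∈ A.inertiaSubgroupIn ℚ, ∀ f : G.V,
    ∃ h : SemilinearAut.toRingAut (gal σ) (f : F) ∈ G.V, G.φ ⟨_, h⟩ = G.φ f
  /-- a rational divisor of positive degree -/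
  R₀ : Divisor ℚbar F
  R₀_fixed : ∀ σ : Γℚ, gal σ • R₀ = R₀
  R₀_degree : 0 < Divisor.degree R₀
  /-- rational divisors of large degree have lattices with rational bases -/
  exists_fixed_lat : ∀ R : Divisor ℚbar F, (∀ σ : Γℚ, gal σ • R = R) →
    2 * (genusFF ℚbar F : ℤ) - 1 ≤ Divisor.degree R →
    ∃ (ι : Type) (_ : Fintype ι) (Λ : Lat G R ι),
      ∀ (σ : Γℚ) (i : ι), SemilinearAut.toRingAut (gal σ) (Λ.e i : F) = (Λ.e i : F)

attribute [instance] Setting.fieldFb Setting.algebraFb Setting.closed Setting.special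

namespace Setting

variable {ℓ : ℕ} {F : Type} [Field F] [Algebra (AlgebraicClosure ℚ) F]
  [IsFunctionFieldOne (AlgebraicClosure ℚ) F] (𝔖 : Setting ℓ F)

/-- the residue field of the constants -/
abbrev k : Type := IsLocalRing.ResidueField 𝔖.A

/-- the genus -/
noncomputable abbrev genus : ℕ := genusFF ℚbar F

omit [IsFunctionFieldOne (AlgebraicClosure ℚ) F] in
theorem toRingAut_smul (σ : Γℚ) (a : ℚbar) (f : F) :
    SemilinearAut.toRingAut (𝔖.gal σ) (a • f) = σ a • SemilinearAut.toRingAut (𝔖.gal σ) f := by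
  rw [Algebra.smul_def, Algebra.smul_def, map_mul, SemilinearAut.commutes, baseAut_gal]

theorem gal_toF {R : Divisor ℚbar F} {ι : Type} [Fintype ι] (Λ : Lat 𝔖.G R ι) (σ : Γℚ)
    (hΛ : ∀ i, SemilinearAut.toRingAut (𝔖.gal σ) (Λ.e i : F) = (Λ.e i : F)) (v : ι → ℚbar) :
    SemilinearAut.toRingAut (𝔖.gal σ) (Λ.toF v) = Λ.toF fun i => σ (v i) := by
  rw [Lat.toF_apply, Lat.toF_apply, map_sum]
  exact Finset.sum_congr rfl fun i _ => by rw [𝔖.toRingAut_smul, hΛ]

theorem placeMap_gal_of_mem_inertia {σ : Γℚ} (hσ : σ ∈ 𝔖.A.inertiaSubgroupIn ℚ)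
    (P : Place ℚbar F) : 𝔖.G.placeMap (𝔖.gal σ • P) = 𝔖.G.placeMap P := by
  have h := 𝔖.G.placeMap_smul (𝔖.gal σ) 1
    (fun f => (𝔖.inertia σ hσ f).1) (fun f => by
      rw [one_smul]
      exact (𝔖.inertia σ hσ f).2) P
  rwa [one_smul] at h

/-- admissibility is stable under the decomposition group -/
theorem finrank_divMap_gal {σ : Γℚ} (hσ : σ ∈ 𝔖.A.decompositionSubgroup ℚ) (D : Divisor ℚbar F) :
    finrank 𝔖.k ↥(L (𝔖.G.divMap (𝔖.gal σ • D))) = finrank 𝔖.k ↥(L (𝔖.G.divMap D)) := by
  obtain ⟨gb, hgb⟩ := 𝔖.decomp σ hσ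
  rw [𝔖.G.divMap_smul (𝔖.gal σ) gb (fun f => (hgb f).1) (fun f => (hgb f).2) D,
    finrank_L_smul]

/-- the stabiliser of a divisor below a rational one is open -/
theorem isOpen_stabilizer {R E : Divisor ℚbar F} (hR : ∀ σ : Γℚ, 𝔖.gal σ • R = R)
    (hE : E ≤ R) (hdeg : 2 * (genusFF ℚbar F : ℤ) ≤ Divisor.degree E) :
    IsOpen ({σ : Γℚ | 𝔖.gal σ • E = E}) := by
  classical
  have hRdeg : 2 * (genusFF ℚbar F : ℤ) ≤ Divisor.degree R := hdeg.trans (RedAux.degree_mono hE)
  obtain ⟨ι, _, Λ, hΛ⟩ := 𝔖.exists_fixed_lat R hR (by omega)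
  set W : Submodule ℚbar (ι → ℚbar) := (L E).comap Λ.toF with hW
  obtain ⟨s, hs⟩ : W.FG := IsNoetherian.noetherian W
  let H : Subgroup Γℚ :=
    (⨅ v ∈ s, ⨅ i, MulAction.stabilizer Γℚ ((v : ι → ℚbar) i))
  have hH : IsOpen (H : Set Γℚ) := by
    simp only [H, Subgroup.coe_iInf]
    refine isOpen_biInter_finset fun v _ => isOpen_iInter_of_finite fun i => ?_
    exact stabilizer_isOpen_of_isIntegral _
  let St : Subgroup Γℚ := (MulAction.stabilizer (SemilinearAut ℚbar F) E).comap 𝔖.gal
  suffices hle : H ≤ St from Subgroup.isOpen_mono hle hH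
  intro σ hσ
  simp only [H, Subgroup.mem_iInf, MulAction.mem_stabilizer_iff, AlgEquiv.smul_def] at hσ
  show 𝔖.gal σ • E = E
  have hmap : ∀ v ∈ W, SemilinearAut.toRingAut (𝔖.gal σ) (Λ.toF v) ∈ L E := by
    intro v hv
    rw [← hs] at hv
    induction hv using Submodule.span_induction with
    | mem v hv =>
      rw [𝔖.gal_toF Λ σ (hΛ σ), show (fun i => σ (v i)) = v from funext fun i => hσ v hv i]
      have : v ∈ W := hs ▸ Submodule.subset_span hv
      exact this
    | zero => simp
    | add a b _ _ ha hb => rw [map_add, map_add]; exact add_mem ha hb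
    | smul c a _ ha => rw [map_smul, 𝔖.toRingAut_smul]; exact (L E).smul_mem _ ha
  have hle' : L E ≤ L ((𝔖.gal σ)⁻¹ • E) := by
    intro f hf
    obtain ⟨v, rfl⟩ : f ∈ LinearMap.range Λ.toF := Λ.range_toF ▸ RedAux.L_mono hE hf
    rw [← toRingAut_mem_L_iff (𝔖.gal σ), smul_inv_smul]
    exact hmap v hf
  have hdeg' : Divisor.degree ((𝔖.gal σ)⁻¹ • E) = Divisor.degree E := SemilinearAut.degree_smul _ _
  have hfin := (rrFormula ℚbar F).finite ((𝔖.gal σ)⁻¹ • E)
  have h1 := (rrFormula ℚbar F).finrank_eq E (by omega)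
  have h2 := (rrFormula ℚbar F).finrank_eq ((𝔖.gal σ)⁻¹ • E) (by omega)
  have heq := eq_of_space_eq (rrFormula ℚbar F) hdeg (hdeg'.symm ▸ hdeg)
    (Submodule.eq_of_le_of_finrank_le hle' (by omega))
  exact (eq_inv_smul_iff.1 heq)

end Setting

end Fermat.Agent.FlatModel.JacSetting
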