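/-
Lattices with rational bases in spaces of functions on `X₀(N)` attached to rational divisors.
-/
import Fermat.Agent.Flat.BModularRational
import Fermat.Agent.Flat.JacobianSetting
import Fermat.Agent.Curve.BasicModular
import Mathlib.LinearAlgebra.Dual.Lemmas

set_option autoImplicit false

noncomputable section

namespace Fermat.Agent.FlatModel.BModular

open AlgebraicCurve ModularCurve Module JacLattice

local notation "L" => riemannRochSpace
local notation "ℚbar" => AlgebraicClosure ℚ
local notation "Γℚ" => AlgebraicClosure ℚ ≃ₐ[ℚ] AlgebraicClosure ℚ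

variable {N : ℕ}

theorem coe_galF (σ : Γℚ) (f : modularFunctionFieldBar N) :
    (galF σ f : LaurentSeries ℚbar) = coeffMap (σ : ℚbar →+* ℚbar) (f : LaurentSeries ℚbar) :=
  rfl

/-- the `m`-th coefficient, as a functional -/
def coeffLin (W : Submodule ℚbar (modularFunctionFieldBar N)) (m : ℤ) : Module.Dual ℚbar W where
  toFun f := ((f : modularFunctionFieldBar N) : LaurentSeries ℚbar).coeff m
  map_add' f g := by simp
  map_smul' c f := by
    show ((c • (f : modularFunctionFieldBar N) : modularFunctionFieldBar N) :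
      LaurentSeries ℚbar).coeff m = _
    rw [Algebra.smul_def, MulMemClass.coe_mul,
      show ((algebraMap ℚbar (modularFunctionFieldBar N) c : modularFunctionFieldBar N) :
        LaurentSeries ℚbar) = algebraMap ℚbar (LaurentSeries ℚbar) c from rfl,
      algebraMap_laurentSeries_eq_single, HahnSeries.coeff_single_zero_mul]
    rfl

/-- **Galois descent for spaces of functions**: a finite dimensional Galois stable space is
spanned by its fixed elements. -/
theorem span_fixed_eq (W : Submodule ℚbar (modularFunctionFieldBar N)) [FiniteDimensional ℚbar W]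
    (hW : ∀ (σ : Γℚ), ∀ f ∈ W, galF σ f ∈ W) :
    Submodule.span ℚbar {f | f ∈ W ∧ ∀ σ : Γℚ, galF σ f = f} = W := by
  classical
  refine le_antisymm (Submodule.span_le.mpr fun f hf => hf.1) ?_
  have hspan : Submodule.span ℚbar (Set.range (coeffLin W)) = ⊤ := by
    by_contra hne
    obtain ⟨φ, hφ0, hφ⟩ := Submodule.exists_dual_map_eq_bot_of_lt_top
      (lt_top_iff_ne_top.mpr hne) inferInstance
    set x : W := (Module.evalEquiv ℚbar W).symm φ with hx
    refine hφ0 ?_
    have hx0 : x = 0 := by
      refine Subtype.ext (Subtype.ext (HahnSeries.ext (funext fun m => ?_)))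
      have hm : φ (coeffLin W m) = 0 := by
        have h1 : φ (coeffLin W m) ∈ (Submodule.span ℚbar (Set.range (coeffLin W))).map φ :=
          Submodule.mem_map_of_mem (Submodule.subset_span ⟨m, rfl⟩)
        rw [hφ] at h1
        exact (Submodule.mem_bot _).mp h1
      rw [← (Module.evalEquiv ℚbar W).apply_symm_apply φ, ← hx] at hm
      exact hm
    rw [← (Module.evalEquiv ℚbar W).apply_symm_apply φ, ← hx, hx0, map_zero]
  obtain ⟨T, hTsub, hTspan, hTli⟩ :=
    exists_linearIndependent ℚbar (Set.range (coeffLin W))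
  let β : Basis T ℚbar (Module.Dual ℚbar W) :=
    Basis.mk hTli (by rw [Subtype.range_coe, hTspan, hspan])
  have : Fintype T := FiniteDimensional.fintypeBasisIndex β
  set w : T → W := fun t => (Module.evalEquiv ℚbar W).symm (β.dualBasis t) with hw
  have hdual : ∀ s t : T, (s : Module.Dual ℚbar W) (w t) = if s = t then 1 else 0 := by
    intro s t
    have h : (s : Module.Dual ℚbar W) (w t) = β.dualBasis t (s : Module.Dual ℚbar W) := by
      rw [hw]
      conv_rhs => rw [← (Module.evalEquiv ℚbar W).apply_symm_apply (β.dualBasis t)]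
      rfl
    rw [h, ← Basis.mk_apply hTli (by rw [Subtype.range_coe, hTspan, hspan]) s,
      Basis.dualBasis_apply_self]
  have hsep : ∀ x y : W, (∀ s : T, (s : Module.Dual ℚbar W) x = (s : Module.Dual ℚbar W) y) →
      x = y := by
    intro x y hxy
    refine (Module.evalEquiv ℚbar W).injective (β.ext fun s => ?_)
    rw [Basis.mk_apply]
    exact hxy s
  have hfix : ∀ (t : T) (σ : Γℚ), galF σ (w t : modularFunctionFieldBar N) = w t := by
    intro t σ
    refine congrArg Subtype.val (hsep ⟨_, hW σ _ (w t).2⟩ (w t) fun s => ?_)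
    obtain ⟨m, hm⟩ := hTsub s.2
    rw [hdual, ← hm]
    show (galF σ (w t : modularFunctionFieldBar N) : LaurentSeries ℚbar).coeff m = _
    rw [coe_galF, coeffMap_coeff]
    have h2 := hdual s t
    rw [← hm] at h2
    rw [show ((w t : modularFunctionFieldBar N) : LaurentSeries ℚbar).coeff m =
      (if s = t then 1 else 0 : ℚbar) from h2]
    split_ifs <;> simp
  intro f hf
  have hrep : (⟨f, hf⟩ : W) = ∑ t : T, (t : Module.Dual ℚbar W) ⟨f, hf⟩ • w t := by
    refine hsep _ _ fun s => ?_
    simp [map_sum, map_smul, hdual]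
  have := congrArg Subtype.val hrep
  simp only [AddSubmonoidClass.coe_finsetSum, SetLike.val_smul] at this
  rw [this]
  exact Submodule.sum_mem _ fun t _ =>
    Submodule.smul_mem _ _ (Submodule.subset_span ⟨(w t).2, hfix t⟩)

variable [NeZero N] {ℓ : ℕ} [Fact ℓ.Prime] {A : ValuationSubring (AlgebraicClosure ℚ)}

theorem exists_pow_mul_mem (hA : A.LiesOverPrime ℓ) (c : ℚbar) :
    ∃ M : ℕ, ((ℓ : ℚbar)) ^ M * c ∈ A := by
  by_cases hc : c ∈ A
  · exact ⟨0, by simpa using hc⟩
  · have hc' : c⁻¹ ∈ A := (A.mem_or_inv_mem c).resolve_left hc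
    have hc0 : c ≠ 0 := fun h => hc (h ▸ A.zero_mem)
    obtain ⟨M, x, hx⟩ := JacArith.exists_dvd_pow hA (a := (⟨c⁻¹, hc'⟩ : A))
      (fun h => inv_ne_zero hc0 (congrArg Subtype.val h))
    refine ⟨M, ?_⟩
    have := congrArg Subtype.val hx
    push_cast at this
    rw [this, mul_comm c⁻¹, mul_assoc, inv_mul_cancel₀ hc0, mul_one]
    exact x.2

theorem eq_zero_of_forall_pow_dvd (hA : A.LiesOverPrime ℓ) {a : A}
    (h : ∀ n : ℕ, (ℓ : A) ^ n ∣ a) : a = 0 := by
  by_contra ha
  obtain ⟨M, hM⟩ := JacArith.exists_dvd_pow hA ha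
  have hnu : ¬ IsUnit (ℓ : A) := by
    rw [← mem_nonunits_iff, ← IsLocalRing.mem_maximalIdeal,
      ← ValuationSubring.coe_mem_nonunits_iff]
    exact_mod_cast hA
  have hℓ0 : (ℓ : A) ≠ 0 := fun h0 =>
    (Nat.cast_ne_zero.mpr (Fact.out : ℓ.Prime).ne_zero) (congrArg Subtype.val h0)
  obtain ⟨r, hr⟩ := (h (M + 1)).trans hM
  rw [pow_succ, mul_assoc] at hr
  exact hnu (IsUnit.of_mul_eq_one _ ((mul_left_cancel₀ (pow_ne_zero M hℓ0)
    ((mul_one _).trans hr)).symm))

variable
  (G : Curve.GoodReduction A (modularFunctionFieldBar N) (IsLocalRing.ResidueField A)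
    (modularFunctionFieldFullC (IsLocalRing.ResidueField A) N))
  (hπ : G.π = IsLocalRing.residue A)
  (hφ : ∀ (y : LaurentSeries A) (hy : coeffMap A.subtype y ∈ modularFunctionFieldBar N),
    ∃ h : (⟨coeffMap A.subtype y, hy⟩ : modularFunctionFieldBar N) ∈ G.V,
      (G.φ ⟨_, h⟩ : LaurentSeries (IsLocalRing.ResidueField A)) =
        coeffMap (IsLocalRing.residue A) y)

include hπ hφ

omit hπ hφ [NeZero N] in
theorem natCast_φ (hA : A.LiesOverPrime ℓ) :
    G.φ ((ℓ : ℕ) : G.V) = 0 := by
  have := charP_residue hA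
  rw [map_natCast, ← map_natCast (algebraMap (IsLocalRing.ResidueField A)
    (modularFunctionFieldFullC (IsLocalRing.ResidueField A) N)), CharP.cast_eq_zero, map_zero]

theorem exists_eq_natCast_mul (hA : A.LiesOverPrime ℓ) {g : G.V}
    (hfix : ∀ σ : Γℚ, galF σ (g : modularFunctionFieldBar N) = g) (h0 : G.φ g = 0) :
    ∃ g' : G.V, (∀ σ : Γℚ, galF σ (g' : modularFunctionFieldBar N) = g') ∧
      (g : modularFunctionFieldBar N) = (ℓ : modularFunctionFieldBar N) * g' := by
  by_cases hg : (g : modularFunctionFieldBar N) = 0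
  · exact ⟨0, fun σ => map_zero _, by simp [hg]⟩
  obtain ⟨z, w, hzw, hw0, hwfix, -⟩ := exists_zpow_mul G hπ hφ hA hg hfix
  have hℓ0 : ((ℓ : ℕ) : modularFunctionFieldBar N) ≠ 0 := by
    rw [← map_natCast (algebraMap ℚbar (modularFunctionFieldBar N)), map_ne_zero]
    exact Nat.cast_ne_zero.mpr (Fact.out : ℓ.Prime).ne_zero
  rcases Int.eq_nat_or_neg z with ⟨n, rfl | rfl⟩
  · cases n with
    | zero =>
        exact absurd h0 (by
          rw [show g = w from Subtype.ext (by simpa using hzw)]; exact hw0)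
    | succ n =>
        refine ⟨(ℓ : G.V) ^ n * w, fun σ => ?_, ?_⟩
        · push_cast
          rw [galF, map_mul, map_pow, map_natCast]
          exact congrArg₂ _ rfl (hwfix σ)
        · rw [hzw, zpow_natCast]; push_cast; ring
  · refine absurd ?_ hw0
    have : w = (ℓ : G.V) ^ n * g := Subtype.ext (by
      push_cast
      rw [hzw, zpow_neg, zpow_natCast, ← mul_assoc, mul_inv_cancel₀ (pow_ne_zero _ hℓ0), one_mul])
    rw [this, map_mul, h0, mul_zero]

theorem coeff_φ_pow (hA : A.LiesOverPrime ℓ) {g : G.V}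
    (hfix : ∀ σ : Γℚ, galF σ (g : modularFunctionFieldBar N) = g) (m : ℤ) :
    ((G.φ g : LaurentSeries (IsLocalRing.ResidueField A)).coeff m) ^ ℓ =
      (G.φ g : LaurentSeries (IsLocalRing.ResidueField A)).coeff m := by
  have hℓ : ℓ.Prime := Fact.out
  by_cases h0 : G.φ g = 0
  · rw [h0]
    simp [hℓ.ne_zero]
  have hg : (g : modularFunctionFieldBar N) ≠ 0 := G.coe_ne_zero_of_φ_ne_zero h0
  obtain ⟨z, w, hzw, hw0, -, hw⟩ := exists_zpow_mul G hπ hφ hA hg hfix
  have hℓ0 : ((ℓ : ℕ) : modularFunctionFieldBar N) ≠ 0 := by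
    rw [← map_natCast (algebraMap ℚbar (modularFunctionFieldBar N)), map_ne_zero]
    exact Nat.cast_ne_zero.mpr hℓ.ne_zero
  rcases Int.eq_nat_or_neg z with ⟨n, rfl | rfl⟩
  · cases n with
    | zero => rw [show g = w from Subtype.ext (by simpa using hzw)]; exact hw m
    | succ n =>
        refine absurd ?_ h0
        rw [show g = (ℓ : G.V) ^ (n + 1) * w from Subtype.ext (by
          push_cast; rw [hzw, zpow_natCast]), map_mul, map_pow, natCast_φ G hA,
          zero_pow (Nat.succ_ne_zero n), zero_mul]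
  · cases n with
    | zero => rw [show g = w from Subtype.ext (by simpa using hzw)]; exact hw m
    | succ n =>
        refine absurd ?_ hw0
        rw [show w = (ℓ : G.V) ^ (n + 1) * g from Subtype.ext (by
          push_cast
          rw [hzw, zpow_neg, zpow_natCast, ← mul_assoc, mul_inv_cancel₀ (pow_ne_zero _ hℓ0),
            one_mul]), map_mul, map_pow, natCast_φ G hA, zero_pow (Nat.succ_ne_zero n), zero_mul]

omit hπ hφ [NeZero N] in
theorem exists_intCast_of_pow_eq (hA : A.LiesOverPrime ℓ) {c : IsLocalRing.ResidueField A}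
    (hc : c ^ ℓ = c) : ∃ n : ℤ, (n : IsLocalRing.ResidueField A) = c := by
  classical
  have hℓ : ℓ.Prime := Fact.out
  have := charP_residue hA
  set P : Polynomial (IsLocalRing.ResidueField A) := Polynomial.X ^ ℓ - Polynomial.X with hP
  have hPd : P.natDegree = ℓ := FiniteField.X_pow_card_sub_X_natDegree_eq _ hℓ.one_lt
  have hP0 : P ≠ 0 := fun h => hℓ.ne_zero (by rw [← hPd, h, Polynomial.natDegree_zero])
  by_contra hne
  push Not at hne
  set S : Finset (IsLocalRing.ResidueField A) :=
    insert c (Finset.univ.image fun a : ZMod ℓ => ZMod.castHom (dvd_refl ℓ) _ a) with hS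
  have hcard : S.card = ℓ + 1 := by
    rw [hS, Finset.card_insert_of_notMem, Finset.card_image_of_injective _
      (ZMod.castHom_injective _), Finset.card_univ, ZMod.card]
    intro h
    obtain ⟨a, -, ha⟩ := Finset.mem_image.mp h
    exact hne (a.val : ℤ) (by rw [← ha, ZMod.castHom_apply, ZMod.cast_eq_val]; simp)
  have hroot : ∀ x ∈ S, x ∈ P.roots.toFinset := by
    intro x hx
    rw [Multiset.mem_toFinset, Polynomial.mem_roots hP0, Polynomial.IsRoot.def, hP]
    simp only [Polynomial.eval_sub, Polynomial.eval_pow, Polynomial.eval_X, sub_eq_zero]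
    rcases Finset.mem_insert.mp hx with rfl | hx
    · exact hc
    · obtain ⟨a, -, rfl⟩ := Finset.mem_image.mp hx
      rw [← map_pow, ZMod.pow_card]
  have := (Finset.card_le_card hroot).trans ((Multiset.toFinset_card_le _).trans
    (Polynomial.card_roots' P))
  omega

/-- **Rational divisors of large degree have lattices with rational bases.** -/
theorem exists_fixed_lat (hA : A.LiesOverPrime ℓ) [IsAlgClosed (IsLocalRing.ResidueField A)]
    (R : Divisor ℚbar (modularFunctionFieldBar N))
    (hR : ∀ σ : Γℚ, arithmeticGalois (modularFunctionFieldFull N) σ • R = R)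
    (hdeg : 2 * (genusFF ℚbar (modularFunctionFieldBar N) : ℤ) - 1 ≤ Divisor.degree R) :
    ∃ (ι : Type) (_ : Fintype ι) (Λ : Lat G R ι),
      ∀ (σ : Γℚ) (i : ι), galF σ (Λ.e i : modularFunctionFieldBar N) =
        (Λ.e i : modularFunctionFieldBar N) := by
  classical
  have rr := JacSetting.rrFormula ℚbar (modularFunctionFieldBar N)
  have rrb := JacSetting.rrFormula_special G
  obtain ⟨Λ'⟩ := exists_lat G rr rrb R hdeg
  have := rr.finite R
  have := rrb.finite (G.divMap R)
  set n := finrank ℚbar ↥(L R) with hn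
  have hdim : finrank (IsLocalRing.ResidueField A) ↥(L (G.divMap R)) = n := by
    rw [← Λ'.spanb, finrank_span_eq_card Λ'.indep, Fintype.card_fin]
  have hWst : ∀ (σ : Γℚ), ∀ f ∈ L R, galF σ f ∈ L R := fun σ f hf => by
    have h := JacSetting.toRingAut_mem_L (arithmeticGalois (modularFunctionFieldFull N) σ) hf
    rwa [hR σ] at h
  set Φ : Set G.V := {g | (g : modularFunctionFieldBar N) ∈ L R ∧
    ∀ σ : Γℚ, galF σ (g : modularFunctionFieldBar N) = g} with hΦ
  obtain ⟨T, hTsub, hTspan, hTli⟩ :=
    exists_linearIndependent (IsLocalRing.ResidueField A) (G.φ '' Φ)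
  have hTfin : T.Finite := by
    have hmem : ∀ t : T, (t : modularFunctionFieldFullC (IsLocalRing.ResidueField A) N) ∈
        L (G.divMap R) := fun t => by
      obtain ⟨g, hg, hgt⟩ := hTsub t.2
      rw [← hgt]; exact G.φ_mem_riemannRochSpace g hg.1
    let f : T → ↥(L (G.divMap R)) := fun t => ⟨_, hmem t⟩
    have hf : LinearIndependent (IsLocalRing.ResidueField A) f :=
      LinearIndependent.of_comp (L (G.divMap R)).subtype hTli
    exact Set.finite_coe_iff.mp hf.finite
  have := hTfin.fintype
  have hch : ∀ t : T, ∃ g ∈ Φ, G.φ g = t := fun t => hTsub t.2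
  choose e heΦ het using hch
  have hli : LinearIndependent (IsLocalRing.ResidueField A) fun t : T => G.φ (e t) := by
    simp only [het]; exact hTli
  -- one step of the descent
  have hstep : ∀ g ∈ Φ, ∃ a : T → ℤ, ∃ g' ∈ Φ,
      (g : modularFunctionFieldBar N) =
        (∑ t, (a t : modularFunctionFieldBar N) * (e t : modularFunctionFieldBar N)) +
          (ℓ : modularFunctionFieldBar N) * g' := by
    intro g hg
    have h1 : G.φ g ∈ Submodule.span (IsLocalRing.ResidueField A)
        (Set.range fun t : T => G.φ (e t)) := by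
      rw [show (fun t : T => G.φ (e t)) = Subtype.val from funext het, Subtype.range_coe, hTspan]
      exact Submodule.subset_span ⟨g, hg, rfl⟩
    obtain ⟨c, hc⟩ := (Submodule.mem_span_range_iff_exists_fun _).mp h1
    have hpr : ∀ t, ∃ z : ℤ, (z : IsLocalRing.ResidueField A) = c t := by
      intro t
      refine exists_intCast_of_pow_eq hA ?_
      have := charP_residue hA
      refine sub_eq_zero.mp (Fintype.linearIndependent_iff.mp hli (fun t => c t ^ ℓ - c t) ?_ t)
      simp only [sub_smul, Finset.sum_sub_distrib, sub_eq_zero]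
      apply Subtype.ext
      ext m
      have h := congrArg (fun z : modularFunctionFieldFullC (IsLocalRing.ResidueField A) N =>
        (z : LaurentSeries (IsLocalRing.ResidueField A)).coeff m) hc
      simp only [AddSubmonoidClass.coe_finsetSum, HahnSeries.coeff_sum, Algebra.smul_def,
        MulMemClass.coe_mul] at h ⊢
      have hco : ∀ (r : IsLocalRing.ResidueField A)
          (y : modularFunctionFieldFullC (IsLocalRing.ResidueField A) N),
          (((algebraMap (IsLocalRing.ResidueField A)
            (modularFunctionFieldFullC (IsLocalRing.ResidueField A) N) r :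
              modularFunctionFieldFullC (IsLocalRing.ResidueField A) N) :
              LaurentSeries (IsLocalRing.ResidueField A)) * y).coeff m =
            r * (y : LaurentSeries (IsLocalRing.ResidueField A)).coeff m := fun r y => by
        rw [show ((algebraMap (IsLocalRing.ResidueField A)
            (modularFunctionFieldFullC (IsLocalRing.ResidueField A) N) r :
              modularFunctionFieldFullC (IsLocalRing.ResidueField A) N) :
              LaurentSeries (IsLocalRing.ResidueField A)) = algebraMap _ _ r from rfl,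
          algebraMap_laurentSeries_eq_single, HahnSeries.coeff_single_zero_mul]
      simp only [hco] at h ⊢
      calc _ = ∑ t, frobenius _ ℓ
            (c t * (G.φ (e t) : LaurentSeries (IsLocalRing.ResidueField A)).coeff m) := by
            refine Finset.sum_congr rfl fun t _ => ?_
            rw [frobenius_def, mul_pow, coeff_φ_pow G hπ hφ hA (heΦ t).2]
        _ = ((G.φ g : LaurentSeries (IsLocalRing.ResidueField A)).coeff m) ^ ℓ := by
            rw [← map_sum, h, frobenius_def]
        _ = _ := by rw [coeff_φ_pow G hπ hφ hA hg.2, h]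
    choose a ha using hpr
    set d : G.V := g - ∑ t, (a t : G.V) * e t with hd
    have hd0 : G.φ d = 0 := by
      rw [hd, map_sub, map_sum, ← hc, sub_eq_zero]
      refine Finset.sum_congr rfl fun t _ => ?_
      rw [map_mul, map_intCast, ← ha t, Algebra.smul_def, map_intCast]
    have hdcoe : (d : modularFunctionFieldBar N) = (g : modularFunctionFieldBar N) -
        ∑ t, (a t : modularFunctionFieldBar N) * (e t : modularFunctionFieldBar N) := by
      rw [hd]; push_cast; rfl
    have hdfix : ∀ σ : Γℚ, galF σ (d : modularFunctionFieldBar N) = d := by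
      intro σ
      rw [hdcoe, galF, map_sub, map_sum]
      refine congrArg₂ _ (hg.2 σ) (Finset.sum_congr rfl fun t _ => ?_)
      rw [map_mul, map_intCast]
      exact congrArg₂ _ rfl ((heΦ t).2 σ)
    obtain ⟨g', hg'fix, hg'⟩ := exists_eq_natCast_mul G hπ hφ hA hdfix hd0
    refine ⟨a, g', ⟨?_, hg'fix⟩, by rw [← hg', hdcoe, add_sub_cancel]⟩
    have hmem : (d : modularFunctionFieldBar N) ∈ L R := by
      rw [hdcoe]
      refine sub_mem hg.1 (sum_mem fun t _ => ?_)
      rw [← map_intCast (algebraMap ℚbar (modularFunctionFieldBar N)), ← Algebra.smul_def]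
      exact (L R).smul_mem _ (heΦ t).1
    have hℓ0 : (ℓ : ℚbar) ≠ 0 := Nat.cast_ne_zero.mpr (Fact.out : ℓ.Prime).ne_zero
    have h2 := (L R).smul_mem ((ℓ : ℚbar))⁻¹ hmem
    rwa [hg', Algebra.smul_def, ← map_natCast (algebraMap ℚbar (modularFunctionFieldBar N)),
      ← mul_assoc, ← map_mul, inv_mul_cancel₀ hℓ0, map_one, one_mul] at h2
  have hiter : ∀ g ∈ Φ, ∀ j : ℕ, ∃ a : T → ℤ, ∃ g' ∈ Φ,
      (g : modularFunctionFieldBar N) =
        (∑ t, (a t : modularFunctionFieldBar N) * (e t : modularFunctionFieldBar N)) +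
          (ℓ : modularFunctionFieldBar N) ^ j * g' := by
    intro g hg j
    induction j with
    | zero => exact ⟨0, g, hg, by simp⟩
    | succ j ih =>
      obtain ⟨a, g', hg', h⟩ := ih
      obtain ⟨b, g'', hg'', h'⟩ := hstep g' hg'
      refine ⟨fun t => a t + ℓ ^ j * b t, g'', hg'', ?_⟩
      rw [h, h']
      simp only [Int.cast_add, Int.cast_mul, Int.cast_pow, Int.cast_natCast, add_mul,
        Finset.sum_add_distrib, mul_assoc, ← Finset.mul_sum]
      ring
  -- the chosen functions span `L R`
  set U := Submodule.span ℚbar (Set.range fun t : T => (e t : modularFunctionFieldBar N)) with hU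
  have hUle : U ≤ L R := Submodule.span_le.mpr (by
    rintro _ ⟨t, rfl⟩; exact (heΦ t).1)
  have hUeq : U = L R := by
    refine le_antisymm hUle ?_
    rw [← span_fixed_eq (L R) hWst, Submodule.span_le]
    rintro f ⟨hfR, hffix⟩
    by_cases hf0 : f = 0
    · rw [hf0]; exact U.zero_mem
    by_contra hfU
    obtain ⟨z, g, hzg, -, hgfix, -⟩ := exists_zpow_mul G hπ hφ hA hf0 hffix
    have hℓF : ((ℓ : ℕ) : modularFunctionFieldBar N) =
        algebraMap ℚbar (modularFunctionFieldBar N) (ℓ : ℚbar) := (map_natCast _ _).symm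
    have hsm : f = ((ℓ : ℚbar) ^ z) • (g : modularFunctionFieldBar N) := by
      rw [Algebra.smul_def, map_zpow₀, ← hℓF]; exact hzg
    have hz0 : (ℓ : ℚbar) ^ z ≠ 0 :=
      zpow_ne_zero _ (Nat.cast_ne_zero.mpr (Fact.out : ℓ.Prime).ne_zero)
    have hgR : (g : modularFunctionFieldBar N) ∈ L R := by
      have h2 := (L R).smul_mem ((ℓ : ℚbar) ^ z)⁻¹ hfR
      rwa [hsm, smul_smul, inv_mul_cancel₀ hz0, one_smul] at h2
    have hgU : (g : modularFunctionFieldBar N) ∉ U := fun h => hfU (hsm ▸ U.smul_mem _ h)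
    obtain ⟨ψ, hψg, hψU⟩ := Submodule.exists_dual_map_eq_bot_of_notMem hgU inferInstance
    have hψ : ∀ u ∈ U, ψ u = 0 := fun u hu => by
      have h1 : ψ u ∈ U.map ψ := Submodule.mem_map_of_mem hu
      rw [hψU] at h1
      exact (Submodule.mem_bot _).mp h1
    choose M hM using fun i => exists_pow_mul_mem (ℓ := ℓ) hA (ψ (Λ'.e i : modularFunctionFieldBar N))
    set M₀ := Finset.univ.sup M with hM₀
    have hint : ∀ h ∈ Φ, (ℓ : ℚbar) ^ M₀ * ψ (h : modularFunctionFieldBar N) ∈ A := by
      intro h hh
      obtain ⟨c, hc⟩ := Λ'.gen h hh.1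
      rw [hc, map_sum, Finset.mul_sum]
      refine sum_mem fun i _ => ?_
      rw [map_smul, smul_eq_mul,
        ← Nat.sub_add_cancel (show M i ≤ M₀ from Finset.le_sup (f := M) (Finset.mem_univ i)),
        pow_add]
      have : (ℓ : ℚbar) ^ (M₀ - M i) * (ℓ : ℚbar) ^ M i * ((c i : ℚbar) *
          ψ (Λ'.e i : modularFunctionFieldBar N)) = (c i : ℚbar) * ((ℓ : ℚbar) ^ (M₀ - M i) *
            ((ℓ : ℚbar) ^ M i * ψ (Λ'.e i : modularFunctionFieldBar N))) := by ring
      rw [this]
      exact A.mul_mem _ _ (c i).2 (A.mul_mem _ _ (pow_mem (natCast_mem A ℓ) _) (hM i))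
    have hz : (⟨_, hint g ⟨hgR, hgfix⟩⟩ : A) = 0 := by
      refine eq_zero_of_forall_pow_dvd hA fun j => ?_
      obtain ⟨a, g', hg', h⟩ := hiter g ⟨hgR, hgfix⟩ j
      refine ⟨⟨_, hint g' hg'⟩, Subtype.ext ?_⟩
      push_cast
      rw [h, map_add, map_sum, Finset.sum_eq_zero fun t _ => ?_, zero_add,
        ← map_natCast (algebraMap ℚbar (modularFunctionFieldBar N)), ← map_pow,
        ← Algebra.smul_def, map_smul, smul_eq_mul]
      · ring
      · rw [← map_intCast (algebraMap ℚbar (modularFunctionFieldBar N)), ← Algebra.smul_def,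
          map_smul, hψ _ (Submodule.subset_span ⟨t, rfl⟩), smul_zero]
    exact hψg ((mul_eq_zero.mp (congrArg Subtype.val hz)).resolve_left
      (pow_ne_zero _ (Nat.cast_ne_zero.mpr (Fact.out : ℓ.Prime).ne_zero)))
  have hcard : n ≤ Fintype.card T := by
    rw [hn, ← hUeq]
    exact finrank_range_le_card _
  refine ⟨T, inferInstance, ⟨e, fun t => (heΦ t).1, fun f hf => ?_, hli, ?_⟩,
    fun σ t => (heΦ t).2 σ⟩
  · rw [← hUeq] at hf
    obtain ⟨c, hc⟩ := (Submodule.mem_span_range_iff_exists_fun _).mp hf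
    have hmem := G.coeff_mem_of_sum_mem hli Finset.univ c (by rw [hc]; exact f.2)
    exact ⟨fun t => ⟨c t, hmem t (Finset.mem_univ t)⟩, hc.symm⟩
  · refine Submodule.eq_of_le_of_finrank_le (Submodule.span_le.mpr ?_) ?_
    · rintro _ ⟨t, rfl⟩; exact G.φ_mem_riemannRochSpace (e t) (heΦ t).1
    · rw [hdim, finrank_span_eq_card hli]; exact hcard

end Fermat.Agent.FlatModel.BModular
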