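/-
The Galois-equivariant good reduction of `X₀(N)` at a prime `ℓ ∤ N`, as a `JacSetting.Setting`.
-/
import Fermat.Agent.Flat.BModularLattice
import Fermat.Agent.Igusa.JacobianGood
import Fermat.Agent.ES.SpecialGalois
import Fermat.Agent.Torsion.Main

set_option autoImplicit false

noncomputable section

namespace Fermat.Agent.FlatModel.BModular

open AlgebraicCurve ModularCurve Fermat.Agent.Curve Fermat.Agent.Igusa

local notation "ℚbar" => AlgebraicClosure ℚ
local notation "Γℚ" => AlgebraicClosure ℚ ≃ₐ[ℚ] AlgebraicClosure ℚ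

variable {N : ℕ} [NeZero N] {ℓ : ℕ} [Fact ℓ.Prime] {A : ValuationSubring (AlgebraicClosure ℚ)}

theorem galF_jBar (σ : Γℚ) : galF σ (jBar N) = jBar N :=
  Subtype.ext (by rw [coe_galF, coe_jBar', coeffMap_jqModC])

theorem transcendental_jBar : Transcendental ℚbar (jBar N) := fun h =>
  transcendental_jqModC' ℚbar (by
    have := h.algHom (modularFunctionFieldBar N).val
    rwa [IntermediateField.coe_val, coe_jBar'] at this)

theorem smul_poleDivisor_jBar (σ : Γℚ) :
    arithmeticGalois (modularFunctionFieldFull N) σ • poleDivisor ℚbar (jBar N) =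
      poleDivisor ℚbar (jBar N) := by
  ext P
  rw [SemilinearAut.divisor_smul_apply, poleDivisor_apply, poleDivisor_apply]
  congr 2
  have h := SemilinearAut.ord_smul (arithmeticGalois (modularFunctionFieldFull N) σ)
    ((arithmeticGalois (modularFunctionFieldFull N) σ)⁻¹ • P) (jBar N)
  rw [smul_inv_smul, SemilinearAut.smul_def] at h
  rw [← h]
  exact congrArg P.ord (galF_jBar σ)

theorem degree_poleDivisor_jBar_pos :
    0 < Divisor.degree (poleDivisor ℚbar (jBar N)) := by
  rw [degree_poleDivisor transcendental_jBar]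
  exact_mod_cast (Module.finrank_pos (R := JField N) (M := modularFunctionFieldBar N))

/-- **The decomposition group acts on the good reduction of `X₀(N)` through the coefficients.** -/
theorem galois_reduction (hℓN : ¬ ℓ ∣ N) (hA : A.LiesOverPrime ℓ) {σ : Γℚ}
    (hσ : σ ∈ A.decompositionSubgroup ℚ) (f : (x0GoodReduction hℓN hA).V) :
    ∃ h : galF σ (f : modularFunctionFieldBar N) ∈ (x0GoodReduction hℓN hA).V,
      (x0GoodReduction hℓN hA).φ ⟨_, h⟩ =
        SemilinearAut.toRingAut (ES.coeffAut N (ES.residueAut A hσ))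
          ((x0GoodReduction hℓN hA).φ f) := by
  have hk : ∀ y : LaurentSeries A,
      coeffMap (IsLocalRing.residue A) (coeffMap (ES.decompRingHom A hσ) y) =
        coeffMap ((ES.residueAut A hσ : IsLocalRing.ResidueField A ≃+* _) :
          IsLocalRing.ResidueField A →+* IsLocalRing.ResidueField A)
          (coeffMap (IsLocalRing.residue A) y) := fun y =>
    HahnSeries.ext (funext fun n => rfl)
  have hK : ∀ y : LaurentSeries A,
      coeffMap A.subtype (coeffMap (ES.decompRingHom A hσ) y) =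
        coeffMap (σ : ℚbar →+* ℚbar) (coeffMap A.subtype y) := fun y =>
    HahnSeries.ext (funext fun n => rfl)
  obtain ⟨u, v, hv, huv, huF, hvF⟩ := x0GoodReduction_exists_quotient hℓN hA f
  obtain ⟨hU, hUφ⟩ := x0GoodReduction_φ_coeffMap hℓN hA u huF
  obtain ⟨hV, hVφ⟩ := x0GoodReduction_φ_coeffMap hℓN hA v hvF
  have huF' : coeffMap A.subtype (coeffMap (ES.decompRingHom A hσ) u) ∈
      modularFunctionFieldBar N := by
    rw [hK]; exact coeffMap_mem_laurentBaseChange σ huF
  have hvF' : coeffMap A.subtype (coeffMap (ES.decompRingHom A hσ) v) ∈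
      modularFunctionFieldBar N := by
    rw [hK]; exact coeffMap_mem_laurentBaseChange σ hvF
  obtain ⟨hU', hU'φ⟩ := x0GoodReduction_φ_coeffMap hℓN hA _ huF'
  obtain ⟨hV', hV'φ⟩ := x0GoodReduction_φ_coeffMap hℓN hA _ hvF'
  have hv' : coeffMap (IsLocalRing.residue A) (coeffMap (ES.decompRingHom A hσ) v) ≠ 0 := by
    rw [hk]
    intro h0
    refine hv (HahnSeries.ext (funext fun n => ?_))
    have := congrArg (fun z => HahnSeries.coeff z n) h0
    simpa using this
  have hV'0 : (x0GoodReduction hℓN hA).φ ⟨_, hV'⟩ ≠ 0 := fun h => hv' (by rw [← hV'φ, h]; rfl)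
  have hkey : galF σ (f : modularFunctionFieldBar N) *
      ⟨coeffMap A.subtype (coeffMap (ES.decompRingHom A hσ) v), hvF'⟩ =
      ⟨coeffMap A.subtype (coeffMap (ES.decompRingHom A hσ) u), huF'⟩ := by
    apply Subtype.ext
    push_cast
    rw [coe_galF, hK, hK, ← map_mul, huv]
  have hVne : (⟨coeffMap A.subtype (coeffMap (ES.decompRingHom A hσ) v), hvF'⟩ :
      modularFunctionFieldBar N) ≠ 0 := (x0GoodReduction hℓN hA).coe_ne_zero_of_φ_ne_zero (f := ⟨_, hV'⟩) hV'0
  have hmem : galF σ (f : modularFunctionFieldBar N) ∈ (x0GoodReduction hℓN hA).V := by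
    rw [eq_div_of_mul_eq hVne hkey, div_eq_mul_inv]
    exact mul_mem hU' ((x0GoodReduction hℓN hA).inv_mem_of_φ_ne_zero (f := ⟨_, hV'⟩) hV'0)
  refine ⟨hmem, ?_⟩
  have h1 : (x0GoodReduction hℓN hA).φ ⟨_, hmem⟩ * (x0GoodReduction hℓN hA).φ ⟨_, hV'⟩ = (x0GoodReduction hℓN hA).φ ⟨_, hU'⟩ := by
    rw [← map_mul]; exact congrArg (x0GoodReduction hℓN hA).φ (Subtype.ext hkey)
  have h2 : (x0GoodReduction hℓN hA).φ f * (x0GoodReduction hℓN hA).φ ⟨_, hV⟩ = (x0GoodReduction hℓN hA).φ ⟨_, hU⟩ := by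
    rw [← map_mul]; exact congrArg (x0GoodReduction hℓN hA).φ (Subtype.ext (Subtype.ext huv))
  have h3 : SemilinearAut.toRingAut (ES.coeffAut N (ES.residueAut A hσ)) ((x0GoodReduction hℓN hA).φ ⟨_, hV⟩) =
      (x0GoodReduction hℓN hA).φ ⟨_, hV'⟩ := Subtype.ext (by rw [hV'φ, hk, ← hVφ]; rfl)
  have h4 : SemilinearAut.toRingAut (ES.coeffAut N (ES.residueAut A hσ)) ((x0GoodReduction hℓN hA).φ ⟨_, hU⟩) =
      (x0GoodReduction hℓN hA).φ ⟨_, hU'⟩ := Subtype.ext (by rw [hU'φ, hk, ← hUφ]; rfl)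
  rw [← h2, map_mul, h3, ← h1] at h4
  exact (mul_right_cancel₀ hV'0 h4).symm

/-- **The setting for the finite flat models of `J₀(N)[ℓᵏ]`.** -/
theorem exists_setting (hℓN : ¬ ℓ ∣ N) :
    ∃ 𝔖 : JacSetting.Setting ℓ (modularFunctionFieldBar N),
      𝔖.gal = arithmeticGalois (modularFunctionFieldFull N) := by
  obtain ⟨A, hA⟩ := Galois.exists_liesOverPrime (Fact.out : ℓ.Prime)
  have hclosed := (x0GoodReduction (N := N) hℓN hA).isAlgClosed_residue
  refine ⟨{
    A := A
    «over» := hA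
    Fb := modularFunctionFieldFullC (IsLocalRing.ResidueField A) N
    G := x0GoodReduction hℓN hA
    π_eq := x0GoodReduction_π hℓN hA
    gal := arithmeticGalois (modularFunctionFieldFull N)
    baseAut_gal := fun σ a => rfl
    decomp := fun σ hσ => ⟨_, galois_reduction hℓN hA hσ⟩
    inertia := fun σ hσ f => ?_
    R₀ := poleDivisor ℚbar (jBar N)
    R₀_fixed := smul_poleDivisor_jBar
    R₀_degree := degree_poleDivisor_jBar_pos
    exists_fixed_lat := fun R hR hdeg => exists_fixed_lat (x0GoodReduction hℓN hA)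
      (x0GoodReduction_π hℓN hA) (x0GoodReduction_φ_coeffMap hℓN hA) hA R hR hdeg }, rfl⟩
  obtain ⟨hσD, hone⟩ := ES.residueAut_eq_one_of_mem_inertia A hσ
  obtain ⟨h, he⟩ := galois_reduction hℓN hA hσD f
  refine ⟨h, he.trans ?_⟩
  rw [hone, ES.coeffAut_one, SemilinearAut.toRingAut_one]
  rfl

/-- the torsion is finite -/
theorem finite_torsionBy (N : ℕ) [NeZero N] (n : ℕ) [NeZero n] :
    Finite ↥(Submodule.torsionBy ℤ (JZero N) (n : ℤ)) :=
  Torsion.finite_jTorsion N n

theorem finite_torsionBy_pow (N : ℕ) [NeZero N] (ℓ : ℕ) [Fact ℓ.Prime] (k : ℕ) :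
    Finite ↥(Submodule.torsionBy ℤ (JZero N) ((ℓ : ℤ) ^ k)) := by
  have : NeZero (ℓ ^ k) := ⟨pow_ne_zero _ (Fact.out : ℓ.Prime).ne_zero⟩
  rw [← Nat.cast_pow]
  exact finite_torsionBy N (ℓ ^ k)

end Fermat.Agent.FlatModel.BModular
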