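/-
Inertia-fixed points lifting given points of the special fibre, and a base divisor of degree `g`
whose translates by finitely many classes have one dimensional spaces of functions in the special
fibre.
-/
import Fermat.Agent.Flat.JacobianSetting
import Mathlib.FieldTheory.Finite.Basic
import Mathlib.RingTheory.RootsOfUnity.AlgebraicallyClosed
import Mathlib.RingTheory.Polynomial.Cyclotomic.Basic

set_option autoImplicit false

open scoped Pointwise

namespace Fermat.Agent.FlatModel.JacBase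

open AlgebraicCurve Fermat.Agent.Curve Fermat.Agent.Curve.GoodReduction Module
  JacSpaces JacLattice JacSetting

local notation "L" => riemannRochSpace
local notation "ℚbar" => AlgebraicClosure ℚ
local notation "Γℚ" => AlgebraicClosure ℚ ≃ₐ[ℚ] AlgebraicClosure ℚ

variable {ℓ : ℕ} [Fact ℓ.Prime]

theorem residue_eq_of_mem_inertia {A : ValuationSubring ℚbar} {σ : Γℚ}
    (hσ : σ ∈ A.inertiaSubgroupIn ℚ) (z : A) :
    ∃ h : σ (z : ℚbar) ∈ A, IsLocalRing.residue A ⟨_, h⟩ = IsLocalRing.residue A z := by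
  obtain ⟨τ, hτ, rfl⟩ := hσ
  refine ⟨(τ • z : A).2, ?_⟩
  rw [ValuationSubring.inertiaSubgroup, SetLike.mem_coe, MonoidHom.mem_ker] at hτ
  have h := DFunLike.congr_fun hτ (IsLocalRing.residue A z)
  change τ • IsLocalRing.residue A z = IsLocalRing.residue A z at h
  rw [← IsLocalRing.ResidueField.residue_smul] at h
  exact h

/-- Teichmüller representatives fixed by the inertia group -/
theorem exists_lift_fixed {A : ValuationSubring ℚbar} (hA : A.LiesOverPrime ℓ)
    (a : IsLocalRing.ResidueField A) :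
    ∃ z : A, IsLocalRing.residue A z = a ∧
      ∀ σ ∈ A.inertiaSubgroupIn ℚ, σ (z : ℚbar) = (z : ℚbar) := by
  classical
  rcases eq_or_ne a 0 with rfl | ha
  · exact ⟨0, map_zero _, fun σ _ => map_zero σ⟩
  have hℓk : ((ℓ : ℕ) : IsLocalRing.ResidueField A) = 0 := by
    rw [← map_natCast (IsLocalRing.residue A), IsLocalRing.residue_eq_zero_iff]
    exact JacArith.natCast_prime_mem_maximalIdeal hA
  have : CharP (IsLocalRing.ResidueField A) ℓ :=
    (CharP.charP_iff_prime_eq_zero (Fact.out : ℓ.Prime)).mpr hℓk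
  let _ : Algebra (ZMod ℓ) (IsLocalRing.ResidueField A) :=
    (ZMod.castHom dvd_rfl (IsLocalRing.ResidueField A)).toAlgebra
  have halg : IsAlgebraic (ZMod ℓ) a := by
    obtain ⟨z, rfl⟩ := IsLocalRing.residue_surjective a
    obtain ⟨f, hf, hfz⟩ := JacArith.exists_intPoly (z : ℚbar)
    refine ⟨f.map (Int.castRingHom (ZMod ℓ)), fun h0 => ?_, ?_⟩
    · have hdvd : Polynomial.C (ℓ : ℤ) ∣ f := by
        rw [Polynomial.C_dvd_iff_dvd_coeff]
        intro i
        have := congrArg (fun p : Polynomial (ZMod ℓ) => p.coeff i) h0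
        simpa [ZMod.intCast_zmod_eq_zero_iff_dvd] using this
      have := hf _ hdvd
      rw [Int.isUnit_iff_natAbs_eq, Int.natAbs_natCast] at this
      exact (Fact.out : ℓ.Prime).ne_one this
    · have hz : Polynomial.aeval z f = 0 := by
        apply Subtype.ext
        rw [ZeroMemClass.coe_zero, ← hfz]
        exact (Polynomial.aeval_algHom_apply (A.subtype.toIntAlgHom) z f).symm
      have h2 := Polynomial.aeval_algHom_apply (IsLocalRing.residue A).toIntAlgHom z f
      rw [hz, map_zero] at h2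
      rw [Polynomial.aeval_def, Polynomial.eval₂_map, ← h2, Polynomial.aeval_def]
      congr 1
      exact Subsingleton.elim _ _
  -- `a` has finite order prime to `ℓ`
  obtain ⟨n, hn0, hnℓ, han⟩ : ∃ n : ℕ, 0 < n ∧ ¬ ℓ ∣ n ∧ a ^ n = 1 := by
    have hfd : FiniteDimensional (ZMod ℓ) (IntermediateField.adjoin (ZMod ℓ) {a}) :=
      IntermediateField.adjoin.finiteDimensional halg.isIntegral
    have : Finite (IntermediateField.adjoin (ZMod ℓ) {a}) := Module.finite_of_finite (ZMod ℓ)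
    have : Fintype (IntermediateField.adjoin (ZMod ℓ) {a}) := Fintype.ofFinite _
    set a' : IntermediateField.adjoin (ZMod ℓ) {a} :=
      ⟨a, IntermediateField.mem_adjoin_simple_self _ a⟩
    obtain ⟨m, -, hm⟩ := FiniteField.card' (IntermediateField.adjoin (ZMod ℓ) {a})
    set q := Fintype.card (IntermediateField.adjoin (ZMod ℓ) {a})
    have hq1 : 1 < q := Fintype.one_lt_card
    refine ⟨q - 1, by omega, fun hdvd => ?_, ?_⟩
    · have hqℓ : ℓ ∣ q := by
        have hq0 : ((q : ℕ) : IntermediateField.adjoin (ZMod ℓ) {a}) = 0 :=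
          Nat.cast_card_eq_zero _
        have := congrArg Subtype.val hq0
        push_cast at this
        exact (CharP.cast_eq_zero_iff (IsLocalRing.ResidueField A) ℓ q).1 this
      have h1 : ℓ ∣ 1 := by
        have := Nat.dvd_sub hqℓ hdvd
        rwa [Nat.sub_sub_self hq1.le] at this
      exact (Fact.out : ℓ.Prime).one_lt.ne' (Nat.dvd_one.1 h1)
    · have := FiniteField.pow_card_sub_one_eq_one a' (fun h => ha (congrArg Subtype.val h))
      exact congrArg Subtype.val this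
  have : NeZero n := ⟨hn0.ne'⟩
  have hnk : ((n : ℕ) : IsLocalRing.ResidueField A) ≠ 0 := fun h =>
    hnℓ ((CharP.cast_eq_zero_iff _ ℓ n).1 h)
  obtain ⟨ζ, hζ⟩ := HasEnoughRootsOfUnity.exists_primitiveRoot ℚbar n
  have hζA : ζ ∈ A := Galois.mem_valuationSubring_of_isIntegral A (hζ.isIntegral hn0)
  set ζA : A := ⟨ζ, hζA⟩
  have hζA' : IsPrimitiveRoot ζA n := (IsPrimitiveRoot.map_iff_of_injective
    (f := A.subtype) Subtype.coe_injective).1 hζ
  have hmap := congrArg (Polynomial.map (IsLocalRing.residue A))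
    (Polynomial.X_pow_sub_one_eq_prod hn0 hζA')
  have hev := congrArg (Polynomial.eval a) hmap
  simp only [Polynomial.map_sub, Polynomial.map_pow, Polynomial.map_X, Polynomial.map_one,
    Polynomial.map_prod, Polynomial.map_C, Polynomial.eval_sub, Polynomial.eval_pow,
    Polynomial.eval_X, Polynomial.eval_one, Polynomial.eval_prod, Polynomial.eval_C, han, sub_self]
    at hev
  obtain ⟨z, hz, hza⟩ := Finset.prod_eq_zero_iff.1 hev.symm
  rw [Polynomial.mem_nthRootsFinset hn0] at hz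
  refine ⟨z, (sub_eq_zero.1 hza).symm, fun σ hσ => ?_⟩
  obtain ⟨hσz, hres⟩ := residue_eq_of_mem_inertia hσ z
  set w : A := ⟨σ (z : ℚbar), hσz⟩
  have hw : w ^ n = 1 := by
    apply Subtype.ext
    have := congrArg (fun y : A => σ (y : ℚbar)) hz
    simpa [w] using this
  have hfac := geom_sum₂_mul w z n
  rw [hw, hz, sub_self, mul_eq_zero] at hfac
  rcases hfac with h | h
  · exfalso
    have h2 := congrArg (IsLocalRing.residue A) h
    simp only [map_sum, map_mul, map_pow, map_zero, hres, ← pow_add] at h2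
    rw [Finset.sum_congr rfl (fun i hi => by
      rw [show i + (n - 1 - i) = n - 1 by simp at hi; omega])] at h2
    rw [Finset.sum_const, Finset.card_range, nsmul_eq_mul, mul_eq_zero] at h2
    refine (h2.resolve_left hnk) |> fun h3 => ?_
    have h4 : IsLocalRing.residue A z ^ n = 1 := by rw [← map_pow, hz, map_one]
    rw [show n = (n - 1) + 1 by omega, pow_succ, h3, zero_mul] at h4
    exact zero_ne_one h4
  · exact congrArg Subtype.val (sub_eq_zero.1 h)

variable {F : Type} [Field F] [Algebra (AlgebraicClosure ℚ) F]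
  [IsFunctionFieldOne (AlgebraicClosure ℚ) F] (𝔖 : Setting ℓ F)

/-- fixed by an open subgroup containing the inertia group -/
def Good (D : Divisor ℚbar F) : Prop :=
  ∃ U : Subgroup Γℚ, IsOpen (U : Set Γℚ) ∧ 𝔖.A.inertiaSubgroupIn ℚ ≤ U ∧
    ∀ u ∈ U, 𝔖.gal u • D = D

theorem good_zero : Good 𝔖 0 :=
  ⟨⊤, isOpen_univ, le_top, fun u _ => smul_zero (A := Divisor ℚbar F) (𝔖.gal u)⟩

variable {𝔖}

omit [Fact ℓ.Prime] [IsFunctionFieldOne (AlgebraicClosure ℚ) F] in
theorem Good.sub {D E : Divisor ℚbar F} (hD : Good 𝔖 D) (hE : Good 𝔖 E) : Good 𝔖 (D - E) := by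
  obtain ⟨U, hU, hIU, hUD⟩ := hD
  obtain ⟨V, hV, hIV, hVE⟩ := hE
  refine ⟨U ⊓ V, hU.inter hV, le_inf hIU hIV, fun u hu => ?_⟩
  rw [smul_sub, hUD u hu.1, hVE u hu.2]

omit [Fact ℓ.Prime] [IsFunctionFieldOne (AlgebraicClosure ℚ) F] in
theorem Good.nsmul {D : Divisor ℚbar F} (hD : Good 𝔖 D) (n : ℕ) : Good 𝔖 (n • D) := by
  obtain ⟨U, hU, hIU, hUD⟩ := hD
  refine ⟨U, hU, hIU, fun u hu => ?_⟩
  rw [smul_comm, hUD u hu]

variable (𝔖)

/-- the multiples of the rational divisor -/
theorem exists_fixed_large (N : ℤ) :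
    ∃ R : Divisor ℚbar F, (∀ σ : Γℚ, 𝔖.gal σ • R = R) ∧ N ≤ Divisor.degree R := by
  refine ⟨N.toNat • 𝔖.R₀, fun σ => by rw [smul_comm, 𝔖.R₀_fixed], ?_⟩
  rw [map_nsmul, nsmul_eq_mul]
  have := 𝔖.R₀_degree
  calc N ≤ (N.toNat : ℤ) * 1 := by omega
    _ ≤ _ := mul_le_mul_of_nonneg_left this (by positivity)

/-- every point of the special fibre lifts to a point fixed by inertia -/
theorem exists_good_lift (Q : Place 𝔖.k 𝔖.Fb) :
    ∃ P : Place ℚbar F, 𝔖.G.placeMap P = Q ∧ Good 𝔖 (Finsupp.single P 1) := by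
  classical
  set g := genusFF ℚbar F
  obtain ⟨R, hR, hRdeg⟩ := exists_fixed_large 𝔖 (2 * (g : ℤ) + 1)
  obtain ⟨ι, _, Λ, hΛ⟩ := 𝔖.exists_fixed_lat R hR (by omega)
  have rrb := rrFormula_special 𝔖.G
  obtain ⟨tb, htb, htb0, htbQ⟩ := JacSpaces.exists_ord_eq rrb
    (D := 𝔖.G.divMap R - Finsupp.single Q 1)
    (by rw [map_sub, 𝔖.G.degree_divMap, degree_single_one]; omega) Q
  have htbR : tb ∈ L (𝔖.G.divMap R) := RedAux.L_mono (sub_le_self _ (Finsupp.le_def.2 fun w => by
    rw [Finsupp.zero_apply, Finsupp.single_apply]; split_ifs <;> omega)) htb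
  rw [← Λ.range_toFb] at htbR
  obtain ⟨cb, rfl⟩ := htbR
  choose z hz hzI using fun i => exists_lift_fixed 𝔖.over (cb i)
  obtain ⟨htV, hφt⟩ := Λ.toF_integral z
  have hcb : (fun i => 𝔖.G.π (z i)) = cb := funext fun i => by rw [𝔖.π_eq, hz]
  rw [hcb] at hφt
  set t := Λ.toF (fun i => (z i : ℚbar)) with ht
  have htR : t ∈ L R := Λ.range_toF ▸ ⟨_, rfl⟩
  have ht0 : t ≠ 0 := by
    intro h0
    rw [show (⟨t, htV⟩ : 𝔖.G.V) = 0 from Subtype.ext h0, map_zero] at hφt
    exact htb0 hφt.symm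
  set E := divisorOf ℚbar t + R with hE
  have hE0 : 0 ≤ E := Finsupp.le_def.2 fun v => by
    have := le_ord_of_mem htR ht0 v
    rw [hE, Finsupp.add_apply, divisorOf_apply, Finsupp.zero_apply]
    omega
  have hEQ : 𝔖.G.divMap E Q = 1 := by
    rw [hE, map_add, Finsupp.add_apply,
      𝔖.G.divMap_apply_eq_ord ⟨t, htV⟩ (by rw [hφt]; exact htb0) (fun P => divisorOf_apply (K := ℚbar) t P) Q,
      hφt, htbQ, Finsupp.sub_apply, Finsupp.single_eq_same]
    ring
  -- the fibre over `Q` in the support of `E`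
  set s := E.support.filter fun P => 𝔖.G.placeMap P = Q with hs
  have hsum : ∑ P ∈ s, E P = 1 := by
    rw [← hEQ, 𝔖.G.divMap_apply, Finsupp.mapDomain, Finsupp.sum_apply, Finsupp.sum, hs,
      Finset.sum_filter]
    exact Finset.sum_congr rfl fun P _ => by rw [Finsupp.single_apply]
  have hpos : ∀ P ∈ s, 1 ≤ E P := fun P hP => by
    have h1 := Finsupp.le_def.1 hE0 P
    have h2 := Finsupp.mem_support_iff.1 (Finset.mem_filter.1 hP).1
    rw [Finsupp.zero_apply] at h1
    omega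
  have hcard : s.card = 1 := by
    have h1 := Finset.card_nsmul_le_sum s (fun P => E P) 1 hpos
    simp only [nsmul_eq_mul, mul_one, hsum] at h1
    have h2 : s.card ≠ 0 := fun h0 => by
      rw [Finset.card_eq_zero.1 h0, Finset.sum_empty] at hsum
      exact zero_ne_one hsum
    omega
  obtain ⟨P, hP⟩ := Finset.card_eq_one.1 hcard
  have hPs : P ∈ s := hP ▸ Finset.mem_singleton_self P
  have hPQ : 𝔖.G.placeMap P = Q := (Finset.mem_filter.1 hPs).2
  refine ⟨P, hPQ, ?_⟩
  have hopen := 𝔖.isOpen_stabilizer hR (E := R - Finsupp.single P 1)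
    (sub_le_self _ (Finsupp.le_def.2 fun w => by
      rw [Finsupp.zero_apply, Finsupp.single_apply]; split_ifs <;> omega))
    (by rw [map_sub, degree_single_one]; omega)
  let St : Subgroup Γℚ :=
    (MulAction.stabilizer (SemilinearAut ℚbar F) (R - Finsupp.single P (1 : ℤ))).comap 𝔖.gal
  refine ⟨St, hopen, fun σ hσ => ?_, fun u hu => ?_⟩
  · show 𝔖.gal σ • (R - Finsupp.single P (1 : ℤ)) = R - Finsupp.single P 1
    rw [smul_sub, hR, SemilinearAut.smul_single]
    suffices h : 𝔖.gal σ • P = P by rw [h]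
    have hσt : SemilinearAut.toRingAut (𝔖.gal σ) t = t := by
      rw [ht, 𝔖.gal_toF Λ σ (hΛ σ)]
      congr 1
      funext i
      exact hzI i σ hσ
    have hEσ : E (𝔖.gal σ • P) = E P := by
      have h1 := SemilinearAut.ord_smul (𝔖.gal σ) P t
      rw [SemilinearAut.smul_def, hσt] at h1
      rw [hE, Finsupp.add_apply, Finsupp.add_apply, divisorOf_apply, divisorOf_apply, h1]
      congr 1
      conv_lhs => rw [← hR σ, SemilinearAut.divisor_smul_apply_smul]
    have hmem : 𝔖.gal σ • P ∈ s := by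
      refine Finset.mem_filter.2 ⟨Finsupp.mem_support_iff.2 ?_, ?_⟩
      · rw [hEσ]; exact Finsupp.mem_support_iff.1 (Finset.mem_filter.1 hPs).1
      · rw [𝔖.placeMap_gal_of_mem_inertia hσ, hPQ]
    rw [hP, Finset.mem_singleton] at hmem
    exact hmem
  · have h1 : 𝔖.gal u • (R - Finsupp.single P (1 : ℤ)) = R - Finsupp.single P 1 := hu
    rw [smul_sub, hR] at h1
    exact sub_right_injective h1

omit [Fact ℓ.Prime] [IsFunctionFieldOne (AlgebraicClosure ℚ) F] in
theorem infinite_place : Infinite (Place 𝔖.k 𝔖.Fb) := by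
  obtain ⟨x, hx, -⟩ := IsFunctionFieldOne.exists_transcendental_finite (K := 𝔖.k) (F := 𝔖.Fb)
  have htr : ∀ c : 𝔖.k, Transcendental 𝔖.k (x - algebraMap 𝔖.k 𝔖.Fb c) := fun c h => by
    have h2 := h.add (isAlgebraic_algebraMap c)
    rw [sub_add_cancel] at h2
    exact hx h2
  choose P hP using fun c : 𝔖.k => exists_place_ord_pos (htr c)
  refine Infinite.of_injective P fun c d hcd => ?_
  by_contra hne
  have h1 := hP c
  have h2 := hP d
  rw [← hcd] at h2
  have h3 : algebraMap 𝔖.k 𝔖.Fb (d - c) =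
      (x - algebraMap 𝔖.k 𝔖.Fb c) + -(x - algebraMap 𝔖.k 𝔖.Fb d) := by rw [map_sub]; ring
  have h4 := le_ord_add (P c) 1 (f := x - algebraMap 𝔖.k 𝔖.Fb c)
    (g := -(x - algebraMap 𝔖.k 𝔖.Fb d)) (by rw [← h3]; simp [sub_eq_zero, Ne.symm hne])
    (fun _ => h1) (fun _ => by rw [ord_neg]; exact h2)
  rw [← h3, ord_algebraMap] at h4
  omega

/-- a base divisor of degree `g` -/
theorem exists_base {ι : Type} [Finite ι] (D : ι → Divisor ℚbar F)
    (hD : ∀ i, Divisor.degree (D i) = 0) :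
    ∃ A₀ : Divisor ℚbar F, Good 𝔖 A₀ ∧ Divisor.degree A₀ = (genusFF ℚbar F : ℤ) ∧
      ∀ i, finrank 𝔖.k ↥(L (𝔖.G.divMap (A₀ + D i))) ≤ 1 := by
  classical
  set g := genusFF ℚbar F
  have rrb := rrFormula_special 𝔖.G
  have := infinite_place 𝔖
  suffices H : ∀ n : ℕ, n ≤ g → ∃ A₀ : Divisor ℚbar F, Good 𝔖 A₀ ∧
      Divisor.degree A₀ = 2 * (g : ℤ) - n ∧
      ∀ i, finrank 𝔖.k ↥(L (𝔖.G.divMap (A₀ + D i))) ≤ max 1 (g + 1 - n) by
    obtain ⟨A₀, h1, h2, h3⟩ := H g le_rfl
    refine ⟨A₀, h1, by omega, fun i => ?_⟩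
    have := h3 i
    omega
  intro n
  induction n with
  | zero =>
    intro _
    obtain ⟨Q⟩ := (inferInstance : Nonempty (Place 𝔖.k 𝔖.Fb))
    obtain ⟨P, -, hP⟩ := exists_good_lift 𝔖 Q
    have hdeg : Divisor.degree ((2 * g) • Finsupp.single P (1 : ℤ)) = 2 * (g : ℤ) := by
      rw [map_nsmul, degree_single_one, nsmul_one]; norm_num
    refine ⟨_, hP.nsmul (2 * g), by rw [hdeg]; simp, fun i => ?_⟩
    have := rrb.finrank_eq (𝔖.G.divMap ((2 * g) • Finsupp.single P (1 : ℤ) + D i))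
      (by rw [𝔖.G.degree_divMap, map_add, hdeg, hD]; omega)
    rw [𝔖.G.degree_divMap, map_add Divisor.degree, hdeg, hD] at this
    refine le_trans (le_of_eq ?_) (le_max_right _ _)
    exact Nat.cast_injective (R := ℤ) (this.trans (by omega))
  | succ n ih =>
    intro hn
    obtain ⟨A₁, hgood, hdeg, hA₁⟩ := ih (by omega)
    let bad : ι → Set (Place 𝔖.k 𝔖.Fb) := fun i =>
      if L (𝔖.G.divMap (A₁ + D i)) = ⊥ then ∅
      else {Q | finrank 𝔖.k ↥(L (𝔖.G.divMap (A₁ + D i))) ≤
        finrank 𝔖.k ↥(L (𝔖.G.divMap (A₁ + D i) - Finsupp.single Q 1))}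
    have hbad : (⋃ i, bad i).Finite := Set.finite_iUnion fun i => by
      simp only [bad]
      split_ifs with h
      · exact Set.finite_empty
      · haveI := rrb.finite (𝔖.G.divMap (A₁ + D i))
        exact finite_setOf_finrank_le _ h
    obtain ⟨Q, hQ⟩ := hbad.infinite_compl.nonempty
    obtain ⟨P, hPQ, hP⟩ := exists_good_lift 𝔖 Q
    refine ⟨A₁ - Finsupp.single P 1, hgood.sub hP, ?_, fun i => ?_⟩
    · rw [map_sub, hdeg, degree_single_one]; push_cast; ring
    have hmap : 𝔖.G.divMap (A₁ - Finsupp.single P 1 + D i) =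
        𝔖.G.divMap (A₁ + D i) - Finsupp.single Q 1 := by
      rw [← hPQ, ← divMap_single, ← map_sub]
      congr 1
      abel
    rw [hmap]
    have h1 := hA₁ i
    by_cases hb : L (𝔖.G.divMap (A₁ + D i)) = ⊥
    · have hle : L (𝔖.G.divMap (A₁ + D i) - Finsupp.single Q 1) = ⊥ := by
        rw [← le_bot_iff, ← hb]
        exact RedAux.L_mono (sub_le_self _ (Finsupp.le_def.2 fun w => by
          rw [Finsupp.zero_apply, Finsupp.single_apply]; split_ifs <;> omega))
      rw [hle, finrank_bot]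
      omega
    · have h2 : Q ∉ bad i := fun h => hQ (Set.mem_iUnion.2 ⟨i, h⟩)
      simp only [bad, hb, if_false, Set.mem_setOf_eq, not_le] at h2
      omega

end Fermat.Agent.FlatModel.JacBase
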