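import Fermat.Agent.Flat.HopfBasis
import Mathlib.RingTheory.HopfAlgebra.Basic
import Mathlib.RingTheory.Bialgebra.Convolution

/-!
# The Hopf algebra of an order
-/

set_option autoImplicit false

namespace Fermat.Agent.FlatModel

open scoped TensorProduct
open WithConv

local notation "ℚbar" => AlgebraicClosure ℚ
local notation "Γℚ" => AlgebraicClosure ℚ ≃ₐ[ℚ] AlgebraicClosure ℚ

section assoc

variable {R : Type} [CommRing R] [Algebra R ℚbar] {X Y Z : Type}
  {A B C : Type} [CommRing A] [Algebra R A] [CommRing B] [Algebra R B] [CommRing C] [Algebra R C]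
  (f : A →ₐ[R] (X → ℚbar)) (g : B →ₐ[R] (Y → ℚbar)) (k : C →ₐ[R] (Z → ℚbar))

theorem boxHom_comm (t : A ⊗[R] B) (x : X) (y : Y) :
    boxHom g f (TensorProduct.comm R A B t) (y, x) = boxHom f g t (x, y) := by
  induction t using TensorProduct.induction_on with
  | zero => simp
  | tmul a b => simp [mul_comm]
  | add s t hs ht => simp [map_add, hs, ht]

theorem boxHom_assoc (t : (A ⊗[R] B) ⊗[R] C) (x : X) (y : Y) (z : Z) :
    boxHom f (boxHom g k) (Algebra.TensorProduct.assoc R R R A B C t) (x, (y, z))
      = boxHom (boxHom f g) k t ((x, y), z) := by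
  induction t using TensorProduct.induction_on with
  | zero => simp
  | add s t hs ht => simp [map_add, hs, ht]
  | tmul ab c =>
    induction ab using TensorProduct.induction_on with
    | zero => simp
    | add s t hs ht =>
      simp only [TensorProduct.add_tmul, map_add, Pi.add_apply] at hs ht ⊢
      rw [hs, ht]
    | tmul a b => simp [mul_assoc]

theorem boxHom_map {A' B' : Type} [CommRing A'] [Algebra R A'] [CommRing B'] [Algebra R B']
    (φ : A' →ₐ[R] A) (ψ : B' →ₐ[R] B) (t : A' ⊗[R] B') (z : X × Y) :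
    boxHom f g (Algebra.TensorProduct.map φ ψ t) z = boxHom (f.comp φ) (g.comp ψ) t z := by
  induction t using TensorProduct.induction_on with
  | zero => simp
  | tmul a b => simp
  | add s t hs ht => simp [map_add, hs, ht]

theorem boxHom_pullFun {X' Y' : Type} (u : X → X') (v : Y → Y') (f : A →ₐ[R] (X' → ℚbar))
    (g : B →ₐ[R] (Y' → ℚbar)) (t : A ⊗[R] B) (z : X × Y) :
    boxHom ((pullFun R u).comp f) ((pullFun R v).comp g) t z = boxHom f g t (u z.1, v z.2) := by
  induction t using TensorProduct.induction_on with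
  | zero => simp
  | tmul a b => simp
  | add s t hs ht => simp [map_add, hs, ht]

theorem boxHom_injective {ι κ : Type*} [Finite ι] [Finite κ] [FaithfulSMul R ℚbar]
    (a : Module.Basis ι R A) (b : Module.Basis κ R B)
    (ha : LinearIndependent ℚbar fun i => f (a i))
    (hb : LinearIndependent ℚbar fun i => g (b i)) : Function.Injective (boxHom f g) := by
  refine injective_of_linearIndependent_basis (boxHom f g).toLinearMap (a.tensorProduct b) ?_
  have h := (linearIndependent_mul_pairs ha hb).restrict_scalars' R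
  have e : (⇑(boxHom f g).toLinearMap ∘ ⇑(a.tensorProduct b))
      = fun (p : ι × κ) (z : X × Y) => f (a p.1) z.1 * g (b p.2) z.2 := by
    funext p z
    simp [Module.Basis.tensorProduct_apply']
  rw [e]
  exact h

end assoc

variable {ℓ : ℕ} {M : Type} [AddCommGroup M] [Finite M] {act : Γℚ → M → M}

theorem faithfulSMul_qbar (ℓ : ℕ) : FaithfulSMul (GaloisRep.ratLocalizedAt ℓ) ℚbar :=
  (faithfulSMul_iff_algebraMap_injective _ _).mpr
    ((algebraMap ℚ ℚbar).injective.comp Subtype.val_injective)

namespace HopfOrder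

variable (O : HopfOrder ℓ M act)

/-- `H ⊗ H → (M × M → ℚ̄)`. -/
noncomputable abbrev boxTwo :
    O.alg ⊗[GaloisRep.ratLocalizedAt ℓ] O.alg →ₐ[GaloisRep.ratLocalizedAt ℓ] (M × M → ℚbar) :=
  boxHom O.alg.val O.alg.val

theorem boxTwo_injective : Function.Injective O.boxTwo := by
  have := faithfulSMul_qbar ℓ
  obtain ⟨n, b, B, hB⟩ := exists_basis O.alg O.finite O.equivariant O.separates
  have h : LinearIndependent ℚbar fun i => O.alg.val (b i) := by
    have := B.linearIndependent
    convert this using 1
    funext i; exact (hB i).symm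
  exact boxHom_injective _ _ b b h h

theorem boxThree_injective : Function.Injective (boxHom (R := GaloisRep.ratLocalizedAt ℓ) (A := O.alg) (B := O.alg ⊗[GaloisRep.ratLocalizedAt ℓ] O.alg) O.alg.val O.boxTwo) := by
  have := faithfulSMul_qbar ℓ
  obtain ⟨n, b, B, hB⟩ := exists_basis O.alg O.finite O.equivariant O.separates
  have h : LinearIndependent ℚbar fun i => O.alg.val (b i) := by
    have := B.linearIndependent
    convert this using 1
    funext i; exact (hB i).symm
  refine boxHom_injective _ _ b (b.tensorProduct b) h ?_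
  convert linearIndependent_mul_pairs h h using 1
  funext p z
  simp [Module.Basis.tensorProduct_apply']

theorem mem_range_boxTwo (h : O.alg) :
    ((pullFun _ fun z : M × M => z.1 + z.2).comp O.alg.val) h ∈ O.boxTwo.range := by
  rw [boxTwo, range_boxHom]
  exact O.comul_mem h h.2

/-- Comultiplication. -/
noncomputable def comulHom :
    O.alg →ₐ[GaloisRep.ratLocalizedAt ℓ] O.alg ⊗[GaloisRep.ratLocalizedAt ℓ] O.alg :=
  (AlgEquiv.ofInjective O.boxTwo O.boxTwo_injective).symm.toAlgHom.comp
    (((pullFun _ fun z : M × M => z.1 + z.2).comp O.alg.val).codRestrict _ O.mem_range_boxTwo)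

theorem boxTwo_comulHom (h : O.alg) (z : M × M) :
    O.boxTwo (O.comulHom h) z = (h : M → ℚbar) (z.1 + z.2) := by
  have : O.boxTwo (O.comulHom h) =
      ((pullFun _ fun z : M × M => z.1 + z.2).comp O.alg.val) h :=
    congrArg Subtype.val ((AlgEquiv.ofInjective O.boxTwo O.boxTwo_injective).apply_symm_apply
      ⟨_, O.mem_range_boxTwo h⟩)
  rw [this]; rfl

include O in
theorem act_add (σ : Γℚ) (x y : M) : act σ (x + y) = act σ x + act σ y := by
  refine O.separates _ _ fun h hh => ?_
  obtain ⟨n, a, b, hab⟩ := exists_sum_of_mem_boxAlg (O.comul_mem h hh)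
  rw [O.equivariant h hh, hab (act σ x) (act σ y), hab x y, map_sum]
  refine Finset.sum_congr rfl fun i _ => ?_
  rw [map_mul, O.equivariant _ (a i).2, O.equivariant _ (b i).2]

include O in
theorem act_zero (σ : Γℚ) : act σ 0 = 0 :=
  (AddMonoidHom.mk' (act σ) (O.act_add σ)).map_zero

theorem eval_zero_mem_range (h : O.alg) :
    (h : M → ℚbar) 0 ∈ (Algebra.ofId (GaloisRep.ratLocalizedAt ℓ) ℚbar).range := by
  have := ratLocalizedAt_isPrincipal ℓ
  have := ratLocalizedAt_isFractionRing ℓ
  have : IsScalarTower (GaloisRep.ratLocalizedAt ℓ) ℚ ℚbar :=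
    IsScalarTower.of_algebraMap_eq fun _ => rfl
  have := O.finite
  obtain ⟨q, hq⟩ : (h : M → ℚbar) 0 ∈ Set.range (algebraMap ℚ ℚbar) := by
    rw [InfiniteGalois.mem_range_algebraMap_iff_fixed]
    intro σ
    rw [← O.equivariant h h.2 σ 0, O.act_zero]
  have hint : IsIntegral (GaloisRep.ratLocalizedAt ℓ) ((h : M → ℚbar) 0) :=
    IsIntegral.map ((Pi.evalAlgHom _ (fun _ : M => ℚbar) 0).comp O.alg.val)
      (Algebra.IsIntegral.isIntegral h)
  rw [← hq, isIntegral_algebraMap_iff (algebraMap ℚ ℚbar).injective,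
    IsIntegrallyClosed.isIntegral_iff] at hint
  obtain ⟨r, hr⟩ := hint
  exact ⟨r, by rw [← hq, ← hr]; rfl⟩

/-- Counit. -/
noncomputable def counitHom : O.alg →ₐ[GaloisRep.ratLocalizedAt ℓ] GaloisRep.ratLocalizedAt ℓ :=
  (AlgEquiv.ofInjective (Algebra.ofId (GaloisRep.ratLocalizedAt ℓ) ℚbar)
    ((algebraMap ℚ ℚbar).injective.comp Subtype.val_injective)).symm.toAlgHom.comp
      (((Pi.evalAlgHom _ (fun _ : M => ℚbar) 0).comp O.alg.val).codRestrict _
        O.eval_zero_mem_range)

theorem algebraMap_counitHom (h : O.alg) :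
    algebraMap (GaloisRep.ratLocalizedAt ℓ) ℚbar (O.counitHom h) = (h : M → ℚbar) 0 :=
  congrArg Subtype.val ((AlgEquiv.ofInjective (Algebra.ofId (GaloisRep.ratLocalizedAt ℓ) ℚbar)
    ((algebraMap ℚ ℚbar).injective.comp Subtype.val_injective)).apply_symm_apply
      ⟨_, O.eval_zero_mem_range h⟩)

theorem comp_nsmul_mem (n : ℕ) : ∀ h ∈ O.alg, (fun m : M => h (n • m)) ∈ O.alg := by
  induction n with
  | zero =>
    intro h hh
    convert O.alg.algebraMap_mem (O.counitHom ⟨h, hh⟩) using 1
    funext m
    rw [zero_nsmul, Pi.algebraMap_apply, O.algebraMap_counitHom]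
  | succ n ih =>
    intro h hh
    obtain ⟨k, a, b, hab⟩ := exists_sum_of_mem_boxAlg (O.comul_mem h hh)
    have : (fun m : M => h ((n + 1) • m))
        = ∑ i, (fun m : M => (a i : M → ℚbar) (n • m)) * (b i : M → ℚbar) := by
      funext m
      rw [add_nsmul, one_nsmul, hab, Finset.sum_apply]
      rfl
    rw [this]
    exact sum_mem fun i _ => O.alg.mul_mem (ih _ (a i).2) (b i).2

theorem comp_neg_mem (h : O.alg) :
    ((pullFun _ fun m : M => -m).comp O.alg.val) h ∈ O.alg := by
  convert O.comp_nsmul_mem (Nat.card M - 1) h h.2 using 1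
  funext m
  show (h : M → ℚbar) (-m) = _
  congr 1
  have h1 : Nat.card M • m = 0 := by
    cases nonempty_fintype M
    rw [Nat.card_eq_fintype_card]; exact card_nsmul_eq_zero
  have h2 : 1 ≤ Nat.card M := Nat.card_pos
  conv_rhs => rw [sub_nsmul m h2, h1, zero_add, one_nsmul]

/-- Antipode. -/
noncomputable def antipodeHom : O.alg →ₐ[GaloisRep.ratLocalizedAt ℓ] O.alg :=
  ((pullFun _ fun m : M => -m).comp O.alg.val).codRestrict _ O.comp_neg_mem

/-- The bialgebra of an order. -/
noncomputable abbrev toBialgebra : Bialgebra (GaloisRep.ratLocalizedAt ℓ) O.alg :=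
  Bialgebra.ofAlgHom O.comulHom O.counitHom
    (by
      refine AlgHom.ext fun h => O.boxThree_injective ?_
      funext w
      obtain ⟨x, y, z⟩ := w
      simp only [AlgHom.comp_apply]
      show boxHom (R := GaloisRep.ratLocalizedAt ℓ) (A := O.alg) (B := O.alg ⊗[GaloisRep.ratLocalizedAt ℓ] O.alg) O.alg.val O.boxTwo (Algebra.TensorProduct.assoc _ _ _ _ _ _ _) (x, (y, z)) = _
      rw [boxHom_assoc, boxHom_map, boxHom_map]
      have e1 : (boxHom O.alg.val O.alg.val).comp O.comulHom
          = (pullFun _ fun z : M × M => z.1 + z.2).comp O.alg.val :=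
        AlgHom.ext fun a => funext fun z => O.boxTwo_comulHom a z
      have e2 : O.alg.val = (pullFun (GaloisRep.ratLocalizedAt ℓ) (id : M → M)).comp O.alg.val :=
        AlgHom.ext fun a => funext fun z => rfl
      rw [e1, AlgHom.comp_id]
      refine ((boxHom_pullFun (fun z : M × M => z.1 + z.2) id O.alg.val O.alg.val (O.comulHom h)
        ((x, y), z)).trans ?_).trans (boxHom_pullFun id (fun z : M × M => z.1 + z.2) O.alg.val
        O.alg.val (O.comulHom h) (x, (y, z))).symm
      show O.boxTwo (O.comulHom h) (x + y, z) = O.boxTwo (O.comulHom h) (x, y + z)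
      rw [O.boxTwo_comulHom, O.boxTwo_comulHom, add_assoc])
    (by
      refine AlgHom.ext fun h => (Algebra.TensorProduct.lid _ O.alg).injective ?_
      rw [AlgHom.comp_apply, AlgEquiv.coe_toAlgHom, AlgEquiv.apply_symm_apply]
      apply Subtype.ext
      funext x
      have key : ∀ t, ((Algebra.TensorProduct.lid (GaloisRep.ratLocalizedAt ℓ) O.alg
          (Algebra.TensorProduct.map O.counitHom (AlgHom.id (GaloisRep.ratLocalizedAt ℓ) O.alg) t) : O.alg) : M → ℚbar) x
            = O.boxTwo t (0, x) := by
        intro t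
        induction t using TensorProduct.induction_on with
        | zero => simp
        | tmul a b => simp [Algebra.smul_def, O.algebraMap_counitHom]
        | add s t hs ht => simp [map_add, hs, ht]
      rw [key, O.boxTwo_comulHom, zero_add])
    (by
      refine AlgHom.ext fun h => (Algebra.TensorProduct.rid (GaloisRep.ratLocalizedAt ℓ)
        (GaloisRep.ratLocalizedAt ℓ) O.alg).injective ?_
      rw [AlgHom.comp_apply, AlgEquiv.coe_toAlgHom, AlgEquiv.apply_symm_apply]
      apply Subtype.ext
      funext x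
      have key : ∀ t, ((Algebra.TensorProduct.rid (GaloisRep.ratLocalizedAt ℓ)
          (GaloisRep.ratLocalizedAt ℓ) O.alg
          (Algebra.TensorProduct.map (AlgHom.id (GaloisRep.ratLocalizedAt ℓ) O.alg) O.counitHom t) : O.alg) : M → ℚbar) x
            = O.boxTwo t (x, 0) := by
        intro t
        induction t using TensorProduct.induction_on with
        | zero => simp
        | tmul a b => simp [Algebra.smul_def, O.algebraMap_counitHom, mul_comm]
        | add s t hs ht => simp [map_add, hs, ht]
      rw [key, O.boxTwo_comulHom, add_zero])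

/-- The Hopf algebra of an order. -/
noncomputable abbrev toHopfAlgebra : HopfAlgebra (GaloisRep.ratLocalizedAt ℓ) O.alg :=
  letI := O.toBialgebra
  { antipode := O.antipodeHom.toLinearMap
    mul_antipode_rTensor_comul := by
      refine LinearMap.ext fun h => Subtype.ext (funext fun x => ?_)
      have key : ∀ t, ((LinearMap.mul' (GaloisRep.ratLocalizedAt ℓ) O.alg
          (O.antipodeHom.toLinearMap.rTensor O.alg t) : O.alg) : M → ℚbar) x
            = O.boxTwo t (-x, x) := by
        intro t
        induction t using TensorProduct.induction_on with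
        | zero => simp
        | tmul a b => simp [antipodeHom]
        | add s t hs ht => simp [map_add, hs, ht]
      show ((LinearMap.mul' _ _ (O.antipodeHom.toLinearMap.rTensor O.alg (O.comulHom h)) : O.alg) :
        M → ℚbar) x = ((algebraMap _ O.alg (O.counitHom h) : O.alg) : M → ℚbar) x
      rw [key, O.boxTwo_comulHom, neg_add_cancel, ← O.algebraMap_counitHom h]
      rfl
    mul_antipode_lTensor_comul := by
      refine LinearMap.ext fun h => Subtype.ext (funext fun x => ?_)
      have key : ∀ t, ((LinearMap.mul' (GaloisRep.ratLocalizedAt ℓ) O.alg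
          (O.antipodeHom.toLinearMap.lTensor O.alg t) : O.alg) : M → ℚbar) x
            = O.boxTwo t (x, -x) := by
        intro t
        induction t using TensorProduct.induction_on with
        | zero => simp
        | tmul a b => simp [antipodeHom]
        | add s t hs ht => simp [map_add, hs, ht]
      show ((LinearMap.mul' _ _ (O.antipodeHom.toLinearMap.lTensor O.alg (O.comulHom h)) : O.alg) :
        M → ℚbar) x = ((algebraMap _ O.alg (O.counitHom h) : O.alg) : M → ℚbar) x
      rw [key, O.boxTwo_comulHom, add_neg_cancel, ← O.algebraMap_counitHom h]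
      rfl }

/-- Evaluation at a point. -/
noncomputable def evalHom (m : M) : O.alg →ₐ[GaloisRep.ratLocalizedAt ℓ] ℚbar :=
  (Pi.evalAlgHom _ (fun _ : M => ℚbar) m).comp O.alg.val

theorem evalHom_bijective : Function.Bijective fun m => toConv (O.evalHom m) := by
  refine ⟨fun x y hxy => O.separates x y fun h hh => ?_, fun φ => ?_⟩
  · exact AlgHom.congr_fun (congrArg WithConv.ofConv hxy) (⟨h, hh⟩ : O.alg)
  · obtain ⟨x, hx⟩ := exists_eq_eval O.alg O.finite O.equivariant O.separates φ.ofConv
    exact ⟨x, WithConv.ext (AlgHom.ext fun h => (hx h).symm)⟩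

end HopfOrder

theorem hasFlatModel_of_order (O : HopfOrder ℓ M act) : HasFlatModel ℓ M act := by
  have := faithfulSMul_qbar ℓ
  have := ratLocalizedAt_isPrincipal ℓ
  let := O.toHopfAlgebra
  have := O.finite
  have : Module.Flat (GaloisRep.ratLocalizedAt ℓ) O.alg := by
    obtain ⟨n, b, -⟩ := exists_basis O.alg O.finite O.equivariant O.separates
    have := Module.Free.of_basis b
    infer_instance
  refine ⟨O.alg, inferInstance, O.toHopfAlgebra, O.finite, this, ⟨?_⟩,
    (Equiv.ofBijective _ O.evalHom_bijective).symm, fun f g => ?_, fun σ f g hfg => ?_⟩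
  · refine LinearMap.ext fun h => O.boxTwo_injective (funext fun z => ?_)
    obtain ⟨x, y⟩ := z
    show boxHom O.alg.val O.alg.val (TensorProduct.comm _ O.alg O.alg (O.comulHom h)) (x, y)
      = O.boxTwo (O.comulHom h) (x, y)
    rw [boxHom_comm, O.boxTwo_comulHom, O.boxTwo_comulHom, add_comm]
  · obtain ⟨x, rfl⟩ := (Equiv.ofBijective _ O.evalHom_bijective).surjective f
    obtain ⟨y, rfl⟩ := (Equiv.ofBijective _ O.evalHom_bijective).surjective g
    rw [Equiv.symm_apply_apply, Equiv.symm_apply_apply, Equiv.symm_apply_eq]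
    refine WithConv.ext (AlgHom.ext fun h => ?_)
    rw [AlgHom.convMul_apply]
    have key : ∀ t, Algebra.TensorProduct.lift (O.evalHom x) (O.evalHom y) (fun _ _ => .all ..) t
        = O.boxTwo t (x, y) := by
      intro t
      induction t using TensorProduct.induction_on with
      | zero => simp
      | tmul a b => simp [HopfOrder.evalHom]
      | add s t hs ht => simp [map_add, hs, ht]
    show Algebra.TensorProduct.lift (O.evalHom x) (O.evalHom y) (fun _ _ => .all ..)
      (O.comulHom h) = O.evalHom (x + y) h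
    rw [key, O.boxTwo_comulHom]; rfl
  · obtain ⟨x, rfl⟩ := (Equiv.ofBijective _ O.evalHom_bijective).surjective f
    obtain ⟨y, rfl⟩ := (Equiv.ofBijective _ O.evalHom_bijective).surjective g
    rw [Equiv.symm_apply_apply, Equiv.symm_apply_apply]
    refine O.separates _ _ fun h hh => ?_
    rw [O.equivariant h hh]
    exact hfg ⟨h, hh⟩

theorem exists_order_of_hasFlatModel (hM : HasFlatModel ℓ M act) :
    Nonempty (HopfOrder ℓ M act) := by
  obtain ⟨H, _, _, hfin, -, -, e, hadd, hgal⟩ := hM
  set j : H →ₐ[GaloisRep.ratLocalizedAt ℓ] (M → ℚbar) := AlgHom.pi fun m => (e.symm m).ofConv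
    with hj
  refine ⟨⟨j.range, ?_, ?_, ?_, ?_⟩⟩
  · exact Module.Finite.of_surjective j.rangeRestrict.toLinearMap j.rangeRestrict_surjective
  · rintro _ ⟨h, rfl⟩ σ m
    show (e.symm (act σ m)).ofConv h = σ ((e.symm m).ofConv h)
    have : IsScalarTower (GaloisRep.ratLocalizedAt ℓ) ℚ ℚbar :=
      IsScalarTower.of_algebraMap_eq fun _ => rfl
    set g : WithConv (H →ₐ[GaloisRep.ratLocalizedAt ℓ] ℚbar) :=
      toConv ((σ.toAlgHom.restrictScalars (GaloisRep.ratLocalizedAt ℓ)).comp (e.symm m).ofConv)
    have := hgal σ (e.symm m) g fun _ => rfl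
    rw [Equiv.apply_symm_apply] at this
    rw [← this, Equiv.symm_apply_apply]
    rfl
  · intro x y hxy
    exact e.symm.injective (WithConv.ext (AlgHom.ext fun h => hxy _ ⟨h, rfl⟩))
  · rintro _ ⟨h, rfl⟩
    obtain ⟨S, hS⟩ := TensorProduct.exists_finset (R := GaloisRep.ratLocalizedAt ℓ)
      (Coalgebra.comul (R := GaloisRep.ratLocalizedAt ℓ) h)
    refine mem_boxAlg_of_sum S (fun i => ⟨j i.1, i.1, rfl⟩) (fun i => ⟨j i.2, i.2, rfl⟩)
      fun x y => ?_
    show (e.symm (x + y)).ofConv h = _
    have h2 : e.symm (x + y) = e.symm x * e.symm y := by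
      rw [Equiv.symm_apply_eq, hadd, Equiv.apply_symm_apply, Equiv.apply_symm_apply]
    rw [h2]
    show (e.symm x * e.symm y) h = _
    rw [AlgHom.convMul_apply, hS, map_sum]
    simp [hj]

end Fermat.Agent.FlatModel
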