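import Fermat.Agent.Flat.HopfConstruct
import Mathlib.RingTheory.Valuation.LocalSubring
import Mathlib.RingTheory.Ideal.GoingUp
import Mathlib.RingTheory.Adjoin.FG

/-!
# Toolkit for finite flat models: constructions and closure properties
-/

set_option autoImplicit false

namespace Fermat.Agent.FlatModel

local notation "ℚbar" => AlgebraicClosure ℚ
local notation "Γℚ" => AlgebraicClosure ℚ ≃ₐ[ℚ] AlgebraicClosure ℚ

theorem natCast_mem_of_isMaximal {ℓ : ℕ} [Fact ℓ.Prime]
    (m : Ideal (GaloisRep.ratLocalizedAt ℓ)) [m.IsMaximal] :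
    (ℓ : GaloisRep.ratLocalizedAt ℓ) ∈ m := by
  have hl : ℓ.Prime := Fact.out
  have hsub : ∀ x ∈ m, (ℓ : GaloisRep.ratLocalizedAt ℓ) ∣ x := by
    intro x hx
    set q : ℚ := (x : ℚ) with hq
    have hq0 : ((q.den : ℕ) : ℚ) ≠ 0 := Nat.cast_ne_zero.mpr q.den_nz
    by_cases hdvd : (ℓ : ℤ) ∣ q.num
    · obtain ⟨k, hk⟩ := hdvd
      have hu : (1 / ((q.den : ℕ) : ℚ)).den.Coprime ℓ := by
        rw [one_div, Rat.inv_natCast_den_of_pos q.pos]; exact x.2
      refine ⟨(k : GaloisRep.ratLocalizedAt ℓ) * ⟨_, hu⟩, Subtype.ext ?_⟩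
      push_cast
      have := Rat.mul_den_eq_num q
      rw [hk] at this
      push_cast at this
      rw [← hq]
      field_simp
      linarith
    · exfalso
      refine Ideal.IsPrime.ne_top ‹m.IsMaximal›.isPrime (Ideal.eq_top_of_isUnit_mem m hx ?_)
      have hn0 : q.num ≠ 0 := fun h => hdvd (h ▸ dvd_zero _)
      have hq' : q⁻¹.den.Coprime ℓ := by
        rw [Rat.den_inv_of_ne_zero (Rat.num_ne_zero.mp hn0)]
        exact ((hl.coprime_iff_not_dvd).mpr fun h =>
          hdvd (Int.natCast_dvd.mpr h)).symm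
      refine isUnit_iff_exists_inv.mpr ⟨⟨q⁻¹, hq'⟩, Subtype.ext ?_⟩
      push_cast
      rw [← hq]
      exact mul_inv_cancel₀ (Rat.num_ne_zero.mp hn0)
  by_contra hmem
  have hne : Ideal.span {(ℓ : GaloisRep.ratLocalizedAt ℓ)} ≠ ⊤ := by
    rw [Ne, Ideal.span_singleton_eq_top, isUnit_iff_exists_inv]
    rintro ⟨b, hb⟩
    have hb' : (ℓ : ℚ) * (b : ℚ) = 1 := by simpa using congrArg Subtype.val hb
    have h2 : (b : ℚ).den.Coprime ℓ := b.2
    rw [eq_inv_of_mul_eq_one_right hb', Rat.inv_natCast_den_of_pos hl.pos,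
      Nat.coprime_self] at h2
    exact hl.ne_one h2
  have := Ideal.IsMaximal.eq_of_le ‹m.IsMaximal› hne fun x hx =>
    Ideal.mem_span_singleton.mpr (hsub x hx)
  exact hmem (this ▸ Ideal.mem_span_singleton_self _)

/-- A function with values integral over the base is integral. -/
theorem isIntegral_of_forall_apply {R : Type} [CommRing R] [Algebra R ℚbar] {X : Type} [Finite X]
    (f : X → ℚbar) (hf : ∀ x, IsIntegral R (f x)) : IsIntegral R f := by
  classical
  cases nonempty_fintype X
  choose p hp hp0 using hf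
  refine ⟨∏ x, p x, Polynomial.monic_prod_of_monic _ _ fun x _ => hp x, funext fun x => ?_⟩
  show (Polynomial.aeval f) (∏ y, p y) x = 0
  have h := Polynomial.aeval_algHom_apply (Pi.evalAlgHom R (fun _ : X => ℚbar) x) f (∏ y, p y)
  simp only [Pi.evalAlgHom_apply] at h
  rw [← h, map_prod]
  exact Finset.prod_eq_zero (Finset.mem_univ x) (hp0 x)

section criteria

variable {ℓ : ℕ} {X : Type}

/-- `c_i ∈ B` without common zero at any point over the closed point generate the unit ideal. -/
theorem span_eq_top_of_forall_valuation [Fact ℓ.Prime] [Finite X]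
    (B : Subalgebra (GaloisRep.ratLocalizedAt ℓ) (X → ℚbar))
    (hfin : Module.Finite (GaloisRep.ratLocalizedAt ℓ) B) {ι : Type*} (c : ι → B)
    (h : ∀ (x : X) (V : ValuationSubring ℚbar), ((ℓ : ℕ) : ℚbar) ∈ V.nonunits →
      (∀ b : B, (b : X → ℚbar) x ∈ V) → ∃ i, (c i : X → ℚbar) x ∉ V.nonunits) :
    Ideal.span (Set.range c) = ⊤ := by
  classical
  cases nonempty_fintype X
  by_contra hne
  obtain ⟨P, hP, hle⟩ := Ideal.exists_le_maximal _ hne
  set ev : X → (B →ₐ[GaloisRep.ratLocalizedAt ℓ] ℚbar) := fun x =>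
    (Pi.evalAlgHom _ (fun _ : X => ℚbar) x).comp B.val with hev
  have hprod : ∏ x, RingHom.ker (ev x) ≤ P := by
    refine le_trans (fun b hb => ?_) bot_le
    rw [Ideal.mem_bot]
    refine Subtype.ext (funext fun x => ?_)
    have := Ideal.le_of_dvd (Finset.dvd_prod_of_mem (fun x => RingHom.ker (ev x))
      (Finset.mem_univ x)) hb
    exact this
  obtain ⟨x, -, hx⟩ := (Ideal.IsPrime.prod_le hP.isPrime).mp hprod
  set π := (ev x).rangeRestrict with hπ
  have hsurj : Function.Surjective π := (ev x).rangeRestrict_surjective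
  have hI : P.map π.toRingHom ≠ ⊤ := by
    intro htop
    have := Ideal.comap_map_of_surjective π.toRingHom hsurj P
    rw [htop, Ideal.comap_top] at this
    refine hP.ne_top (top_le_iff.mp ?_)
    rw [this]
    refine sup_le le_rfl ?_
    intro b hb
    exact hx (congrArg Subtype.val (show π b = 0 from hb))
  obtain ⟨V, hV, hnon⟩ := Ideal.image_subset_nonunits_valuationSubring
    (A := (ev x).range.toSubring) (P.map π.toRingHom) hI
  have hmem : ∀ b : B, (b : X → ℚbar) x ∈ V := fun b => hV ⟨b, rfl⟩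
  have hPV : ∀ b ∈ P, (b : X → ℚbar) x ∈ V.nonunits := fun b hb =>
    hnon ⟨π b, Ideal.mem_map_of_mem π.toRingHom hb, rfl⟩
  have := hfin
  have hlP : (ℓ : B) ∈ P := by
    have : (P.comap (algebraMap (GaloisRep.ratLocalizedAt ℓ) B)).IsMaximal :=
      Ideal.isMaximal_comap_of_isIntegral_of_isMaximal P
    have h2 := natCast_mem_of_isMaximal (P.comap (algebraMap (GaloisRep.ratLocalizedAt ℓ) B))
    simpa using h2
  have hl := hPV _ hlP
  replace hl : ((ℓ : ℕ) : ℚbar) ∈ V.nonunits := by simpa using hl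
  obtain ⟨i, hi⟩ := h x V hl hmem
  exact hi (hPV _ (hle (Ideal.subset_span ⟨i, rfl⟩)))

theorem mem_of_forall_mul_mem {R : Type} [CommRing R] [Algebra R ℚbar]
    (B : Subalgebra R (X → ℚbar)) {ι : Type*} (c : ι → B)
    (hc : Ideal.span (Set.range c) = ⊤) (f : X → ℚbar)
    (hf : ∀ i, (c i : X → ℚbar) * f ∈ B) : f ∈ B := by
  have h1 : ((1 : B) : X → ℚbar) * f ∈ B := by
    have h : (1 : B) ∈ Ideal.span (Set.range c) := hc ▸ Submodule.mem_top
    refine Submodule.span_induction (p := fun (z : B) _ => (z : X → ℚbar) * f ∈ B)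
      ?_ ?_ ?_ ?_ h
    · rintro _ ⟨i, rfl⟩; exact hf i
    · simp
    · intro a b _ _ ha hb
      simpa [add_mul] using B.add_mem ha hb
    · intro a b _ hb
      simpa [mul_assoc] using B.mul_mem a.2 hb
  simpa using h1

theorem mem_boxAlg_iff {R : Type} [CommRing R] [Algebra R ℚbar] {Y : Type}
    (A : Subalgebra R (X → ℚbar)) (B : Subalgebra R (Y → ℚbar)) (F : X × Y → ℚbar) :
    F ∈ boxAlg A B ↔ ∃ (n : ℕ) (a : Fin n → A) (b : Fin n → B),
      ∀ x y, F (x, y) = ∑ i, (a i : X → ℚbar) x * (b i : Y → ℚbar) y := by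
  exact ⟨exists_sum_of_mem_boxAlg, fun ⟨n, a, b, h⟩ => mem_boxAlg_of_sum _ a b h⟩

end criteria

variable {ℓ : ℕ} {M : Type} [AddCommGroup M] [Finite M] {act : Γℚ → M → M}

/-- An order gives a finite flat Hopf algebra with points `M`. -/
theorem HopfOrder.hasFlatModel (O : HopfOrder ℓ M act) : HasFlatModel ℓ M act := by
  exact hasFlatModel_of_order O

/-- Conversely. -/
theorem HasFlatModel.exists_order (h : HasFlatModel ℓ M act) : Nonempty (HopfOrder ℓ M act) := by
  exact exists_order_of_hasFlatModel h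

/-- Every equivariant function has a nonzero multiple in the order. -/
theorem HopfOrder.exists_natCast_mul_mem (O : HopfOrder ℓ M act) (f : M → ℚbar)
    (hf : ∀ (σ : Γℚ) (m : M), f (act σ m) = σ (f m)) :
    ∃ d : ℕ, d ≠ 0 ∧ (d : M → ℚbar) * f ∈ O.alg := by
  classical
  obtain ⟨n, b, B, hB⟩ := exists_basis O.alg O.finite O.equivariant O.separates
  have hsum : ∀ g : M → ℚbar, ∀ m, g m = ∑ i, B.repr g i * (b i : M → ℚbar) m := by
    intro g m
    conv_lhs => rw [← B.sum_repr g]
    simp only [Finset.sum_apply, Pi.smul_apply, smul_eq_mul, hB]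
  have hrat : ∀ i, B.repr f i ∈ Set.range (algebraMap ℚ ℚbar) := by
    intro i
    rw [InfiniteGalois.mem_range_algebraMap_iff_fixed]
    intro σ
    have hsurj := Finite.surjective_of_injective
      (act_injective O.alg O.equivariant O.separates σ)
    have heq : (∑ j, σ (B.repr f j) • B j) = f := by
      funext x
      obtain ⟨y, rfl⟩ := hsurj x
      rw [hf, hsum f y, map_sum, Finset.sum_apply]
      refine Finset.sum_congr rfl fun j _ => ?_
      rw [Pi.smul_apply, smul_eq_mul, hB, O.equivariant _ (b j).2, map_mul]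
    have := congrArg (fun g => B.repr g i) heq
    rwa [B.repr_sum_self] at this
  choose q hq using hrat
  refine ⟨∏ i, (q i).den, Finset.prod_ne_zero_iff.mpr fun i _ => (q i).den_nz, ?_⟩
  have hint : ∀ i, ∃ z : ℤ, ((∏ j, (q j).den : ℕ) : ℚ) * q i = z := fun i => by
    refine ⟨(∏ j ∈ Finset.univ.erase i, ((q j).den : ℤ)) * (q i).num, ?_⟩
    rw [← Finset.prod_erase_mul _ _ (Finset.mem_univ i)]
    push_cast
    rw [mul_assoc, mul_comm ((q i).den : ℚ), Rat.mul_den_eq_num]
  choose z hz using hint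
  have : ((∏ i, (q i).den : ℕ) : M → ℚbar) * f = ∑ i, (z i : M → ℚbar) * (b i : M → ℚbar) := by
    funext m
    rw [Pi.mul_apply, hsum f m, Pi.natCast_apply, Finset.mul_sum, Finset.sum_apply]
    refine Finset.sum_congr rfl fun i _ => ?_
    rw [Pi.mul_apply, Pi.intCast_apply, ← mul_assoc, ← hq i]
    congr 1
    rw [← map_natCast (algebraMap ℚ ℚbar), ← map_mul, hz i, map_intCast]
  rw [this]
  exact sum_mem fun i _ => O.alg.mul_mem (intCast_mem O.alg _) (b i).2

/-- Criterion in terms of finitely many coordinate functions: they are integral over `ℤ_(ℓ)`,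
equivariant, separate points, and translation lands in the algebra generated by them on `M × M`. -/
theorem hasFlatModel_of_coordinates (s : Set (M → ℚbar)) (hs : s.Finite)
    (hint : ∀ f ∈ s, ∀ m, IsIntegral (GaloisRep.ratLocalizedAt ℓ) (f m))
    (hequiv : ∀ f ∈ s, ∀ (σ : Γℚ) (m : M), f (act σ m) = σ (f m))
    (hsep : ∀ x y : M, (∀ f ∈ s, f x = f y) → x = y)
    (hcomul : ∀ f ∈ s, (fun z : M × M => f (z.1 + z.2)) ∈
      boxAlg (Algebra.adjoin (GaloisRep.ratLocalizedAt ℓ) s)
        (Algebra.adjoin (GaloisRep.ratLocalizedAt ℓ) s)) :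
    HasFlatModel ℓ M act := by
  refine HopfOrder.hasFlatModel ⟨Algebra.adjoin _ s, ?_, ?_, ?_, ?_⟩
  · exact Module.Finite.iff_fg.mpr
      (fg_adjoin_of_finite hs fun f hf => isIntegral_of_forall_apply f (hint f hf))
  · intro h hh σ
    induction hh using Algebra.adjoin_induction with
    | mem x hx => exact hequiv x hx σ
    | algebraMap r =>
      intro m
      rw [Pi.algebraMap_apply, Pi.algebraMap_apply]
      exact (σ.commutes (r : ℚ)).symm
    | add a b _ _ ha hb => intro m; simp [ha m, hb m]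
    | mul a b _ _ ha hb => intro m; simp [ha m, hb m]
  · exact fun x y hxy => hsep x y fun f hf => hxy f (Algebra.subset_adjoin hf)
  · intro h hh
    have hle : Algebra.adjoin (GaloisRep.ratLocalizedAt ℓ) s ≤
        (boxAlg (Algebra.adjoin (GaloisRep.ratLocalizedAt ℓ) s)
          (Algebra.adjoin (GaloisRep.ratLocalizedAt ℓ) s)).comap
          (pullFun _ fun z : M × M => z.1 + z.2) := Algebra.adjoin_le fun f hf => hcomul f hf
    exact hle hh

/-- Closure under a jointly injective family of equivariant homomorphisms: subgroups, products,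
powers. -/
theorem hasFlatModel_of_jointly_injective {ι : Type} [Finite ι] {N : ι → Type}
    [∀ i, AddCommGroup (N i)] [∀ i, Finite (N i)] {actN : ∀ i, Γℚ → N i → N i}
    (hN : ∀ i, HasFlatModel ℓ (N i) (actN i)) (f : ∀ i, M →+ N i)
    (hf : ∀ i σ m, f i (act σ m) = actN i σ (f i m))
    (hinj : ∀ x y : M, (∀ i, f i x = f i y) → x = y) :
    HasFlatModel ℓ M act := by
  classical
  have O := fun i => (exists_order_of_hasFlatModel (hN i)).some
  have hfg : ∀ i, ∃ G : Finset (N i → ℚbar),
      Submodule.span (GaloisRep.ratLocalizedAt ℓ) (G : Set (N i → ℚbar)) =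
        Subalgebra.toSubmodule (O i).alg := fun i => Module.Finite.iff_fg.mp (O i).finite
  choose G hG using hfg
  set s : Set (M → ℚbar) :=
    ⋃ i, (pullFun (GaloisRep.ratLocalizedAt ℓ) (f i)) '' (G i : Set (N i → ℚbar)) with hs
  have hle : ∀ i, ∀ h ∈ (O i).alg, pullFun (GaloisRep.ratLocalizedAt ℓ) (f i) h ∈
      Algebra.adjoin (GaloisRep.ratLocalizedAt ℓ) s := by
    intro i h hh
    rw [← Subalgebra.mem_toSubmodule, ← hG i] at hh
    exact (Submodule.span_le (p := (Subalgebra.toSubmodule
      (Algebra.adjoin (GaloisRep.ratLocalizedAt ℓ) s)).comap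
        (pullFun (GaloisRep.ratLocalizedAt ℓ) (f i)).toLinearMap)).mpr
      (fun g hg => Algebra.subset_adjoin (Set.mem_iUnion.mpr ⟨i, g, hg, rfl⟩)) hh
  have hmem : ∀ i, ∀ g ∈ G i, g ∈ (O i).alg := fun i g hg => by
    rw [← Subalgebra.mem_toSubmodule, ← hG i]; exact Submodule.subset_span hg
  refine hasFlatModel_of_coordinates s (Set.finite_iUnion fun i => (G i).finite_toSet.image _)
    ?_ ?_ ?_ ?_
  · intro g hg m
    obtain ⟨i, g, hgG, rfl⟩ := Set.mem_iUnion.mp hg
    have := (O i).finite
    exact IsIntegral.map ((Pi.evalAlgHom _ (fun _ : N i => ℚbar) (f i m)).comp (O i).alg.val)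
      (Algebra.IsIntegral.isIntegral (R := GaloisRep.ratLocalizedAt ℓ)
        (⟨g, hmem i g hgG⟩ : (O i).alg))
  · intro g hg σ m
    obtain ⟨i, g, hgG, rfl⟩ := Set.mem_iUnion.mp hg
    simp [hf, (O i).equivariant g (hmem i g hgG)]
  · intro x y hxy
    refine hinj x y fun i => (O i).separates _ _ fun h hh => ?_
    have hall : ∀ g ∈ Algebra.adjoin (GaloisRep.ratLocalizedAt ℓ) s, g x = g y := by
      intro g hg
      induction hg using Algebra.adjoin_induction with
      | mem g hg => exact hxy g hg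
      | algebraMap r => rfl
      | add a b _ _ ha hb => simp [ha, hb]
      | mul a b _ _ ha hb => simp [ha, hb]
    exact hall _ (hle i h hh)
  · intro g hg
    obtain ⟨i, g, hgG, rfl⟩ := Set.mem_iUnion.mp hg
    obtain ⟨n, a, b, hab⟩ := exists_sum_of_mem_boxAlg ((O i).comul_mem g (hmem i g hgG))
    exact mem_boxAlg_of_sum Finset.univ (fun k => ⟨_, hle i _ (a k).2⟩)
      (fun k => ⟨_, hle i _ (b k).2⟩) fun x y => by simp [hab]

/-- Galois-stable subgroups. -/
theorem HasFlatModel.of_injective {N : Type} [AddCommGroup N] [Finite N] {actN : Γℚ → N → N}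
    (hN : HasFlatModel ℓ N actN) (f : M →+ N) (hinj : Function.Injective f)
    (hf : ∀ σ m, f (act σ m) = actN σ (f m)) : HasFlatModel ℓ M act := by
  exact hasFlatModel_of_jointly_injective (ι := Unit) (N := fun _ => N) (fun _ => hN)
    (fun _ => f) (fun _ => hf) fun x y h => hinj (h ())

/-- Galois-equivariant quotients. -/
theorem HasFlatModel.of_surjective {N : Type} [AddCommGroup N] {actN : Γℚ → N → N}
    (hM : HasFlatModel ℓ M act) (q : M →+ N) (hq : Function.Surjective q)
    (hcomm : ∀ σ m, q (act σ m) = actN σ (q m)) : HasFlatModel ℓ N actN := by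
  classical
  cases nonempty_fintype M
  have : Finite N := Finite.of_surjective q hq
  cases nonempty_fintype N
  obtain ⟨O⟩ := exists_order_of_hasFlatModel hM
  have hbij : ∀ σ, Function.Bijective (act σ) := fun σ =>
    ⟨act_injective O.alg O.equivariant O.separates σ,
      Finite.surjective_of_injective (act_injective O.alg O.equivariant O.separates σ)⟩
  have hN : ∀ σ, Function.Bijective (actN σ) := fun σ => by
    have hs : Function.Surjective (actN σ) := fun u => by
      obtain ⟨m, rfl⟩ := hq u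
      obtain ⟨m', rfl⟩ := (hbij σ).2 m
      exact ⟨q m', (hcomm σ m').symm⟩
    exact ⟨Finite.injective_iff_surjective.mpr hs, hs⟩
  set π : (N → ℚbar) →ₐ[GaloisRep.ratLocalizedAt ℓ] (M → ℚbar) := pullFun _ q with hπ
  have hπinj : Function.Injective π := fun g g' h => funext fun u => by
    obtain ⟨m, rfl⟩ := hq u; exact congrFun h m
  set A := O.alg.comap π with hA
  have hfin : Module.Finite (GaloisRep.ratLocalizedAt ℓ) A := by
    have := ratLocalizedAt_isPrincipal ℓ
    have := O.finite
    exact Module.Finite.of_injective (((π.comp A.val).codRestrict O.alg fun g => g.2).toLinearMap)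
      fun g g' h => Subtype.ext (hπinj (congrArg Subtype.val h))
  have hequiv : ∀ g ∈ A, ∀ σ u, g (actN σ u) = σ (g u) := by
    intro g hg σ u
    obtain ⟨m, rfl⟩ := hq u
    rw [← hcomm]
    exact O.equivariant _ hg σ m
  have hsep : ∀ u v : N, (∀ g ∈ A, g u = g v) → u = v := by
    intro u v huv
    by_contra hne
    let T : (M → ℚbar) →ₗ[ℚbar] (N → ℚbar) :=
      { toFun := fun h w => ∑ m ∈ Finset.univ.filter (fun m => q m = w), h m
        map_add' := fun a b => funext fun w => by simp [Finset.sum_add_distrib]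
        map_smul' := fun c a => funext fun w => by simp [Finset.mul_sum] }
    have hT : ∀ h ∈ O.alg, T h u = T h v := by
      intro h hh
      have heq : ∀ σ m, π (T h) (act σ m) = σ (π (T h) m) := by
        intro σ m
        show ∑ m' ∈ Finset.univ.filter (fun m' => q m' = q (act σ m)), h m'
          = σ (∑ m' ∈ Finset.univ.filter (fun m' => q m' = q m), h m')
        rw [map_sum]
        refine (Finset.sum_bij (fun m' _ => act σ m') ?_ (fun a _ b _ h => (hbij σ).1 h) ?_
          (fun a _ => (O.equivariant h hh σ a).symm)).symm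
        · intro a ha
          simp only [Finset.mem_filter, Finset.mem_univ, true_and] at ha ⊢
          rw [hcomm, hcomm, ha]
        · intro b hb
          obtain ⟨a, rfl⟩ := (hbij σ).2 b
          simp only [Finset.mem_filter, Finset.mem_univ, true_and] at hb
          rw [hcomm, hcomm] at hb
          exact ⟨a, by simp [(hN σ).1 hb], rfl⟩
      obtain ⟨d, hd0, hd⟩ := O.exists_natCast_mul_mem _ heq
      have := huv ((d : N → ℚbar) * T h) (by
        show π _ ∈ O.alg
        rw [map_mul, map_natCast]; exact hd)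
      simp only [Pi.mul_apply, Pi.natCast_apply] at this
      exact mul_left_cancel₀ (Nat.cast_ne_zero.mpr hd0) this
    obtain ⟨m, hm⟩ := hq u
    have h1 : ∀ h : M → ℚbar, T h u = T h v := by
      intro h
      have hh : h ∈ Submodule.span ℚbar (O.alg : Set (M → ℚbar)) := by
        rw [span_eq_top_of_separates O.alg O.separates]; trivial
      induction hh using Submodule.span_induction with
      | mem x hx => exact hT x hx
      | zero => simp
      | add x y _ _ hx hy => simp [hx, hy]
      | smul c x _ hx => simp [hx]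
    have := h1 (Pi.single m 1)
    simp [T, Finset.sum_pi_single', Finset.mem_filter, hm, hne] at this
  obtain ⟨k, e, E, hE⟩ := exists_basis A hfin hequiv hsep
  obtain ⟨n, b, B, hB⟩ := exists_basis O.alg O.finite O.equivariant O.separates
  refine HopfOrder.hasFlatModel ⟨A, hfin, hequiv, hsep, fun g hg => ?_⟩
  obtain ⟨N₀, a, c, hac⟩ := exists_sum_of_mem_boxAlg (O.comul_mem (π g) hg)
  set d : Fin n → O.alg := fun i => ∑ j, b.repr (a j) i • c j with hd
  have hF : ∀ x y, π g (x + y) = ∑ i, (b i : M → ℚbar) x * (d i : M → ℚbar) y := by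
    intro x y
    rw [hac]
    have : ∀ j, (a j : M → ℚbar) x = ∑ i, b.repr (a j) i • (b i : M → ℚbar) x := fun j => by
      refine (congrFun (congrArg Subtype.val (b.sum_repr (a j))).symm x).trans ?_
      rw [AddSubmonoidClass.coe_finsetSum, Finset.sum_apply]
      rfl
    simp only [this, hd, Finset.sum_mul, AddSubmonoidClass.coe_finsetSum, Finset.sum_apply,
      SetLike.val_smul, Pi.smul_apply, Finset.mul_sum, smul_mul_assoc, mul_smul_comm]
    exact Finset.sum_comm
  have hinv : ∀ i κ y, q κ = 0 → (d i : M → ℚbar) (y + κ) = (d i : M → ℚbar) y := by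
    intro i κ y hκ
    have h0 : ∑ j, ((d j : M → ℚbar) (y + κ) - (d j : M → ℚbar) y) • B j = 0 := by
      funext x
      simp only [Finset.sum_apply, Pi.smul_apply, smul_eq_mul, Pi.zero_apply, mul_sub,
        Finset.sum_sub_distrib, hB, mul_comm _ ((b _ : M → ℚbar) x)]
      rw [← hF x (y + κ), ← hF x y, sub_eq_zero]
      simp [hπ, hκ]
    exact sub_eq_zero.mp (Fintype.linearIndependent_iff.mp B.linearIndependent _ h0 i)
  have hdesc : ∀ (h : M → ℚbar), (∀ κ y, q κ = 0 → h (y + κ) = h y) →
      π (h ∘ Function.surjInv hq) = h := by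
    intro h hh
    funext y
    have := hh (Function.surjInv hq (q y) - y) y (by simp [Function.surjInv_eq hq])
    simpa [hπ] using this
  have hgA : ∀ i, ((d i : M → ℚbar) ∘ Function.surjInv hq) ∈ A := fun i => by
    show π _ ∈ O.alg
    rw [hdesc _ (hinv i)]; exact (d i).2
  set g' : Fin n → A := fun i => ⟨_, hgA i⟩ with hg'
  set α : Fin k → O.alg := fun j => ∑ i, e.repr (g' i) j • b i with hα
  have hF2 : ∀ x v, g (q x + v) = ∑ j, (α j : M → ℚbar) x * (e j : N → ℚbar) v := by
    intro x v
    obtain ⟨y, rfl⟩ := hq v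
    rw [← map_add, ← pullFun_apply (GaloisRep.ratLocalizedAt ℓ) q g (x + y), ← hπ, hF]
    have : ∀ i, (d i : M → ℚbar) y = ∑ j, e.repr (g' i) j • (e j : N → ℚbar) (q y) := fun i => by
      rw [← congrFun (hdesc _ (hinv i)) y]
      show (g' i : N → ℚbar) (q y) = _
      refine (congrFun (congrArg Subtype.val (e.sum_repr (g' i))).symm (q y)).trans ?_
      rw [AddSubmonoidClass.coe_finsetSum, Finset.sum_apply]
      rfl
    simp only [this, hα, Finset.sum_mul, AddSubmonoidClass.coe_finsetSum, Finset.sum_apply,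
      SetLike.val_smul, Pi.smul_apply, Finset.mul_sum, smul_mul_assoc, mul_smul_comm]
    exact Finset.sum_comm
  have hαinv : ∀ j κ x, q κ = 0 → (α j : M → ℚbar) (x + κ) = (α j : M → ℚbar) x := by
    intro j κ x hκ
    have h0 : ∑ i, ((α i : M → ℚbar) (x + κ) - (α i : M → ℚbar) x) • E i = 0 := by
      funext v
      simp only [Finset.sum_apply, Pi.smul_apply, smul_eq_mul, Pi.zero_apply, sub_mul,
        Finset.sum_sub_distrib, hE]
      rw [← hF2, ← hF2, map_add, hκ, add_zero, sub_self]
    exact sub_eq_zero.mp (Fintype.linearIndependent_iff.mp E.linearIndependent _ h0 j)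
  refine mem_boxAlg_of_sum Finset.univ
    (fun j => (⟨(α j : M → ℚbar) ∘ Function.surjInv hq, ?_⟩ : A)) e fun u v => ?_
  · show π _ ∈ O.alg
    rw [hdesc _ (hαinv j)]; exact (α j).2
  · obtain ⟨x, rfl⟩ := hq u
    rw [show g (q x + v) = _ from hF2 x v]
    exact Finset.sum_congr rfl fun j _ => by
      rw [← congrFun (hdesc _ (hαinv j)) x]; rfl

/-- Finite powers. -/
theorem HasFlatModel.pi_const (hM : HasFlatModel ℓ M act) (ι : Type) [Finite ι] :
    HasFlatModel ℓ (ι → M) (fun σ v i => act σ (v i)) := by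
  exact hasFlatModel_of_jointly_injective (N := fun _ => M) (fun _ => hM)
    (fun i => Pi.evalAddMonoidHom (fun _ : ι => M) i) (fun i σ v => rfl) fun x y h => funext h

end Fermat.Agent.FlatModel
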