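/-
Primes of `ℚ̄` seen from the ring of integers of an open subgroup of the Galois group
containing the inertia group.
-/
import Fermat.Agent.Flat.JacobianArith

set_option autoImplicit false

open scoped Pointwise

namespace Fermat.Agent.FlatModel.JacCentre

local notation "ℚbar" => AlgebraicClosure ℚ
local notation "Γℚ" => AlgebraicClosure ℚ ≃ₐ[ℚ] AlgebraicClosure ℚ
local notation "𝓞bar" => integralClosure ℤ (AlgebraicClosure ℚ)

/-- the algebraic integers fixed by `U` -/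
noncomputable abbrev fixedInts (U : Subgroup Γℚ) : Subalgebra ℤ (integralClosure ℤ ℚbar) :=
  FixedPoints.subalgebra ℤ (integralClosure ℤ ℚbar) U

variable {ℓ : ℕ} [Fact ℓ.Prime] {A : ValuationSubring (AlgebraicClosure ℚ)} (hA : A.LiesOverPrime ℓ)
  {U : Subgroup (AlgebraicClosure ℚ ≃ₐ[ℚ] AlgebraicClosure ℚ)}
  (hU : IsOpen (U : Set (AlgebraicClosure ℚ ≃ₐ[ℚ] AlgebraicClosure ℚ)))
  (hIU : A.inertiaSubgroupIn ℚ ≤ U)

section Action

local instance intTopology : TopologicalSpace (integralClosure ℤ ℚbar) := ⊥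
local instance intDiscrete : DiscreteTopology (integralClosure ℤ ℚbar) := ⟨rfl⟩

local instance intContinuousSMul : ContinuousSMul Γℚ (integralClosure ℤ ℚbar) := by
  rw [continuousSMul_iff_stabilizer_isOpen]
  intro b
  have : MulAction.stabilizer Γℚ b = MulAction.stabilizer Γℚ (b : ℚbar) := by
    ext σ; simp [Subtype.ext_iff]
  rw [this]
  exact stabilizer_isOpen_of_isIntegral _

local instance subContinuousSMul (V : Subgroup Γℚ) : ContinuousSMul V (integralClosure ℤ ℚbar) :=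
  ⟨(continuous_smul (M := Γℚ) (X := integralClosure ℤ ℚbar)).comp
    ((continuous_subtype_val.comp continuous_fst).prodMk continuous_snd)⟩

local instance fixedInvariant (V : Subgroup Γℚ) :
    Algebra.IsInvariant (fixedInts V) (integralClosure ℤ ℚbar) V :=
  ⟨fun b hb => ⟨⟨b, hb⟩, rfl⟩⟩

local instance fixedSMulComm (V : Subgroup Γℚ) :
    SMulCommClass V (fixedInts V) (integralClosure ℤ ℚbar) :=
  ⟨fun v b x => by
    change v • ((b : 𝓞bar) * x) = (b : 𝓞bar) * v • x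
    rw [smul_mul', b.2 v]⟩

theorem smul_centre {g : Γℚ} (hg : g ∈ A.decompositionSubgroup ℚ) :
    g • Galois.centre A = Galois.centre A := by
  ext x
  have hgA : g • A = A := MulAction.mem_stabilizer_iff.1 hg
  rw [Ideal.mem_pointwise_smul_iff_inv_smul_mem, Galois.mem_centre, Galois.mem_centre,
    integralClosure.coe_smul, ← Galois.mem_smul_nonunits, hgA]

include hU hIU in
/-- an element of the decomposition group fixing the residues of the `U`-fixed integers is in `U` -/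
theorem mem_of_forall_sub_mem {g : Γℚ} (hg : g ∈ A.decompositionSubgroup ℚ)
    (h : ∀ b : fixedInts U, g ((b : 𝓞bar) : ℚbar) - ((b : 𝓞bar) : ℚbar) ∈ A.nonunits) :
    g ∈ U := by
  have : CompactSpace U := isCompact_iff_compactSpace.1 (U.isClosed_of_isOpen hU).isCompact
  set Q := Galois.centre A with hQ
  have hgQ : g • Q = Q := smul_centre hg
  let P : Ideal (fixedInts U) := Q.under (fixedInts U)
  have : Q.LiesOver P := ⟨rfl⟩
  let F0 : (𝓞bar ⧸ Q) ≃+* (𝓞bar ⧸ Q) :=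
    Ideal.quotientEquiv Q Q (MulSemiringAction.toRingEquiv Γℚ 𝓞bar g) (by
      rw [← RingEquiv.toRingHom_eq_coe]; exact hgQ.symm)
  let F : (𝓞bar ⧸ Q) ≃ₐ[fixedInts U ⧸ P] (𝓞bar ⧸ Q) :=
    AlgEquiv.ofRingEquiv (f := F0) fun r => by
      obtain ⟨b, rfl⟩ := Ideal.Quotient.mk_surjective r
      change F0 (Ideal.Quotient.mk Q (b : 𝓞bar)) = Ideal.Quotient.mk Q (b : 𝓞bar)
      rw [show F0 (Ideal.Quotient.mk Q (b : 𝓞bar)) = Ideal.Quotient.mk Q (g • (b : 𝓞bar)) from rfl,
        Ideal.Quotient.eq, hQ, Galois.mem_centre]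
      exact h b
  obtain ⟨⟨u, hu⟩, hu'⟩ :=
    Ideal.Quotient.stabilizerHom_surjective_of_profinite (G := U) P Q F
  have huQ : (u : Γℚ) • Q = Q := MulAction.mem_stabilizer_iff.1 hu
  have huD : (u : Γℚ) ∈ A.decompositionSubgroup ℚ :=
    MulAction.mem_stabilizer_iff.mpr (Galois.smul_eq_of_centre _ A A huQ)
  have hI : (u : Γℚ)⁻¹ * g ∈ A.inertiaSubgroupIn ℚ := by
    refine JacArith.mem_inertia_of_forall A (mul_mem (inv_mem huD) hg) fun c hc => ?_
    have h1 := DFunLike.congr_fun hu' (Ideal.Quotient.mk Q ⟨c, hc⟩)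
    replace h1 : Ideal.Quotient.mk Q ((u : Γℚ) • (⟨c, hc⟩ : 𝓞bar)) =
        Ideal.Quotient.mk Q (g • (⟨c, hc⟩ : 𝓞bar)) := h1
    rw [Ideal.Quotient.eq, hQ] at h1
    have h2 := Ideal.smul_mem_pointwise_smul (u : Γℚ)⁻¹ _ _ h1
    rw [← hQ, show (u : Γℚ)⁻¹ • Q = Q from by rw [inv_smul_eq_iff, huQ]] at h2
    rw [hQ, smul_sub, inv_smul_smul, ← mul_smul] at h2
    rw [← Ideal.neg_mem_iff, neg_sub, Galois.mem_centre] at h2
    exact h2
  simpa using mul_mem u.2 (hIU hI)

include hA hU in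
/-- a `U`-fixed integer which is a unit at `A` and in the maximal ideal at every conjugate of `A`
outside the `U`-orbit -/
theorem exists_separator :
    ∃ e : fixedInts U, ((e : 𝓞bar) : ℚbar) ∉ A.nonunits ∧
      ∀ σ : Γℚ, σ ((e : 𝓞bar) : ℚbar) ∉ A.nonunits →
        ∃ d ∈ A.decompositionSubgroup ℚ, d⁻¹ * σ ∈ U := by
  classical
  have hℓ : ℓ.Prime := Fact.out
  have : CompactSpace U := isCompact_iff_compactSpace.1 (U.isClosed_of_isOpen hU).isCompact
  let R := fixedInts U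
  have hint : Algebra.IsIntegral ℤ R :=
    ⟨fun x => (isIntegral_algHom_iff R.val Subtype.coe_injective).1 (Algebra.IsIntegral.isIntegral _)⟩
  let p : Γℚ → Ideal R := fun σ => (Galois.centre (σ⁻¹ • A)).under R
  have hover : ∀ σ : Γℚ, (σ⁻¹ • A).LiesOverPrime ℓ := fun σ => by
    rw [ValuationSubring.LiesOverPrime, Galois.mem_smul_nonunits, inv_inv, AlgEquiv.smul_def,
      map_natCast]
    exact hA
  have hmem : ∀ (σ : Γℚ) (b : R), b ∈ p σ ↔ σ ((b : 𝓞bar) : ℚbar) ∈ A.nonunits := by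
    intro σ b
    rw [Ideal.mem_comap, Galois.mem_centre, Galois.mem_smul_nonunits, inv_inv, AlgEquiv.smul_def]
    rfl
  have hmax : ∀ σ, (p σ).IsMaximal := by
    intro σ
    have h1 : (Ideal.span {(ℓ : ℤ)}).IsMaximal :=
      PrincipalIdealRing.isMaximal_of_irreducible (Nat.prime_iff_prime_int.1 hℓ).irreducible
    refine Ideal.isMaximal_of_isIntegral_of_isMaximal_comap (R := ℤ) (p σ) ?_
    rw [Ideal.comap_comap]
    rwa [Galois.centre_under hℓ (hover σ)] at h1
  have hchoice : ∀ q : Γℚ ⧸ U, ∃ e : R, e ∉ p 1 ∧ (p q.out ≠ p 1 → e ∈ p q.out) := by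
    intro q
    by_cases h : p q.out = p 1
    · exact ⟨1, fun hh => (hmax 1).ne_top ((Ideal.eq_top_iff_one _).2 hh), fun hne => absurd h hne⟩
    · obtain ⟨e, he, he1⟩ := SetLike.not_le_iff_exists.1
        (fun hle => h ((hmax q.out).eq_of_le (hmax 1).ne_top hle))
      exact ⟨e, he1, fun _ => he⟩
  choose e he1 he2 using hchoice
  have : DiscreteTopology (Γℚ ⧸ U) := QuotientGroup.discreteTopology hU
  have : Finite (Γℚ ⧸ U) := finite_of_compact_of_discrete
  have : Fintype (Γℚ ⧸ U) := Fintype.ofFinite _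
  refine ⟨∏ q, e q, ?_, fun σ hσ => ?_⟩
  · rw [← show (1 : Γℚ) _ = ((∏ q, e q : R) : 𝓞bar).1 from rfl, ← hmem 1]
    intro hh
    obtain ⟨q, -, hq⟩ := (Ideal.IsPrime.prod_mem_iff (hp := (hmax 1).isPrime)).1 hh
    exact he1 q hq
  rw [← hmem σ] at hσ
  obtain ⟨v, hv⟩ : ∃ v : U, σ = (QuotientGroup.mk σ : Γℚ ⧸ U).out * v := by
    obtain ⟨v, hv⟩ := QuotientGroup.mk_out_eq_mul U σ
    exact ⟨v⁻¹, by rw [hv]; simp⟩
  set q : Γℚ ⧸ U := QuotientGroup.mk σ
  have hpq : p σ = p q.out := by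
    ext b
    rw [hmem, hmem, hv, AlgEquiv.mul_apply]
    have := congrArg (fun z : 𝓞bar => (z : ℚbar)) (b.2 v)
    rw [show (v : Γℚ) ((b : 𝓞bar) : ℚbar) = ((b : 𝓞bar) : ℚbar) from this]
  have hp1 : p q.out = p 1 := by
    by_contra hne
    rw [hpq] at hσ
    exact hσ (Ideal.prod_mem _ (Finset.mem_univ q) (he2 q hne))
  obtain ⟨u, hu⟩ := Algebra.IsInvariant.exists_smul_of_under_eq_of_profinite (A := R) (G := U)
    (Galois.centre ((1 : Γℚ)⁻¹ • A)) (Galois.centre (σ⁻¹ • A)) (hpq.trans hp1).symm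
  rw [inv_one, one_smul] at hu
  have huA := Galois.smul_eq_of_centre (u : Γℚ) A (σ⁻¹ • A) hu.symm
  refine ⟨σ * u, MulAction.mem_stabilizer_iff.2 (by rw [mul_smul, huA, smul_inv_smul]), ?_⟩
  simp

end Action

end Fermat.Agent.FlatModel.JacCentre
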