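/-
Normalised coordinates of families `L (R - D x)`: existence, membership in algebras over which
the family is regular, behaviour under the Galois group.
-/
import Fermat.Agent.Flat.JacobianBase

set_option autoImplicit false

open scoped Pointwise

namespace Fermat.Agent.FlatModel.JacCoord

open AlgebraicCurve Fermat.Agent.Curve Fermat.Agent.Curve.GoodReduction Module
  JacSpaces JacLattice JacSetting JacLinAlg
open scoped Matrix

local notation "L" => riemannRochSpace
local notation "ℚbar" => AlgebraicClosure ℚ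
local notation "Γℚ" => AlgebraicClosure ℚ ≃ₐ[ℚ] AlgebraicClosure ℚ

variable {ℓ : ℕ} [Fact ℓ.Prime] {F : Type} [Field F] [Algebra (AlgebraicClosure ℚ) F]
  [IsFunctionFieldOne (AlgebraicClosure ℚ) F] {𝔖 : Setting ℓ F}
  {R : Divisor (AlgebraicClosure ℚ) F} {ι : Type} [Fintype ι] {r : ℕ}

/-- `B` is the normalised basis of the coordinates of `L E` -/
structure CoordAt (Λ : Lat 𝔖.G R ι) (E : Divisor ℚbar F) (Y : Matrix (Fin r) ι ℚbar)
    (B : Matrix ι (Fin r) ℚbar) : Prop where
  norm : Y * B = 1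
  space : (LinearMap.range B.mulVecLin).map Λ.toF = L E

omit [Fact ℓ.Prime] in
theorem CoordAt.unique {Λ : Lat 𝔖.G R ι} {E : Divisor ℚbar F} {Y : Matrix (Fin r) ι ℚbar}
    {B B' : Matrix ι (Fin r) ℚbar} (h : CoordAt Λ E Y B) (h' : CoordAt Λ E Y B') : B = B' := by
  classical
  refine eq_of_range_eq_of_mul_eq_one B B' Y h.norm h'.norm ?_
  exact Submodule.map_injective_of_injective Λ.toF_injective (h.space.trans h'.space.symm)

omit [Fact ℓ.Prime] in
/-- transport of coordinates by a Galois element -/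
theorem CoordAt.gal {Λ : Lat 𝔖.G R ι} {E : Divisor ℚbar F} {Y : Matrix (Fin r) ι ℚbar}
    {B : Matrix ι (Fin r) ℚbar} (h : CoordAt Λ E Y B) (σ : Γℚ)
    (hΛ : ∀ i, SemilinearAut.toRingAut (𝔖.gal σ) (Λ.e i : F) = (Λ.e i : F)) :
    CoordAt Λ (𝔖.gal σ • E) (Y.map σ) (B.map σ) := by
  refine ⟨?_, ?_⟩
  · change Y.map (σ : ℚbar →+* ℚbar) * B.map (σ : ℚbar →+* ℚbar) = 1
    rw [← Matrix.map_mul, h.norm, Matrix.map_one _ (map_zero _) (map_one _)]
  · have hcol : ∀ j, Λ.toF ((B.map σ).col j) =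
        SemilinearAut.toRingAut (𝔖.gal σ) (Λ.toF (B.col j)) := fun j => by
      rw [𝔖.gal_toF Λ σ hΛ]; rfl
    rw [map_range_mulVecLin_eq_span]
    simp only [hcol]
    apply le_antisymm
    · rw [Submodule.span_le]
      rintro _ ⟨j, rfl⟩
      refine toRingAut_mem_L _ ?_
      rw [← h.space, map_range_mulVecLin_eq_span]
      exact Submodule.subset_span ⟨j, rfl⟩
    · intro f hf
      obtain ⟨f0, rfl⟩ := (SemilinearAut.toRingAut (𝔖.gal σ)).surjective f
      rw [toRingAut_mem_L_iff, ← h.space, map_range_mulVecLin_eq_span] at hf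
      induction hf using Submodule.span_induction with
      | mem f hf => obtain ⟨j, rfl⟩ := hf; exact Submodule.subset_span ⟨j, rfl⟩
      | zero => simp
      | add a b _ _ ha hb => rw [map_add]; exact add_mem ha hb
      | smul c a _ ha => rw [𝔖.toRingAut_smul]; exact Submodule.smul_mem _ _ ha

/-- an `A`-integral family of normalised coordinates -/
def IsCoord {X : Type} (Λ : Lat 𝔖.G R ι) (D : X → Divisor ℚbar F)
    (Y : Matrix (Fin r) ι 𝔖.A) (B : X → Matrix ι (Fin r) 𝔖.A) : Prop :=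
  ∀ x, CoordAt Λ (R - D x) (Y.map 𝔖.A.subtype) ((B x).map 𝔖.A.subtype)

omit [Fact ℓ.Prime] in
theorem IsCoord.norm_integral {X : Type} {Λ : Lat 𝔖.G R ι} {D : X → Divisor ℚbar F}
    {Y : Matrix (Fin r) ι 𝔖.A} {B : X → Matrix ι (Fin r) 𝔖.A} (h : IsCoord Λ D Y B) (x : X) :
    Y * B x = 1 := by
  refine Matrix.map_injective (f := 𝔖.A.subtype) Subtype.coe_injective ?_
  show (Y * B x).map 𝔖.A.subtype = (1 : Matrix (Fin r) (Fin r) 𝔖.A).map 𝔖.A.subtype
  rw [Matrix.map_mul, Matrix.map_one _ (map_zero _) (map_one _)]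
  exact (h x).norm

variable (R) in
/-- the dimension of the spaces `L (R - D x)` for `D x` of degree `g` -/
noncomputable def dimW : ℕ :=
  (Divisor.degree R - 2 * (genusFF ℚbar F : ℤ) + 1).toNat

section Family

variable {X : Type} (Λ : Lat 𝔖.G R ι) (D : X → Divisor ℚbar F)
  (hdeg : ∀ x, Divisor.degree (D x) = (genusFF ℚbar F : ℤ))
  (hR : 5 * (genusFF ℚbar F : ℤ) + 1 ≤ Divisor.degree R)

include hdeg hR

omit [Fact ℓ.Prime] in
theorem finrank_gen (x : X) : finrank ℚbar ↥(L (R - D x)) = dimW R := by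
  have := (rrFormula ℚbar F).finrank_eq (R - D x) (by rw [map_sub, hdeg]; omega)
  rw [map_sub, hdeg] at this
  unfold dimW
  omega

omit [Fact ℓ.Prime] in
theorem finrank_special (x : X) :
    finrank 𝔖.k ↥(L (𝔖.G.divMap (R - D x))) = dimW R := by
  have := (rrFormula_special 𝔖.G).finrank_eq (𝔖.G.divMap (R - D x))
    (by rw [𝔖.G.degree_divMap, map_sub, hdeg]; omega)
  rw [𝔖.G.degree_divMap, show Divisor.degree (R - D x) = Divisor.degree R - genusFF ℚbar F by
    rw [map_sub, hdeg]] at this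
  unfold dimW
  exact Nat.cast_injective (R := ℤ) (this.trans (by omega))

omit [Fact ℓ.Prime] in
/-- coordinates lying in an algebra present the family over it -/
theorem presents_of_isCoord {Y : Matrix (Fin (dimW R)) ι 𝔖.A}
    {B : X → Matrix ι (Fin (dimW R)) 𝔖.A} (hB : IsCoord Λ D Y B) (S : Subalgebra 𝔖.A (X → 𝔖.A))
    (M : Matrix ι (Fin (dimW R)) S) (hM : ∀ x, M.map (ev S x) = B x) :
    Presents S Λ (fun x => R - D x) M := by
  classical
  have hMK : ∀ x, M.map (evK S x) = (B x).map 𝔖.A.subtype := fun x => by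
    rw [← hM x]; rfl
  refine ⟨fun x => by rw [hMK]; exact (hB x).space, fun x => ?_⟩
  rw [hM]
  have := (rrFormula_special 𝔖.G).finite (𝔖.G.divMap (R - D x))
  refine Submodule.eq_of_le_of_finrank_le ?_ ?_
  · rw [map_range_mulVecLin_eq_span, Submodule.span_le]
    rintro _ ⟨j, rfl⟩
    obtain ⟨hV, hφ⟩ := Λ.toF_integral fun i => B x i j
    change Λ.toFb (fun i => 𝔖.G.π (B x i j)) ∈ L (𝔖.G.divMap (R - D x))
    rw [← hφ]
    refine 𝔖.G.φ_mem_riemannRochSpace _ ?_
    show Λ.toF (fun i => ((B x i j : 𝔖.A) : ℚbar)) ∈ L (R - D x)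
    rw [← (hB x).space, map_range_mulVecLin_eq_span]
    exact Submodule.subset_span ⟨j, rfl⟩
  · rw [finrank_special D hdeg hR]
    have hYB : Y.map 𝔖.G.π * (B x).map 𝔖.G.π = 1 := by
      have h1 : Y * B x = 1 := hB.norm_integral x
      rw [← Matrix.map_mul, h1, Matrix.map_one _ (map_zero _) (map_one _)]
    have hinj : Function.Injective ((B x).map 𝔖.G.π).mulVecLin := fun a b hab => by
      have := congrArg (Y.map 𝔖.G.π).mulVec hab
      simpa [Matrix.mulVec_mulVec, hYB] using this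
    rw [← ((LinearMap.range _).equivMapOfInjective _ Λ.toFb_injective).finrank_eq,
      LinearMap.finrank_range_of_inj hinj, Module.finrank_fin_fun]

omit [Fact ℓ.Prime] in
/-- over an algebra where the family is regular, normalised coordinates are in the algebra -/
theorem coord_mem [Finite X] {Y : Matrix (Fin (dimW R)) ι 𝔖.A}
    {B : X → Matrix ι (Fin (dimW R)) 𝔖.A} (hB : IsCoord Λ D Y B) {S : Subalgebra 𝔖.A (X → 𝔖.A)}
    (hreg : Regular S Λ fun x => R - D x) (i : ι) (j : Fin (dimW R)) :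
    (fun x => B x i j) ∈ S := by
  classical
  have htop := presents_of_isCoord Λ D hdeg hR hB ⊤
    (Matrix.of fun i j => ⟨fun x => B x i j, Algebra.mem_top⟩) (fun x => rfl)
  obtain ⟨B', hYB', hB'⟩ := hreg.exists_normalised (fun x => (finrank_gen D hdeg hR x).le)
    (finrank_special D hdeg hR) Y fun x v hv hYv => by
      rw [← htop.special x] at hv
      obtain ⟨w, ⟨u, hu⟩, hwv⟩ := hv
      rw [← Λ.toFb_injective hwv, ← hu, Matrix.mulVecLin_apply] at hYv ⊢
      rw [Matrix.mulVec_mulVec] at hYv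
      have h1 : Y * B x = 1 := hB.norm_integral x
      rw [show Y.map 𝔖.G.π * ((Matrix.of fun i j =>
          (⟨fun x => B x i j, Algebra.mem_top⟩ : (⊤ : Subalgebra 𝔖.A (X → 𝔖.A)))).map
          (ev ⊤ x)).map 𝔖.G.π = (Y * B x).map 𝔖.G.π by rw [Matrix.map_mul]; rfl,
        h1, Matrix.map_one _ (map_zero _) (map_one _), Matrix.one_mulVec] at hYv
      rw [hYv, Matrix.mulVec_zero]
  suffices h : (fun x => B x i j) = (B' i j : X → 𝔖.A) by rw [h]; exact (B' i j).2
  funext x
  have hx : CoordAt Λ (R - D x) (Y.map 𝔖.A.subtype) (B'.map (evK S x)) := by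
    refine ⟨?_, hB'.gen x⟩
    have h := congrArg (fun N : Matrix _ _ S => N.map (evK S x)) hYB'
    simp only [Matrix.map_mul, Matrix.map_one _ (map_zero _) (map_one _)] at h
    exact h
  apply Subtype.ext
  exact congrFun (congrFun ((hB x).unique hx) i) j

/-- coordinates with inertia-fixed normalisation exist -/
theorem exists_coord [Finite X] (hDpos : ∀ x, 0 ≤ D x) :
    ∃ (Y : Matrix (Fin (dimW R)) ι 𝔖.A) (B : X → Matrix ι (Fin (dimW R)) 𝔖.A),
      IsCoord Λ D Y B ∧
      ∀ σ ∈ 𝔖.A.inertiaSubgroupIn ℚ, ∀ i j, σ ((Y i j : 𝔖.A) : ℚbar) = ((Y i j : 𝔖.A) : ℚbar) := by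
  classical
  have hbasis : ∀ x, ∃ e : Fin (dimW R) → 𝔖.G.V, (∀ j, (e j : F) ∈ L (R - D x)) ∧
      Submodule.span ℚbar (Set.range fun j => (e j : F)) = L (R - D x) ∧
      LinearIndependent 𝔖.k fun j => 𝔖.G.φ (e j) := by
    intro x
    obtain ⟨Λx⟩ := exists_lat 𝔖.G (rrFormula ℚbar F) (rrFormula_special 𝔖.G) (R - D x)
      (by rw [map_sub, hdeg]; omega)
    let c := finCongr (finrank_gen D hdeg hR x).symm
    refine ⟨fun j => Λx.e (c j), fun j => Λx.mem _, ?_, Λx.indep.comp _ c.injective⟩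
    rw [show (Set.range fun j => (Λx.e (c j) : F)) = Set.range fun i => (Λx.e i : F) from
      c.surjective.range_comp (fun i => (Λx.e i : F))]
    rw [← Fintype.range_linearCombination]
    exact Λx.range_toF
  choose e he hespan heind using hbasis
  have hmem : ∀ x j, (e x j : F) ∈ L R := fun x j =>
    RedAux.L_mono (sub_le_self _ (hDpos x)) (he x j)
  let N : X → Matrix ι (Fin (dimW R)) 𝔖.A := fun x =>
    Matrix.of fun i j => Λ.coord (e x j) (hmem x j) i
  have hNb : ∀ x j, Λ.toFb (((N x).map 𝔖.G.π).col j) = 𝔖.G.φ (e x j) := fun x j =>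
    Λ.toFb_coord (e x j) (hmem x j)
  have hNk : ∀ x, dimW R ≤ ((N x).map 𝔖.G.π).rank := by
    intro x
    have hind : LinearIndependent 𝔖.k ((N x).map 𝔖.G.π).col := by
      refine LinearIndependent.of_comp Λ.toFb ?_
      rw [show Λ.toFb ∘ ((N x).map 𝔖.G.π).col = fun j => 𝔖.G.φ (e x j) from funext (hNb x)]
      exact heind x
    rw [Matrix.rank, Matrix.range_mulVecLin, finrank_span_eq_card hind, Fintype.card_fin]
  obtain ⟨Yb, hYb⟩ := exists_common_left_inverse (fun x => (N x).map 𝔖.G.π) hNk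
  choose z hz hzI using fun p : Fin (dimW R) × ι => JacBase.exists_lift_fixed 𝔖.over (Yb p.1 p.2)
  let Y : Matrix (Fin (dimW R)) ι 𝔖.A := Matrix.of fun i j => z (i, j)
  have hY : Y.map 𝔖.G.π = Yb := by
    ext i j
    simp [Y, 𝔖.π_eq, hz]
  have hu : ∀ x, IsUnit (Y * N x).det := by
    intro x
    by_contra h
    apply hYb x
    rw [← hY, ← Matrix.map_mul]
    exact ((RingHom.map_det 𝔖.G.π (Y * N x)).symm).trans ((𝔖.G.π_eq_zero_iff _).2 h)
  refine ⟨Y, fun x => N x * (Y * N x)⁻¹, fun x => ?_, fun σ hσ i j => hzI (i, j) σ hσ⟩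
  have hnorm : Y * (N x * (Y * N x)⁻¹) = 1 := by
    rw [← Matrix.mul_assoc, Matrix.mul_nonsing_inv _ (hu x)]
  refine ⟨by rw [← Matrix.map_mul, hnorm, Matrix.map_one _ (map_zero _) (map_one _)], ?_⟩
  have hrange : LinearMap.range ((N x * (Y * N x)⁻¹).map 𝔖.A.subtype).mulVecLin =
      LinearMap.range ((N x).map 𝔖.A.subtype).mulVecLin := by
    apply le_antisymm
    · rw [Matrix.map_mul, Matrix.mulVecLin_mul]
      exact LinearMap.range_comp_le_range _ _
    · conv_lhs => rw [show N x = N x * (Y * N x)⁻¹ * (Y * N x) by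
        rw [Matrix.mul_assoc, Matrix.nonsing_inv_mul _ (hu x), Matrix.mul_one]]
      rw [Matrix.map_mul, Matrix.mulVecLin_mul]
      exact LinearMap.range_comp_le_range _ _
  rw [hrange, map_range_mulVecLin_eq_span, ← hespan x]
  congr 1
  exact congrArg Set.range (funext fun j => Λ.toF_coord (e x j) (hmem x j))

end Family

end Fermat.Agent.FlatModel.JacCoord
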