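/-
Descent of a lattice of functions on a finite Galois set: an algebra over `A` generated by
functions equivariant for an open subgroup containing inertia and stable under the decomposition
group is spanned by functions equivariant for the whole Galois group.
-/
import Fermat.Agent.Flat.JacobianCentre
import Mathlib.LinearAlgebra.LinearIndependent.Basic
import Mathlib.RingTheory.Nakayama

set_option autoImplicit false

open scoped Pointwise

namespace Fermat.Agent.FlatModel.JacDescent

local notation "ℚbar" => AlgebraicClosure ℚ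
local notation "Γℚ" => AlgebraicClosure ℚ ≃ₐ[ℚ] AlgebraicClosure ℚ
local notation "𝓞bar" => integralClosure ℤ (AlgebraicClosure ℚ)

/-- the twisted Galois action on functions -/
noncomputable def twist {X : Type*} [MulAction Γℚ X] (σ : Γℚ) (g : X → ℚbar) : X → ℚbar :=
  fun x => σ (g (σ⁻¹ • x))

/-- `ℚ̄`-valued function attached to an `A`-valued one -/
noncomputable def toQbar {X : Type*} (A : ValuationSubring ℚbar) :
    (X → A) →+* (X → ℚbar) := A.subtype.compLeft X

@[simp] theorem toQbar_apply {X : Type*} (A : ValuationSubring ℚbar) (g : X → A) (x : X) :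
    toQbar A g x = (g x : ℚbar) := rfl

theorem toQbar_injective {X : Type*} (A : ValuationSubring ℚbar) :
    Function.Injective (toQbar (X := X) A) := fun f g h =>
  funext fun x => Subtype.ext (congrFun h x)

section Twist

variable {X : Type*} [MulAction Γℚ X]

theorem twist_apply (σ : Γℚ) (g : X → ℚbar) (x : X) : twist σ g x = σ (g (σ⁻¹ • x)) := rfl

theorem twist_twist (σ τ : Γℚ) (g : X → ℚbar) : twist σ (twist τ g) = twist (σ * τ) g := by
  funext x
  simp only [twist_apply, mul_inv_rev, mul_smul, AlgEquiv.mul_apply]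

theorem twist_mul (σ : Γℚ) (g h : X → ℚbar) : twist σ (g * h) = twist σ g * twist σ h := by
  funext x; simp [twist_apply]

theorem twist_const_mul (σ : Γℚ) (a : ℚbar) (g : X → ℚbar) :
    twist σ (fun x => a * g x) = fun x => σ a * twist σ g x := by
  funext x; simp [twist_apply]

theorem twist_sum {ι : Type*} (σ : Γℚ) (s : Finset ι) (g : ι → X → ℚbar) :
    twist σ (∑ i ∈ s, g i) = ∑ i ∈ s, twist σ (g i) := by
  funext x; simp [twist_apply, map_sum]

theorem twist_one (σ : Γℚ) : twist σ (1 : X → ℚbar) = 1 := by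
  funext x; simp [twist_apply]

end Twist

variable {ℓ : ℕ} [Fact ℓ.Prime] {A : ValuationSubring (AlgebraicClosure ℚ)} (hA : A.LiesOverPrime ℓ)
  {U : Subgroup (AlgebraicClosure ℚ ≃ₐ[ℚ] AlgebraicClosure ℚ)}
  (hU : IsOpen (U : Set (AlgebraicClosure ℚ ≃ₐ[ℚ] AlgebraicClosure ℚ)))
  (hIU : A.inertiaSubgroupIn ℚ ≤ U)
  {X : Type} [Finite X] [MulAction (AlgebraicClosure ℚ ≃ₐ[ℚ] AlgebraicClosure ℚ) X]
  {ι : Type} [Finite ι] (c : ι → X → A)

include hA

omit hA [Fact ℓ.Prime] [MulAction (AlgebraicClosure ℚ ≃ₐ[ℚ] AlgebraicClosure ℚ) X] [Finite ι] in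
theorem isIntegral_fun (g : X → A) : IsIntegral A g := by
  classical
  have : Fintype X := Fintype.ofFinite X
  refine ⟨∏ x, (Polynomial.X - Polynomial.C (g x)),
    Polynomial.monic_prod_of_monic _ _ fun x _ => Polynomial.monic_X_sub_C _, ?_⟩
  change Polynomial.aeval g _ = 0
  funext y
  simp only [map_prod, map_sub, Polynomial.aeval_X, Polynomial.aeval_C, Pi.zero_apply,
    Finset.prod_apply, Pi.sub_apply]
  exact Finset.prod_eq_zero (Finset.mem_univ y) (sub_self _)

omit [MulAction (AlgebraicClosure ℚ ≃ₐ[ℚ] AlgebraicClosure ℚ) X] [Finite ι] in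
/-- a separating algebra of functions contains a multiple of every function -/
theorem exists_pow_smul_mem (S : Subalgebra A (X → A))
    (hsep : ∀ x y : X, (∀ f ∈ S, f x = f y) → x = y) :
    ∃ M : ℕ, ∀ g : X → A, (ℓ : A) ^ M • g ∈ S := by
  classical
  have : Fintype X := Fintype.ofFinite X
  have hsep' : ∀ x y : X, ∃ f ∈ S, x ≠ y → f x ≠ f y := by
    intro x y
    by_cases h : x = y
    · exact ⟨1, S.one_mem, fun hne => absurd h hne⟩
    · by_contra hh
      push Not at hh
      exact h (hsep x y fun f hf => (hh f hf).2)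
  choose f hfS hf using hsep'
  have hone : ∀ x : X, ∃ M : ℕ, Pi.single x ((ℓ : A) ^ M) ∈ S := by
    intro x
    set D : X → A := ∏ y ∈ Finset.univ.erase x, (f x y - algebraMap A _ (f x y y)) with hD
    have hDS : D ∈ S := S.prod_mem fun y _ => S.sub_mem (hfS x y) (S.algebraMap_mem _)
    have hD0 : ∀ z, z ≠ x → D z = 0 := fun z hz => by
      rw [hD, Finset.prod_apply]
      exact Finset.prod_eq_zero (Finset.mem_erase.2 ⟨hz, Finset.mem_univ z⟩) (sub_self _)
    have hDx : D x ≠ 0 := by
      rw [hD, Finset.prod_apply, Finset.prod_ne_zero_iff]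
      exact fun y hy => sub_ne_zero.2 (hf x y (Finset.ne_of_mem_erase hy).symm)
    obtain ⟨M, a, ha⟩ := JacArith.exists_dvd_pow hA hDx
    refine ⟨M, ?_⟩
    rw [show Pi.single x ((ℓ : A) ^ M) = a • D from ?_]
    · exact S.smul_mem hDS a
    funext z
    by_cases hz : z = x
    · subst hz
      simp [ha, mul_comm]
    · simp [hD0 z hz, hz]
  choose M hM using hone
  refine ⟨∑ x, M x, fun g => ?_⟩
  have hg : (ℓ : A) ^ (∑ x, M x) • g =
      ∑ x, ((ℓ : A) ^ ((∑ y, M y) - M x) * g x) • Pi.single x ((ℓ : A) ^ M x) := by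
    funext z
    simp only [Pi.smul_apply, Finset.sum_apply, smul_eq_mul]
    refine ((Finset.sum_eq_single z (fun y _ hy => by rw [Pi.single_eq_of_ne (Ne.symm hy), mul_zero])
        (fun h => absurd (Finset.mem_univ z) h)).trans ?_).symm
    rw [Pi.single_eq_same, mul_right_comm, ← pow_add,
      Nat.sub_add_cancel (Finset.single_le_sum (fun y _ => Nat.zero_le _) (Finset.mem_univ z))]
  rw [hg]
  exact S.sum_mem fun x _ => S.smul_mem (hM x) _

variable (hcU : ∀ u ∈ U, ∀ i, twist u (toQbar A (c i)) = toQbar A (c i))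
  (hsep : ∀ x y : X, (∀ i, c i x = c i y) → x = y)
  (hD : ∀ d ∈ A.decompositionSubgroup ℚ, ∀ i,
    ∃ s ∈ Algebra.adjoin A (Set.range c), toQbar A s = twist d (toQbar A (c i)))

include hU hIU hcU hsep hD

/-- the algebra is spanned by equivariant functions -/
theorem exists_equivariant_span :
    Submodule.span A {g : X → A | g ∈ Algebra.adjoin A (Set.range c) ∧
      ∀ σ : Γℚ, twist σ (toQbar A g) = toQbar A g} =
      Subalgebra.toSubmodule (Algebra.adjoin A (Set.range c)) := by
  classical
  set S := Algebra.adjoin A (Set.range c) with hS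
  set E := {g : X → A | g ∈ S ∧ ∀ σ : Γℚ, twist σ (toQbar A g) = toQbar A g} with hE
  set SM := Subalgebra.toSubmodule S with hSM
  set m := IsLocalRing.maximalIdeal A
  set W : Submodule A (X → A) := Submodule.span A E ⊔ m • SM with hW
  have hfg : SM.FG := fg_adjoin_of_finite (Set.finite_range c) fun g _ => isIntegral_fun g
  have hEle : Submodule.span A E ≤ SM := Submodule.span_le.2 fun g hg => hg.1
  -- the fixed integers
  obtain ⟨e, he, he'⟩ := JacCentre.exists_separator hA hU
  have : CompactSpace U := isCompact_iff_compactSpace.1 (U.isClosed_of_isOpen hU).isCompact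
  have : DiscreteTopology (Γℚ ⧸ U) := QuotientGroup.discreteTopology hU
  have : Finite (Γℚ ⧸ U) := finite_of_compact_of_discrete
  have : Fintype (Γℚ ⧸ U) := Fintype.ofFinite _
  let R := JacCentre.fixedInts U
  let toK : R →+* ℚbar := (integralClosure ℤ ℚbar).val.toRingHom.comp R.val.toRingHom
  have htoKA : ∀ (b : R) (σ : Γℚ), σ (toK b) ∈ A := fun b σ =>
    Galois.mem_valuationSubring_of_isIntegral A (((b : 𝓞bar).2).map σ.toAlgHom.toRingHom.toIntAlgHom)
  let val : Γℚ → R →+* A := fun σ =>
    ((σ : ℚbar →+* ℚbar).comp toK).codRestrict A.toSubring fun b => htoKA b σ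
  have hfix : ∀ (b : R) (u : U), (u : Γℚ) (toK b) = toK b := fun b u =>
    congrArg (fun z : 𝓞bar => (z : ℚbar)) (b.2 u)
  -- good cosets
  let good : Γℚ ⧸ U → Prop := fun q => ∃ d ∈ A.decompositionSubgroup ℚ, d⁻¹ * q.out ∈ U
  have hrep : ∀ q : {q // good q}, ∃ d ∈ A.decompositionSubgroup ℚ, (QuotientGroup.mk d : Γℚ ⧸ U) = q := by
    rintro ⟨q, d, hd, hdq⟩
    exact ⟨d, hd, by rw [QuotientGroup.eq.2 hdq, QuotientGroup.out_eq']⟩
  choose dq hdq hdqmk using hrep
  -- twisting along a coset
  have hmk : ∀ (σ τ : Γℚ), (QuotientGroup.mk σ : Γℚ ⧸ U) = QuotientGroup.mk τ →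
      ∀ (b : R) i, twist σ (fun x => toK b * toQbar A (c i) x) =
        twist τ (fun x => toK b * toQbar A (c i) x) := by
    intro σ τ h b i
    have hu := QuotientGroup.eq.1 h
    conv_rhs => rw [show τ = σ * (σ⁻¹ * τ) by simp, ← twist_twist, twist_const_mul,
      hfix b ⟨_, hu⟩, hcU _ hu i]
  have hgoodval : ∀ q : {q // good q}, (val (dq q) e : ℚbar) ∉ A.nonunits := by
    intro q h
    apply he
    have h' : (dq q)⁻¹ • ((val (dq q) e : ℚbar)) ∈ A.nonunits := by
      rw [← Galois.mem_smul_nonunits, MulAction.mem_stabilizer_iff.1 (hdq q)]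
      exact h
    rw [AlgEquiv.smul_def] at h'
    simpa [val, toK] using h'
  -- residue characters
  let χ : {q // good q} → (R →+* IsLocalRing.ResidueField A) := fun q =>
    (IsLocalRing.residue A).comp (val (dq q))
  have hχ : Function.Injective fun q => (χ q : R →* IsLocalRing.ResidueField A) := by
    intro q q' h
    apply Subtype.ext
    rw [← hdqmk q, ← hdqmk q', QuotientGroup.eq]
    refine JacCentre.mem_of_forall_sub_mem hU hIU (mul_mem (inv_mem (hdq q)) (hdq q')) fun b => ?_
    have hb := DFunLike.congr_fun h b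
    change IsLocalRing.residue A (val (dq q) b) = IsLocalRing.residue A (val (dq q') b) at hb
    rw [← sub_eq_zero, ← map_sub, IsLocalRing.residue_eq_zero_iff,
      ← ValuationSubring.coe_mem_nonunits_iff] at hb
    have hd2 : ((dq q)⁻¹ • A) = A := inv_smul_eq_iff.2 (MulAction.mem_stabilizer_iff.1 (hdq q)).symm
    have := (Galois.mem_smul_nonunits (dq q)⁻¹ A
      ((dq q)⁻¹ • (((val (dq q') b : A) : ℚbar) - ((val (dq q) b : A) : ℚbar)))).2 (by
        rw [inv_inv, smul_inv_smul]
        have hb' : -((((val (dq q) b : A) - val (dq q') b : A)) : ℚbar) ∈ A.nonunits := by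
          rw [← NegMemClass.coe_neg, ValuationSubring.coe_mem_nonunits_iff, Ideal.neg_mem_iff,
            ← ValuationSubring.coe_mem_nonunits_iff]
          exact hb
        simpa using hb')
    rw [hd2] at this
    simpa [val, toK, smul_sub, AlgEquiv.smul_def] using this
  have hspan : Submodule.span (IsLocalRing.ResidueField A)
      (Set.range fun b : R => fun q : {q // good q} => χ q b) = ⊤ := by
    by_contra hne
    obtain ⟨φ, hφ, hle⟩ := Submodule.exists_le_ker_of_lt_top _ (lt_top_iff_ne_top.2 hne)
    have hli := (linearIndependent_monoidHom R (IsLocalRing.ResidueField A)).comp _ hχ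
    rw [Fintype.linearIndependent_iff] at hli
    have h0 : ∀ q, φ (Pi.single q 1) = 0 := hli (fun q => φ (Pi.single q 1)) (by
      funext b
      have := hle (Submodule.subset_span ⟨b, rfl⟩)
      rw [LinearMap.mem_ker] at this
      simp only at this
      rw [Finset.sum_apply, Pi.zero_apply, ← this]
      conv_rhs => rw [pi_eq_sum_univ (fun q => χ q b), map_sum]
      refine Finset.sum_congr rfl fun q _ => ?_
      rw [map_smul, smul_eq_mul, Pi.smul_apply, smul_eq_mul, mul_comm]
      congr 1
      congr 1
      funext j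
      simp [Pi.single_apply, eq_comm])
    exact hφ (LinearMap.pi_ext' fun q => LinearMap.ext_ring (by simpa using h0 q))
  -- the key step
  have hgen : ∀ i, c i ∈ W := by
    intro i
    have htw : ∀ q : {q // good q}, ∃ s ∈ S, toQbar A s = twist (dq q) (toQbar A (c i)) :=
      fun q => hD _ (hdq q) i
    choose s hs hs' using htw
    let Λ : ({q // good q} → A) →ₗ[A] (X → A) := ∑ q, (LinearMap.proj q).smulRight (s q)
    have hΛ : ∀ a, Λ a = ∑ q, a q • s q := fun a => by simp [Λ]
    have hΛm : ∀ a : {q // good q} → A, (∀ q, a q ∈ m) → Λ a ∈ W := by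
      intro a ha
      rw [hΛ]
      exact W.sum_mem fun q _ => le_sup_right (α := Submodule A (X → A))
        (Submodule.smul_mem_smul (ha q) (hs q))
    -- a large power of the separator kills the other cosets
    obtain ⟨M, hM⟩ := exists_pow_smul_mem hA S
      (fun x y h => hsep x y fun j => h _ (Algebra.subset_adjoin ⟨j, rfl⟩))
    have hbad : ∀ q : Γℚ ⧸ U, ∃ N : ℕ, ¬ good q → ∀ b : R, ∀ n ≥ N,
        ∃ w ∈ W, toQbar A w = twist q.out (fun x => toK (b * e ^ n) * toQbar A (c i) x) := by
      intro q
      by_cases hq : good q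
      · exact ⟨0, fun h => absurd hq h⟩
      have hmem : val q.out e ∈ m := by
        rw [← ValuationSubring.coe_mem_nonunits_iff]
        by_contra hh
        obtain ⟨d, hd, hdu⟩ := he' q.out hh
        exact hq ⟨d, hd, hdu⟩
      obtain ⟨N1, hN1⟩ := JacArith.exists_pow_mem_span hA hmem
      -- bound the values of the twisted coordinate
      have hval : ∀ x : X, ∃ L : ℕ, (ℓ : ℚbar) ^ L * twist q.out (toQbar A (c i)) x ∈ A := by
        intro x
        set v := twist q.out (toQbar A (c i)) x
        rcases A.mem_or_inv_mem v with hv | hv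
        · exact ⟨0, by simpa using hv⟩
        · by_cases hv0 : v = 0
          · exact ⟨0, by simp [hv0]⟩
          obtain ⟨L, a, ha⟩ := JacArith.exists_dvd_pow hA (a := ⟨v⁻¹, hv⟩)
            (fun h => hv0 (inv_eq_zero.1 (congrArg Subtype.val h)))
          refine ⟨L, ?_⟩
          have ha' : (ℓ : ℚbar) ^ L = v⁻¹ * a := by simpa using congrArg Subtype.val ha
          rw [ha', mul_comm, ← mul_assoc, mul_inv_cancel₀ hv0, one_mul]
          exact a.2
      choose L hL using hval
      have : Fintype X := Fintype.ofFinite X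
      set LL := ∑ x, L x
      refine ⟨N1 * (1 + M + LL), fun _ b n hn => ?_⟩
      obtain ⟨r, hr⟩ : ∃ r : A, (val q.out e) ^ (N1 * (1 + M + LL)) =
          (ℓ : A) ^ (1 + M + LL) * r := by
        obtain ⟨r, hr⟩ := Ideal.mem_span_singleton.1 hN1
        exact ⟨r ^ (1 + M + LL), by rw [pow_mul, hr, mul_pow]⟩
      let g : X → A := fun x => ⟨(ℓ : ℚbar) ^ LL * twist q.out (toQbar A (c i)) x, by
        rw [← Nat.sub_add_cancel (show L x ≤ LL from Finset.single_le_sum (f := L)
          (fun y _ => Nat.zero_le _) (Finset.mem_univ x)), pow_add, mul_assoc]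
        exact mul_mem (pow_mem (natCast_mem A ℓ) _) (hL x)⟩
      refine ⟨((val q.out b * (val q.out e) ^ (n - N1 * (1 + M + LL)) * r) * ℓ) • ((ℓ : A) ^ M • g),
        le_sup_right (α := Submodule A (X → A)) (Submodule.smul_mem_smul
          (Ideal.mul_mem_left _ _ (JacArith.natCast_prime_mem_maximalIdeal hA)) (hM g)), ?_⟩
      rw [twist_const_mul]
      funext x
      have hr' : (val q.out e : ℚbar) ^ (N1 * (1 + M + LL)) =
          (ℓ : ℚbar) ^ (1 + M + LL) * (r : ℚbar) := by simpa using congrArg Subtype.val hr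
      have hne : q.out (toK (b * e ^ n)) = (val q.out b : ℚbar) *
          ((val q.out e : ℚbar) ^ (n - N1 * (1 + M + LL)) *
            (val q.out e : ℚbar) ^ (N1 * (1 + M + LL))) := by
        rw [← pow_add, Nat.sub_add_cancel hn]
        simp [val]
      simp only [toQbar_apply, Pi.smul_apply, smul_eq_mul, MulMemClass.coe_mul,
        SubmonoidClass.coe_pow, g]
      rw [hne, hr']
      push_cast
      ring
    choose N hN using hbad
    set n := ∑ q, N q
    have hstep : ∀ b : R, Λ (fun q => val (dq q) (b * e ^ n)) ∈ W := by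
      intro b
      have hb : ∀ q : Γℚ ⧸ U, ∃ w : X → A,
          toQbar A w = twist q.out (fun x => toK (b * e ^ n) * toQbar A (c i) x) ∧
            (∀ h : good q, w = val (dq ⟨q, h⟩) (b * e ^ n) • s ⟨q, h⟩) ∧ (¬ good q → w ∈ W) := by
        intro q
        by_cases hq : good q
        · refine ⟨val (dq ⟨q, hq⟩) (b * e ^ n) • s ⟨q, hq⟩, ?_, fun _ => rfl,
            fun h => absurd hq h⟩
          rw [hmk q.out (dq ⟨q, hq⟩) (by rw [hdqmk, QuotientGroup.out_eq']), twist_const_mul]
          funext x
          simp [← hs', val]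
        · obtain ⟨w, hw, hw'⟩ := hN q hq b n (Finset.single_le_sum (fun y _ => Nat.zero_le _)
            (Finset.mem_univ q))
          exact ⟨w, hw', fun h => absurd h hq, fun _ => hw⟩
      choose w hw hwg hwb using hb
      have hfE : ∀ σ : Γℚ, twist σ (toQbar A (∑ q, w q)) = toQbar A (∑ q, w q) := by
        intro σ
        rw [map_sum, twist_sum]
        refine (Finset.sum_congr rfl fun q _ => ?_).trans
          (Equiv.sum_comp (MulAction.toPerm σ) fun q : Γℚ ⧸ U => toQbar A (w q))
        rw [hw, hw, twist_twist]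
        refine hmk _ _ ?_ _ i
        rw [QuotientGroup.out_eq', MulAction.toPerm_apply]
        conv_rhs => rw [← QuotientGroup.out_eq' q]
        rfl
      have hfS : (∑ q, w q) ∈ S := S.sum_mem fun q _ => by
        by_cases hq : good q
        · rw [hwg q hq]; exact S.smul_mem (hs _) _
        · exact sup_le hEle (Submodule.smul_le_right) (hwb q hq)
      have hfW : (∑ q, w q) ∈ W :=
        le_sup_left (α := Submodule A (X → A)) (Submodule.subset_span ⟨hfS, hfE⟩)
      have hsplit : Λ (fun q => val (dq q) (b * e ^ n)) =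
          (∑ q, w q) - ∑ q ∈ Finset.univ.filter (fun q => ¬ good q), w q := by
        rw [← Finset.sum_filter_add_sum_filter_not Finset.univ good w, add_sub_cancel_right, hΛ,
          Finset.sum_subtype (Finset.univ.filter good) (p := good) (fun x => by simp) w]
        exact Finset.sum_congr rfl fun q _ => (hwg q.1 q.2).symm
      rw [hsplit]
      exact W.sub_mem hfW (W.sum_mem fun q hq => hwb q (Finset.mem_filter.1 hq).2)
    have hall : ∀ w : {q // good q} → IsLocalRing.ResidueField A,
        ∀ a : {q // good q} → A,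
          (∀ q, IsLocalRing.residue A (a q) = w q * χ q (e ^ n)) → Λ a ∈ W := by
      intro w
      have hw : w ∈ (⊤ : Submodule (IsLocalRing.ResidueField A) _) := trivial
      rw [← hspan] at hw
      induction hw using Submodule.span_induction with
      | mem w hw =>
        obtain ⟨b, rfl⟩ := hw
        intro a ha
        rw [← sub_add_cancel a (fun q => val (dq q) (b * e ^ n)), map_add]
        refine W.add_mem (hΛm _ fun q => ?_) (hstep b)
        rw [← IsLocalRing.residue_eq_zero_iff, Pi.sub_apply, map_sub, ha, sub_eq_zero, map_mul,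
          map_mul]
        rfl
      | zero =>
        intro a ha
        exact hΛm a fun q => by
          rw [← IsLocalRing.residue_eq_zero_iff, ha, Pi.zero_apply, zero_mul]
      | add w1 w2 _ _ h1 h2 =>
        intro a ha
        let a1 : {q // good q} → A := fun q =>
          Function.surjInv IsLocalRing.residue_surjective (w1 q * χ q (e ^ n))
        have ha1 : ∀ q, IsLocalRing.residue A (a1 q) = w1 q * χ q (e ^ n) := fun q =>
          Function.surjInv_eq IsLocalRing.residue_surjective _
        rw [← add_sub_cancel a1 a, map_add]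
        exact W.add_mem (h1 a1 ha1) (h2 _ fun q => by
          rw [Pi.sub_apply, map_sub, ha, ha1, Pi.add_apply, add_mul, add_sub_cancel_left])
      | smul t w _ h1 =>
        intro a ha
        obtain ⟨t0, rfl⟩ := IsLocalRing.residue_surjective t
        let a1 : {q // good q} → A := fun q =>
          Function.surjInv IsLocalRing.residue_surjective (w q * χ q (e ^ n))
        have ha1 : ∀ q, IsLocalRing.residue A (a1 q) = w q * χ q (e ^ n) := fun q =>
          Function.surjInv_eq IsLocalRing.residue_surjective _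
        rw [← sub_add_cancel a (t0 • a1), map_add, map_smul]
        refine W.add_mem (hΛm _ fun q => ?_) (W.smul_mem _ (h1 a1 ha1))
        rw [← IsLocalRing.residue_eq_zero_iff]
        simp only [Pi.sub_apply, map_sub, ha, Pi.smul_apply, smul_eq_mul, map_mul, ha1]
        ring
    -- isolate the trivial coset
    have hgood1 : good (QuotientGroup.mk 1) := by
      refine ⟨1, one_mem _, ?_⟩
      rw [inv_one, one_mul]
      have := QuotientGroup.mk_out_eq_mul U (1 : Γℚ)
      obtain ⟨v, hv⟩ := this
      rw [hv, one_mul]; exact v.2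
    set q1 : {q // good q} := ⟨_, hgood1⟩
    have hχe : χ q1 (e ^ n) ≠ 0 := by
      rw [map_pow]
      refine pow_ne_zero _ fun h => hgoodval q1 ?_
      rw [ValuationSubring.coe_mem_nonunits_iff, ← IsLocalRing.residue_eq_zero_iff]
      exact h
    have hq1 := hall (Pi.single q1 (χ q1 (e ^ n))⁻¹) (Pi.single q1 1) fun q => by
      by_cases hq : q = q1
      · subst hq; rw [Pi.single_eq_same, Pi.single_eq_same, map_one, inv_mul_cancel₀ hχe]
      · simp [hq]
    rw [hΛ, Finset.sum_eq_single q1 (fun q _ hq => by simp [hq])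
      (fun h => absurd (Finset.mem_univ _) h), Pi.single_eq_same, one_smul] at hq1
    have hc : s q1 = c i := toQbar_injective A (by
      rw [hs']
      have hu : dq q1 ∈ U := by
        have := QuotientGroup.eq.1 (hdqmk q1).symm
        simpa using this
      exact hcU _ hu i)
    rwa [hc] at hq1
  -- `W` is a subalgebra
  have hWS : W ≤ SM := sup_le hEle Submodule.smul_le_right
  have hWmul : ∀ f ∈ W, ∀ g ∈ W, f * g ∈ W := by
    have hEE : ∀ f ∈ Submodule.span A E, ∀ g ∈ Submodule.span A E, f * g ∈ Submodule.span A E := by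
      intro f hf g hg
      induction hf, hg using Submodule.span_induction₂ with
      | mem_mem f g hf hg =>
        exact Submodule.subset_span ⟨S.mul_mem hf.1 hg.1, fun σ => by
          rw [map_mul, twist_mul, hf.2, hg.2]⟩
      | zero_left => simp
      | zero_right => simp
      | add_left _ _ _ _ _ _ h1 h2 => rw [add_mul]; exact add_mem h1 h2
      | add_right _ _ _ _ _ _ h1 h2 => rw [mul_add]; exact add_mem h1 h2
      | smul_left r _ _ _ _ h1 => rw [smul_mul_assoc]; exact Submodule.smul_mem _ r h1
      | smul_right r _ _ _ _ h1 => rw [mul_smul_comm]; exact Submodule.smul_mem _ r h1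
    have hmS : ∀ f ∈ SM, ∀ g ∈ m • SM, f * g ∈ m • SM := by
      intro f hf g hg
      refine Submodule.smul_induction_on hg (fun r hr y hy => ?_) fun y z hy hz => ?_
      · rw [mul_smul_comm]; exact Submodule.smul_mem_smul hr (S.mul_mem hf hy)
      · rw [mul_add]; exact add_mem hy hz
    intro f hf g hg
    have hfS := hWS hf
    obtain ⟨g1, hg1, g2, hg2, rfl⟩ := Submodule.mem_sup.1 hg
    rw [mul_add]
    refine W.add_mem ?_ (le_sup_right (α := Submodule A (X → A)) (hmS f hfS g2 hg2))
    obtain ⟨f1, hf1, f2, hf2, rfl⟩ := Submodule.mem_sup.1 hf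
    rw [add_mul, mul_comm f2]
    exact W.add_mem (le_sup_left (α := Submodule A (X → A)) (hEE f1 hf1 g1 hg1))
      (le_sup_right (α := Submodule A (X → A)) (hmS g1 (hEle hg1) f2 hf2))
  have hW1 : (1 : X → A) ∈ W := le_sup_left (α := Submodule A (X → A))
    (Submodule.subset_span ⟨S.one_mem, fun σ => by rw [map_one, twist_one]⟩)
  have hSW : SM ≤ W := by
    intro f hf
    have : S ≤ W.toSubalgebra hW1 fun x y hx hy => hWmul x hx y hy := Algebra.adjoin_le (Set.range_subset_iff.2 hgen)
    exact this hf
  exact le_antisymm hEle (Submodule.le_of_le_smul_of_le_jacobson_bot hfg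
    (IsLocalRing.maximalIdeal_le_jacobson ⊥) hSW)

end Fermat.Agent.FlatModel.JacDescent
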