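/-
The flip morphism: if `D' x` is the effective divisor in the class of `B - D x`, then a regular
family `L (R - D x)` gives a regular family `L (R - D' x)`.
-/
import Fermat.Agent.Flat.JacobianLattice

set_option autoImplicit false

namespace Fermat.Agent.FlatModel.JacFlip

open AlgebraicCurve Fermat.Agent.Curve Fermat.Agent.Curve.GoodReduction Module
  JacSpaces JacLattice

local notation "L" => riemannRochSpace

section Line

variable {K F : Type*} [Field K] [Field F] [Algebra K F] [IsAlgClosed K] [IsFunctionFieldOne K F]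

theorem degree_eq_of_sub_mem_principal {D E : Divisor K F}
    (h : E - D ∈ Divisor.principal (K := K) (F := F)) :
    Divisor.degree E = Divisor.degree D := by
  obtain ⟨f, hf, hfv⟩ := h
  have h1 : E - D = divisorOf K f := Finsupp.ext fun v => by rw [hfv v, divisorOf_apply]
  have h2 := congrArg (fun G => Divisor.degree G) h1
  simp only [map_sub, degree_divisorOf] at h2
  omega

/-- product with a one dimensional space of functions -/
theorem mul_eq_of_line {E₁ D' D₂ : Divisor K F} (hD' : 0 ≤ D')
    (h1 : finrank K ↥(L E₁) ≤ 1) [Module.Finite K ↥(L E₁)]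
    (h : D' - E₁ ∈ Divisor.principal (K := K) (F := F)) :
    L E₁ * L D₂ = L (D₂ + E₁ - D') := by
  obtain ⟨f, hf, hfv⟩ := h
  have hfE : f ∈ L E₁ := by
    rw [RedAux.mem_L_iff hf]
    intro v
    have := hfv v
    have := Finsupp.le_def.1 hD' v
    simp only [Finsupp.sub_apply, Finsupp.zero_apply] at *
    omega
  have hspan : L E₁ = Submodule.span K {f} := by
    refine (Submodule.eq_of_le_of_finrank_le ((Submodule.span_singleton_le_iff_mem _ _).2 hfE) ?_).symm
    rw [finrank_span_singleton hf]
    exact h1
  have hmul : ∀ v, (D₂ + E₁ - D') v = D₂ v - v.ord f := fun v => by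
    have := hfv v
    simp only [Finsupp.sub_apply, Finsupp.add_apply] at *
    omega
  rw [hspan]
  apply le_antisymm
  · refine Submodule.mul_le.2 fun a ha b hb => ?_
    obtain ⟨c, rfl⟩ := Submodule.mem_span_singleton.1 ha
    rw [smul_mul_assoc]
    exact Submodule.smul_mem _ c ((mul_mem_iff hf hmul).2 hb)
  · intro y hy
    rw [show y = f * (f⁻¹ * y) by rw [← mul_assoc, mul_inv_cancel₀ hf, one_mul]]
    refine Submodule.mul_mem_mul (Submodule.mem_span_singleton_self f) ((mul_mem_iff hf hmul).1 ?_)
    rwa [← mul_assoc, mul_inv_cancel₀ hf, one_mul]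

end Line

universe uK uF uk uFb

variable {K : Type uK} [Field K] {A : ValuationSubring K}
  {F : Type uF} [Field F] [Algebra K F]
  {k : Type uk} [Field k] {Fb : Type uFb} [Field Fb] [Algebra k Fb]
  [IsAlgClosed K] [IsAlgClosed k] [IsFunctionFieldOne K F] [IsFunctionFieldOne k Fb]
  {G : GoodReduction A F k Fb}

/-- the flip morphism -/
theorem regular_flip {g : ℕ} (rr : RRFormula K F g) (rrb : RRFormula k Fb g) {R : Divisor K F}
    (hR : 5 * (g : ℤ) + 1 ≤ Divisor.degree R) {ι : Type} [Fintype ι] (Λ : Lat G R ι)
    {X : Type} [Finite X] {S : Subalgebra A (X → A)} (B : Divisor K F)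
    (hB : Divisor.degree B = 2 * (g : ℤ)) (D D' : X → Divisor K F)
    (hD : ∀ x, 0 ≤ D x) (hdeg : ∀ x, Divisor.degree (D x) = g) (hD' : ∀ x, 0 ≤ D' x)
    (hequiv : ∀ x, D' x - (B - D x) ∈ Divisor.principal (K := K) (F := F))
    (hbar : ∀ x, finrank k ↥(L (G.divMap (B - D x))) ≤ 1)
    (hreg : Regular S Λ fun x => R - D x) :
    Regular S Λ fun x => R - D' x := by
  classical
  have hdeg' : ∀ x, Divisor.degree (D' x) = g := fun x => by
    rw [degree_eq_of_sub_mem_principal (hequiv x), map_sub, hB, hdeg]
    omega
  have hequivb : ∀ x, G.divMap (D' x) - G.divMap (B - D x) ∈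
      Divisor.principal (K := k) (F := Fb) := fun x => by
    rw [← map_sub]
    exact G.divMap_mem_principal (hequiv x)
  have hpos : ∀ x, 0 ≤ G.divMap (D' x) := fun x => by
    rw [← map_zero G.divMap]
    exact G.divMap_mono (hD' x)
  obtain ⟨ΛB⟩ := exists_lat G rr rrb B (by omega)
  obtain ⟨ΛRB⟩ := exists_lat G rr rrb (R + B) (by rw [map_add]; omega)
  obtain ⟨Λ2⟩ := exists_lat G rr rrb (R + R - B) (by rw [map_sub, map_add]; omega)
  obtain ⟨ΛRR⟩ := exists_lat G rr rrb (R + R) (by rw [map_add]; omega)
  -- products with `L B`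
  have hP : Regular S ΛRB fun x => R - D x + B := hreg.mul ΛB rfl
    (fun x => mul_eq rr (by omega) (by rw [map_sub, hdeg]; omega))
    (fun x => by
      rw [map_add]
      exact mul_eq rrb (by rw [G.degree_divMap]; omega)
        (by rw [G.degree_divMap, G.degree_divMap, map_sub, hdeg]; omega))
  have hfin : ∀ x, finrank K ↥(L (R - D x + B)) = (Divisor.degree R + 1).toNat := fun x => by
    have := rr.finrank_eq (R - D x + B) (by rw [map_add, map_sub, hdeg]; omega)
    rw [map_add, map_sub, hdeg] at this
    omega
  have hfinb : ∀ x, finrank k ↥(L (G.divMap (R - D x + B))) = (Divisor.degree R + 1).toNat := fun x => by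
    have := rrb.finrank_eq (G.divMap (R - D x + B))
      (by rw [G.degree_divMap, map_add, map_sub, hdeg]; omega)
    rw [G.degree_divMap, show Divisor.degree (R - D x + B) =
      Divisor.degree R - g + 2 * g by rw [map_add, map_sub, hdeg, hB]] at this
    omega
  -- the line `L (B - D x)`
  have hline : Regular S ΛB fun x => B - D x :=
    (regular_const Λ).colon rr rrb hP (add_comm B R)
      (fun x => sub_le_self B (hD x)) (fun x => by abel) (fun x => by omega)
      _ (fun x => (hfin x).le) (fun x => (hfinb x).ge) 1
      (fun x => by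
        have := rr.le_finrank (B - D x)
        rw [map_sub, hB, hdeg] at this
        omega)
      hbar
  have h1K : ∀ x, finrank K ↥(L (B - D x)) ≤ 1 := fun x => by
    have := rr.finite (B - D x)
    have := rrb.finite (G.divMap (B - D x))
    rw [← G.finrank_reduceSubspace (L (B - D x))]
    exact (Submodule.finrank_mono (G.reduceSubspace_riemannRochSpace_le _)).trans (hbar x)
  -- its product with `L (2 R - B)`
  have hQ : Regular S ΛRR fun x => R + R - B + (B - D x) - D' x :=
    hline.mul Λ2 (by abel)
      (fun x =>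
        haveI := rr.finite (B - D x)
        mul_eq_of_line (hD' x) (h1K x) (hequiv x))
      (fun x => by
        haveI := rrb.finite (G.divMap (B - D x))
        rw [map_sub _ _ (D' x), map_add _ (R + R - B)]
        exact mul_eq_of_line (hpos x) (hbar x) (hequivb x))
  have hdegQ : ∀ x, Divisor.degree (R + R - B + (B - D x) - D' x) =
      2 * Divisor.degree R - 2 * g := fun x => by
    simp only [map_add, map_sub, hdeg, hdeg', hB]
    ring
  refine hreg.colon rr rrb hQ rfl (fun x => sub_le_self R (hD' x)) (fun x => by abel)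
    (fun x => by rw [map_sub, hdeg]; omega)
    (2 * Divisor.degree R - 3 * g + 1).toNat (fun x => ?_) (fun x => ?_)
    (Divisor.degree R - 2 * g + 1).toNat (fun x => ?_) (fun x => ?_)
  · have := rr.finrank_eq _ (show _ ≤ Divisor.degree (R + R - B + (B - D x) - D' x) by
      rw [hdegQ]; omega)
    rw [hdegQ] at this
    omega
  · have := rrb.finrank_eq _ (show _ ≤ Divisor.degree (G.divMap (R + R - B + (B - D x) - D' x)) by
      rw [G.degree_divMap, hdegQ]; omega)
    rw [G.degree_divMap, hdegQ] at this
    omega
  · have := rr.finrank_eq (R - D' x) (by rw [map_sub, hdeg']; omega)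
    rw [map_sub, hdeg'] at this
    omega
  · have := rrb.finrank_eq (G.divMap (R - D' x))
      (by rw [G.degree_divMap, map_sub, hdeg']; omega)
    rw [G.degree_divMap, show Divisor.degree (R - D' x) = Divisor.degree R - g by
      rw [map_sub, hdeg']] at this
    omega

end Fermat.Agent.FlatModel.JacFlip
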