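/-
From a translation stable lattice of functions to a finite flat Hopf algebra.
-/
import Fermat.Agent.Flat.JacobianDescent
import Fermat.Agent.Flat.HopfToolkit

set_option autoImplicit false

namespace Fermat.Agent.FlatModel.JacHopf

open JacDescent

local notation "ℚbar" => AlgebraicClosure ℚ
local notation "Γℚ" => AlgebraicClosure ℚ ≃ₐ[ℚ] AlgebraicClosure ℚ

/-- a minimal generating set of equivariant functions is linearly independent over `ℚ̄` -/
theorem exists_basis {A : ValuationSubring ℚbar} {X : Type} (E : Set (X → A))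
    (SM : Submodule A (X → A)) (hfg : SM.FG) (h : Submodule.span A E = SM) :
    ∃ t : Finset (X → A), (t : Set (X → A)) ⊆ E ∧ Submodule.span A (t : Set (X → A)) = SM ∧
      LinearIndependent ℚbar (fun f : t => toQbar A (f : X → A)) := by
  classical
  have hfg' : (Submodule.span A E).FG := h ▸ hfg
  obtain ⟨t0, ht0, ht0'⟩ := Submodule.fg_span_iff_fg_span_finset_subset E |>.1 hfg'
  have hex : ∃ n, ∃ t : Finset (X → A), t.card = n ∧ (t : Set (X → A)) ⊆ E ∧
      Submodule.span A (t : Set (X → A)) = SM := ⟨_, t0, rfl, ht0, by rw [← h, ← ht0']⟩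
  obtain ⟨t, htc, htE, htS⟩ := Nat.find_spec hex
  refine ⟨t, htE, htS, Fintype.linearIndependent_iff.2 fun g hg => ?_⟩
  by_contra hne
  push Not at hne
  obtain ⟨j, hj⟩ := hne
  obtain ⟨j0, -, hmax⟩ := Finset.exists_max_image (Finset.univ : Finset t)
    (fun i => A.valuation (g i)) ⟨j, Finset.mem_univ _⟩
  have hj0 : g j0 ≠ 0 := by
    intro h0
    have := hmax j (Finset.mem_univ _)
    rw [h0, map_zero, le_zero_iff, Valuation.zero_iff] at this
    exact hj this
  have hb : ∀ i, g i / g j0 ∈ A := fun i => by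
    rw [← ValuationSubring.valuation_le_one_iff, map_div₀]
    exact div_le_one_of_le₀ (hmax i (Finset.mem_univ _)) zero_le
  have hrel : ∑ i, (⟨g i / g j0, hb i⟩ : A) • (i : X → A) = 0 := by
    apply toQbar_injective A
    funext x
    have := congrFun hg x
    simp only [Finset.sum_apply, Pi.smul_apply, smul_eq_mul, Pi.zero_apply, toQbar_apply] at this
    simp only [toQbar_apply, map_sum, map_zero, Finset.sum_apply, Pi.smul_apply, smul_eq_mul,
      MulMemClass.coe_mul, Pi.zero_apply]
    push_cast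
    calc ∑ i, g i / g j0 * ((i : X → A) x : ℚbar)
        = (∑ i, g i * ((i : X → A) x : ℚbar)) / g j0 := by
          rw [Finset.sum_div]; exact Finset.sum_congr rfl fun i _ => by ring
      _ = 0 := by rw [this, zero_div]
  have hmem : (j0 : X → A) ∈ Submodule.span A ((t.erase j0 : Finset _) : Set (X → A)) := by
    rw [← Finset.add_sum_erase _ _ (Finset.mem_univ j0), add_eq_zero_iff_eq_neg] at hrel
    rw [show (⟨g j0 / g j0, hb j0⟩ : A) = 1 from Subtype.ext (div_self hj0), one_smul] at hrel
    have key : -∑ i ∈ Finset.univ.erase j0, (⟨g i / g j0, hb i⟩ : A) • (i : X → A) ∈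
        Submodule.span A ((t.erase j0 : Finset _) : Set (X → A)) := by
      refine Submodule.neg_mem _ (Submodule.sum_mem _ fun i hi => Submodule.smul_mem _ _
        (Submodule.subset_span ?_))
      rw [Finset.coe_erase]
      exact ⟨i.2, fun h => (Finset.mem_erase.1 hi).1 (Subtype.ext h)⟩
    rwa [← hrel] at key
  refine Nat.find_min hex (m := (t.erase j0).card) ?_
    ⟨_, rfl, fun x hx => htE (Finset.mem_of_mem_erase hx), ?_⟩
  · rw [← htc]; exact Finset.card_erase_lt_of_mem j0.2
  · rw [← htS]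
    refine le_antisymm (Submodule.span_mono (Finset.coe_subset.2 (Finset.erase_subset _ _))) ?_
    refine Submodule.span_le.2 fun x hx => ?_
    by_cases hxj : x = j0
    · exact hxj ▸ hmem
    · exact Submodule.subset_span (Finset.mem_coe.2 (Finset.mem_erase.2 ⟨hxj, hx⟩))

variable {ℓ : ℕ} [Fact ℓ.Prime] {A : ValuationSubring (AlgebraicClosure ℚ)} (hA : A.LiesOverPrime ℓ)
  {U : Subgroup (AlgebraicClosure ℚ ≃ₐ[ℚ] AlgebraicClosure ℚ)}
  (hU : IsOpen (U : Set (AlgebraicClosure ℚ ≃ₐ[ℚ] AlgebraicClosure ℚ)))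
  (hIU : A.inertiaSubgroupIn ℚ ≤ U)
  {X : Type} [Finite X] [AddCommGroup X]
  [DistribMulAction (AlgebraicClosure ℚ ≃ₐ[ℚ] AlgebraicClosure ℚ) X]
  {ι : Type} [Finite ι] (c : ι → X → A)
  (hcU : ∀ u ∈ U, ∀ i, twist u (toQbar A (c i)) = toQbar A (c i))
  (hsep : ∀ x y : X, (∀ i, c i x = c i y) → x = y)
  (hD : ∀ d ∈ A.decompositionSubgroup ℚ, ∀ i,
    ∃ s ∈ Algebra.adjoin A (Set.range c), toQbar A s = twist d (toQbar A (c i)))
  (hflip : ∀ s : X, ∀ i, (fun x => c i (s - x)) ∈ Algebra.adjoin A (Set.range c))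

include hA hU hIU hcU hsep hD hflip

omit hU hIU hcU hsep hD [Fact ℓ.Prime] hA [DistribMulAction (AlgebraicClosure ℚ ≃ₐ[ℚ] AlgebraicClosure ℚ) X] in
omit [Finite X] [Finite ι] in
theorem translate_mem (s : X) {f : X → A} (hf : f ∈ Algebra.adjoin A (Set.range c)) :
    (fun x => f (x + s)) ∈ Algebra.adjoin A (Set.range c) := by
  set S := Algebra.adjoin A (Set.range c) with hS
  have h1 : ∀ t : X, ∀ g ∈ S, (fun x => g (t - x)) ∈ S := by
    intro t g hg
    let P : (X → A) →ₐ[A] (X → A) :=
      AlgHom.pi fun x => Pi.evalAlgHom A (fun _ : X => A) (t - x)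
    have hle : S ≤ S.comap P := Algebra.adjoin_le (Set.range_subset_iff.2 fun i => hflip t i)
    exact hle hg
  have := h1 0 _ (h1 s f hf)
  simp only [zero_sub, sub_neg_eq_add] at this
  simpa only [add_comm] using this

/-- a lattice of functions as produced by the descent gives a finite flat model -/
theorem hasFlatModel : HasFlatModel ℓ X (fun σ x => σ • x) := by
  classical
  obtain ⟨t, htE, htS, hli⟩ := exists_basis _ (Subalgebra.toSubmodule (Algebra.adjoin A (Set.range c)))
    (fg_adjoin_of_finite (Set.finite_range c) fun g _ => isIntegral_fun g)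
    (exists_equivariant_span hA hU hIU c hcU hsep hD)
  have hρ : ∀ (s : X) (j : t), ∃ g : t → A,
      ∑ i, g i • (i : X → A) = fun x => (j : X → A) (x + s) := by
    intro s j
    have hmem : (fun x => (j : X → A) (x + s)) ∈ Submodule.span A (t : Set (X → A)) := by
      rw [htS]
      exact translate_mem c hflip s (htE j.2).1
    rw [Submodule.mem_span_finset] at hmem
    obtain ⟨g, -, hg⟩ := hmem
    exact ⟨fun i => g i, by rw [← hg, ← Finset.sum_coe_sort t (fun i => g i • i)]⟩
  choose ρ hρ using hρ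
  have hρK : ∀ (s : X) (j : t), ∑ i, (ρ s j i : ℚbar) • toQbar A (i : X → A) =
      fun x => ((j : X → A) (x + s) : ℚbar) := by
    intro s j
    funext x
    have := congrArg Subtype.val (congrFun (hρ s j) x)
    simpa using this
  have huniq : ∀ (a b : t → ℚbar),
      ∑ i, a i • toQbar A (i : X → A) = ∑ i, b i • toQbar A (i : X → A) → a = b := by
    intro a b hab
    rw [Fintype.linearIndependent_iff] at hli
    funext i
    refine sub_eq_zero.1 (hli (fun i => a i - b i) ?_ i)
    rw [← sub_eq_zero] at hab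
    rw [← hab, ← Finset.sum_sub_distrib]
    simp [sub_smul]
  have hequiv : ∀ (j i : t) (σ : Γℚ) (s : X), (ρ (σ • s) j i : ℚbar) = σ (ρ s j i : ℚbar) := by
    intro j i σ s
    refine congrFun (huniq (fun i => (ρ (σ • s) j i : ℚbar)) (fun i => σ (ρ s j i : ℚbar)) ?_) i
    rw [hρK]
    funext x
    have h1 : ∀ (i : t) (y : X), σ (((i : X → A) y : A) : ℚbar) =
        (((i : X → A) (σ • y) : A) : ℚbar) := fun i y => by
      have := congrFun ((htE i.2).2 σ) (σ • y)
      simpa [twist_apply] using this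
    have h2 := congrArg σ (congrFun (hρK s j) (σ⁻¹ • x))
    simp only [Finset.sum_apply, Pi.smul_apply, smul_eq_mul, map_sum, map_mul, toQbar_apply,
      h1, smul_inv_smul, smul_add] at h2
    simp only [Finset.sum_apply, Pi.smul_apply, smul_eq_mul, toQbar_apply]
    exact h2.symm
  have hadd : ∀ (j i : t) (s u : X),
      (ρ (s + u) j i : ℚbar) = ∑ l, (ρ s l i : ℚbar) * (ρ u j l : ℚbar) := by
    intro j i s u
    refine congrFun (huniq (fun i => (ρ (s + u) j i : ℚbar))
      (fun i => ∑ l, (ρ s l i : ℚbar) * (ρ u j l : ℚbar)) ?_) i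
    rw [hρK]
    funext x
    have h2 := congrFun (hρK u j) (x + s)
    rw [add_assoc] at h2
    rw [← h2]
    simp only [Finset.sum_apply, Pi.smul_apply, smul_eq_mul, toQbar_apply, Finset.sum_mul]
    rw [Finset.sum_comm]
    refine Finset.sum_congr rfl fun l _ => ?_
    have h3 := congrFun (hρK s l) x
    simp only [Finset.sum_apply, Pi.smul_apply, smul_eq_mul, toQbar_apply] at h3
    rw [← h3, Finset.mul_sum]
    exact Finset.sum_congr rfl fun i _ => by ring
  let coord : t × t → (X → ℚbar) := fun p x => (ρ x p.1 p.2 : ℚbar)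
  refine hasFlatModel_of_coordinates (Set.range coord) (Set.finite_range _) ?_ ?_ ?_ ?_
  · rintro _ ⟨⟨j, i⟩, rfl⟩ x
    refine JacArith.isIntegral_of_forall (Fact.out : ℓ.Prime) fun B hB => ?_
    obtain ⟨σ, hσ⟩ := Galois.exists_smul_eq_of_liesOverPrime (Fact.out : ℓ.Prime) hA hB
    rw [← hσ, ValuationSubring.mem_pointwise_smul_iff_inv_smul_mem, AlgEquiv.smul_def]
    rw [show (σ⁻¹ : Γℚ) (coord (j, i) x) = (ρ (σ⁻¹ • x) j i : ℚbar) from (hequiv j i σ⁻¹ x).symm]
    exact (ρ (σ⁻¹ • x) j i).2
  · rintro _ ⟨⟨j, i⟩, rfl⟩ σ x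
    exact hequiv j i σ x
  · intro x y hxy
    apply hsep
    intro i
    have hci : c i ∈ Submodule.span A (t : Set (X → A)) := by
      rw [htS]; exact Algebra.subset_adjoin ⟨i, rfl⟩
    have hsame : ∀ j : t, (j : X → A) x = (j : X → A) y := by
      intro j
      apply Subtype.ext
      have h1 := congrFun (hρK x j) 0
      have h2 := congrFun (hρK y j) 0
      simp only [zero_add] at h1 h2
      rw [← h1, ← h2, Finset.sum_apply, Finset.sum_apply]
      refine Finset.sum_congr rfl fun i _ => ?_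
      have := hxy (coord (j, i)) ⟨_, rfl⟩
      rw [Pi.smul_apply, Pi.smul_apply, show (ρ x j i : ℚbar) = (ρ y j i : ℚbar) from this]
    revert hci
    generalize c i = f0
    intro hci
    induction hci using Submodule.span_induction with
    | mem f hf => exact hsame ⟨f, hf⟩
    | zero => rfl
    | add f g _ _ h1 h2 => rw [Pi.add_apply, Pi.add_apply, h1, h2]
    | smul a f _ h1 => rw [Pi.smul_apply, Pi.smul_apply, h1]
  · rintro _ ⟨⟨j, i⟩, rfl⟩
    rw [mem_boxAlg_iff]
    refine ⟨Fintype.card t, fun l => ⟨coord ((Fintype.equivFin t).symm l, i),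
        Algebra.subset_adjoin ⟨_, rfl⟩⟩, fun l => ⟨coord (j, (Fintype.equivFin t).symm l),
        Algebra.subset_adjoin ⟨_, rfl⟩⟩, fun x y => ?_⟩
    rw [Equiv.sum_comp (Fintype.equivFin t).symm fun l => coord (l, i) x * coord (j, l) y]
    exact hadd j i x y

end Fermat.Agent.FlatModel.JacHopf
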