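/-
Finite flat models of finite Galois sets of divisor classes carrying a group law.
-/
import Fermat.Agent.Flat.JacobianCoord
import Fermat.Agent.Flat.JacobianFlip
import Fermat.Agent.Flat.JacobianHopf

set_option autoImplicit false

open scoped Pointwise

namespace Fermat.Agent.FlatModel.JacModel

open AlgebraicCurve Fermat.Agent.Curve Fermat.Agent.Curve.GoodReduction Module
  JacSpaces JacLattice JacSetting JacLinAlg JacCoord JacDescent JacBase

local notation "L" => riemannRochSpace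
local notation "ℚbar" => AlgebraicClosure ℚ
local notation "Γℚ" => AlgebraicClosure ℚ ≃ₐ[ℚ] AlgebraicClosure ℚ

variable {ℓ : ℕ} [Fact ℓ.Prime] {F : Type} [Field F] [Algebra (AlgebraicClosure ℚ) F]
  [IsFunctionFieldOne (AlgebraicClosure ℚ) F] (𝔖 : Setting ℓ F)

omit [IsFunctionFieldOne (AlgebraicClosure ℚ) F] in
theorem pic0_mk_eq_iff (D D' : Divisor.degZero (K := ℚbar) (F := F)) :
    Pic0.mk D = Pic0.mk D' ↔
      (D : Divisor ℚbar F) - (D' : Divisor ℚbar F) ∈ Divisor.principal (K := ℚbar) (F := F) := by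
  refine QuotientAddGroup.eq_iff_sub_mem.trans ?_
  rw [AddSubgroup.mem_addSubgroupOf, AddSubgroupClass.coe_sub]

omit [Fact ℓ.Prime] in
/-- equivalent divisors reduce to equivalent divisors -/
theorem finrank_divMap_congr {D E : Divisor ℚbar F}
    (h : E - D ∈ Divisor.principal (K := ℚbar) (F := F)) :
    finrank 𝔖.k ↥(L (𝔖.G.divMap E)) = finrank 𝔖.k ↥(L (𝔖.G.divMap D)) :=
  finrank_eq_of_sub_mem_principal (by rw [← map_sub]; exact 𝔖.G.divMap_mem_principal h)

omit [Fact ℓ.Prime] in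
/-- a space of functions is at most as large as that of the reduced divisor -/
theorem finrank_le_finrank_divMap (D : Divisor ℚbar F) :
    finrank ℚbar ↥(L D) ≤ finrank 𝔖.k ↥(L (𝔖.G.divMap D)) := by
  have := (rrFormula ℚbar F).finite D
  have := (rrFormula_special 𝔖.G).finite (𝔖.G.divMap D)
  rw [← 𝔖.G.finrank_reduceSubspace (L D)]
  exact Submodule.finrank_mono (𝔖.G.reduceSubspace_riemannRochSpace_le D)

variable {X : Type} [Finite X] [AddCommGroup X] [DistribMulAction (AlgebraicClosure ℚ ≃ₐ[ℚ] AlgebraicClosure ℚ) X]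

/-- **Finite flat models.** A finite group with Galois action, mapped equivariantly to classes of
degree zero of a curve with good reduction at `ℓ` compatibly with its group law, is the group of
points of a finite flat group scheme over `ℤ_(ℓ)`. -/
theorem hasFlatModel_of_classes {Q : Type} [Finite Q] (q : X → Q)
    (hqσ : ∀ (σ : Γℚ) (x : X), q (σ • x) = q x)
    (hqflip : ∀ s x x' : X, q x = q x' → q (s - x) = q (s - x'))
    (cls : X → Pic0 ℚbar F)
    (hcls : ∀ (σ : Γℚ) (x : X), cls (σ • x) = 𝔖.gal σ • cls x)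
    (hinj : ∀ x y : X, q x = q y → cls x = cls y → x = y)
    (hflip : ∀ (s : X) (j : Q), ∃ c : Pic0 ℚbar F, ∀ x, q x = j → cls (s - x) = c - cls x) :
    HasFlatModel ℓ X (fun σ x => σ • x) := by
  classical
  set g := genusFF ℚbar F with hg
  have rr := rrFormula ℚbar F
  have rrb := rrFormula_special 𝔖.G
  choose rep hrep using fun x => Pic0.mk_surjective (K := ℚbar) (F := F) (cls x)
  have hrep0 : ∀ x, Divisor.degree (rep x : Divisor ℚbar F) = 0 := fun x =>
    Divisor.mem_degZero.1 (rep x).2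
  obtain ⟨A₀, hA₀good, hA₀deg, hA₀⟩ := exists_base 𝔖 (fun x => (rep x : Divisor ℚbar F)) hrep0
  -- admissible base divisors and their effective translates
  let Adm : Divisor ℚbar F → Prop := fun A' => Divisor.degree A' = (g : ℤ) ∧
    ∀ x, finrank 𝔖.k ↥(L (𝔖.G.divMap (A' + rep x))) ≤ 1
  let EffD : Divisor ℚbar F → (X → Divisor ℚbar F) → Prop := fun A' D' => ∀ x, 0 ≤ D' x ∧
    D' x - (A' + rep x) ∈ Divisor.principal (K := ℚbar) (F := F)
  have hex : ∀ A', Adm A' → ∃ D', EffD A' D' := fun A' hA' => by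
    choose D' hD' using fun x => JacSpaces.exists_effective rr (D := A' + rep x)
      (by rw [map_add, hA'.1, hrep0]; omega)
    exact ⟨D', hD'⟩
  obtain ⟨D, hD⟩ := hex A₀ ⟨hA₀deg, hA₀⟩
  have hdegD : ∀ A' D', Adm A' → EffD A' D' → ∀ x, Divisor.degree (D' x) = (g : ℤ) := by
    intro A' D' hA' hD' x
    rw [JacFlip.degree_eq_of_sub_mem_principal (hD' x).2, map_add, hA'.1, hrep0, add_zero]
  have huniq : ∀ A' D', Adm A' → EffD A' D' → ∀ x E, 0 ≤ E →
      E - (A' + rep x) ∈ Divisor.principal (K := ℚbar) (F := F) → E = D' x := by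
    intro A' D' hA' hD' x E hE hEp
    have := rr.finite E
    refine JacSpaces.eq_of_equiv hE (hD' x).1 ?_ ?_
    · rw [JacSpaces.finrank_eq_of_sub_mem_principal hEp]
      exact (finrank_le_finrank_divMap 𝔖 _).trans (hA'.2 x)
    · simpa using sub_mem (hD' x).2 hEp
  have hrepσ : ∀ (σ : Γℚ) (x : X),
      𝔖.gal σ • (rep (σ⁻¹ • x) : Divisor ℚbar F) - (rep x : Divisor ℚbar F) ∈
        Divisor.principal (K := ℚbar) (F := F) := by
    intro σ x
    have h := hcls σ (σ⁻¹ • x)
    rw [smul_inv_smul, ← hrep, ← hrep, SemilinearAut.pic0_smul_mk] at h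
    rw [← SemilinearAut.coe_degZeroSMulHom]
    exact (pic0_mk_eq_iff _ _).1 h.symm
  have htransEff : ∀ (σ : Γℚ) A' D', Adm A' → EffD A' D' →
      EffD (𝔖.gal σ • A') fun x => 𝔖.gal σ • D' (σ⁻¹ • x) := by
    intro σ A' D' _ hD' x
    refine ⟨?_, ?_⟩
    · rw [← smul_zero (A := Divisor ℚbar F) (𝔖.gal σ), smul_le_smul_iff]
      exact (hD' _).1
    · have h1 := SemilinearAut.smul_mem_principal (𝔖.gal σ) (hD' (σ⁻¹ • x)).2
      have h2 := add_mem h1 (hrepσ σ x)
      rw [smul_sub, smul_add] at h2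
      convert h2 using 1
      abel
  -- coordinates
  obtain ⟨R, hRfix, hRdeg⟩ := exists_fixed_large 𝔖 (5 * (g : ℤ) + 1)
  obtain ⟨ι, _, Λ, hΛ⟩ := 𝔖.exists_fixed_lat R hRfix (by omega)
  have hdeg := hdegD A₀ D ⟨hA₀deg, hA₀⟩ hD
  obtain ⟨Y, B, hB, hYI⟩ := exists_coord Λ D hdeg hRdeg fun x => (hD x).1
  let c : (ι × Fin (dimW R)) ⊕ Q → X → 𝔖.A :=
    Sum.elim (fun p x => B x p.1 p.2) (fun j x => if q x = j then 1 else 0)
  set S := Algebra.adjoin 𝔖.A (Set.range c) with hS
  have hcS : ∀ p, c p ∈ S := fun p => Algebra.subset_adjoin ⟨p, rfl⟩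
  have : Fintype Q := Fintype.ofFinite Q
  have hconst : ∀ f : X → 𝔖.A, (∀ x x', q x = q x' → f x = f x') → f ∈ S := by
    intro f hf
    have : f = ∑ j, (if h : ∃ x0, q x0 = j then f h.choose else 0) • c (Sum.inr j) := by
      funext x
      rw [Finset.sum_apply, Finset.sum_eq_single (q x)
        (fun j _ hj => by simp [c, Ne.symm hj]) (fun h => absurd (Finset.mem_univ _) h)]
      have hx : ∃ x0, q x0 = q x := ⟨x, rfl⟩
      simp only [c, Pi.smul_apply, Sum.elim_inr, if_true, smul_eq_mul, mul_one, dif_pos hx]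
      exact (hf _ _ hx.choose_spec).symm
    rw [this]
    exact S.sum_mem fun j _ => S.smul_mem (hcS _) _
  -- the flip
  have hflipmem : ∀ A', Adm A' → ∀ D', EffD A' D' →
      ∀ (Y' : Matrix (Fin (dimW R)) ι 𝔖.A) (B' : X → Matrix ι (Fin (dimW R)) 𝔖.A),
      IsCoord Λ D' Y' B' → ∀ (s : X) (i : ι) (j : Fin (dimW R)),
      (fun x => B' (s - x) i j) ∈ S := by
    intro A' hA' D' hD' Y' B' hB' s i j
    have hparts : ∀ lab : Q, ∃ f ∈ S, ∀ x, q x = lab → f x = B' (s - x) i j := by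
      intro lab
      let Xj := {x : X // q x = lab}
      let res : (X → 𝔖.A) →ₐ[𝔖.A] (Xj → 𝔖.A) :=
        AlgHom.pi fun y => Pi.evalAlgHom 𝔖.A (fun _ : X => 𝔖.A) y.1
      let Sj : Subalgebra 𝔖.A (Xj → 𝔖.A) := S.map res
      let M : Matrix ι (Fin (dimW R)) Sj :=
        Matrix.of fun i j => ⟨res (c (Sum.inl (i, j))), ⟨_, hcS _, rfl⟩⟩
      have hBj : IsCoord Λ (fun y : Xj => D y.1) Y (fun y => B y.1) := fun y => hB y.1
      have hreg : Regular Sj Λ fun y : Xj => R - D y.1 :=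
        ⟨_, inferInstance, inferInstance, M,
          presents_of_isCoord Λ _ (fun y => hdeg y.1) hRdeg hBj Sj M fun y => rfl⟩
      obtain ⟨cj, hcj⟩ := hflip s lab
      obtain ⟨repc, hrepc⟩ := Pic0.mk_surjective (K := ℚbar) (F := F) cj
      have hc : ∀ y : Xj, (rep (s - y.1) : Divisor ℚbar F) + (rep y.1 : Divisor ℚbar F) -
          (repc : Divisor ℚbar F) ∈ Divisor.principal (K := ℚbar) (F := F) := by
        intro y
        have h := hcj y.1 y.2
        rw [eq_sub_iff_add_eq, ← hrep, ← hrep, ← hrepc, ← Pic0.mk_add, pic0_mk_eq_iff] at h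
        simpa using h
      set Bd : Divisor ℚbar F := A₀ + A' + repc with hBd
      have hBdeg : Divisor.degree Bd = 2 * (g : ℤ) := by
        rw [hBd, map_add, map_add, hA₀deg, hA'.1, Divisor.mem_degZero.1 repc.2]
        ring
      have hkey : ∀ y : Xj, Bd - D y.1 - (A' + rep (s - y.1)) ∈
          Divisor.principal (K := ℚbar) (F := F) := by
        intro y
        have h := neg_mem (add_mem (hD y.1).2 (hc y))
        convert h using 1
        rw [hBd]
        abel
      have hreg' := JacFlip.regular_flip rr rrb hRdeg Λ Bd hBdeg (fun y : Xj => D y.1)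
        (fun y => D' (s - y.1)) (fun y => (hD y.1).1) (fun y => hdeg y.1)
        (fun y => (hD' _).1) (fun y => by simpa using sub_mem (hD' (s - y.1)).2 (hkey y))
        (fun y => by rw [finrank_divMap_congr 𝔖 (hkey y)]; exact hA'.2 _) hreg
      have hB'j : IsCoord Λ (fun y : Xj => D' (s - y.1)) Y' (fun y => B' (s - y.1)) :=
        fun y => hB' _
      obtain ⟨f, hf, hfy⟩ := coord_mem Λ _ (fun y => hdegD A' D' hA' hD' _) hRdeg hB'j hreg' i j
      exact ⟨f, hf, fun x hx => congrFun hfy ⟨x, hx⟩⟩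
    choose f hf hfx using hparts
    have : (fun x => B' (s - x) i j) = ∑ lab, c (Sum.inr lab) * f lab := by
      funext x
      rw [Finset.sum_apply, Finset.sum_eq_single (q x)
        (fun lab _ hlab => by simp [c, Ne.symm hlab]) (fun h => absurd (Finset.mem_univ _) h)]
      simp [c, hfx (q x) x rfl]
    rw [this]
    exact S.sum_mem fun lab _ => S.mul_mem (hcS _) (hf lab)
  have hflipc : ∀ (s : X) p, (fun x => c p (s - x)) ∈ S := by
    rintro s (⟨i, j⟩ | lab)
    · exact hflipmem A₀ ⟨hA₀deg, hA₀⟩ D hD Y B hB s i j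
    · exact hconst _ fun x x' h => by simp only [c, Sum.elim_inr, hqflip s x x' h]
  have hreflect : ∀ f ∈ S, (fun x => f (0 - x)) ∈ S := by
    intro f hf
    let P : (X → 𝔖.A) →ₐ[𝔖.A] (X → 𝔖.A) :=
      AlgHom.pi fun x => Pi.evalAlgHom 𝔖.A (fun _ : X => 𝔖.A) (0 - x)
    have hle : S ≤ S.comap P := Algebra.adjoin_le (Set.range_subset_iff.2 fun p => hflipc 0 p)
    exact hle hf
  -- the decomposition group
  have hDec : ∀ d ∈ 𝔖.A.decompositionSubgroup ℚ, ∀ p,
      ∃ t ∈ S, toQbar 𝔖.A t = twist d (toQbar 𝔖.A (c p)) := by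
    intro d hd p
    rcases p with ⟨i, j⟩ | lab
    swap
    · refine ⟨c (Sum.inr lab), hcS _, funext fun x => ?_⟩
      simp only [twist_apply, toQbar_apply, c, Sum.elim_inr, hqσ]
      split_ifs <;> simp
    have hdA : ∀ a : 𝔖.A, d (a : ℚbar) ∈ 𝔖.A := fun a =>
      ((⟨d, hd⟩ : 𝔖.A.decompositionSubgroup ℚ) • a : 𝔖.A).2
    let Yd : Matrix (Fin (dimW R)) ι 𝔖.A := Y.map fun a => ⟨d a, hdA a⟩
    let Bd : X → Matrix ι (Fin (dimW R)) 𝔖.A := fun x => (B (d⁻¹ • x)).map fun a => ⟨d a, hdA a⟩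
    have hBd : IsCoord Λ (fun x => 𝔖.gal d • D (d⁻¹ • x)) Yd Bd := by
      intro x
      have h := (hB (d⁻¹ • x)).gal d (hΛ d)
      rw [smul_sub, hRfix] at h
      exact h
    have hadm : Adm (𝔖.gal d • A₀) := by
      refine ⟨by rw [SemilinearAut.degree_smul]; exact hA₀deg, fun x => ?_⟩
      have h1 : 𝔖.gal d • (A₀ + (rep (d⁻¹ • x) : Divisor ℚbar F)) -
          (𝔖.gal d • A₀ + (rep x : Divisor ℚbar F)) ∈
          Divisor.principal (K := ℚbar) (F := F) := by
        rw [smul_add, add_sub_add_left_eq_sub]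
        exact hrepσ d x
      rw [← finrank_divMap_congr 𝔖 h1, 𝔖.finrank_divMap_gal hd]
      exact hA₀ _
    have h := hreflect _ (hflipmem _ hadm _ (htransEff d A₀ D ⟨hA₀deg, hA₀⟩ hD) Yd Bd hBd 0 i j)
    simp only [zero_sub, neg_neg] at h
    exact ⟨_, h, rfl⟩
  -- the open subgroup
  obtain ⟨U₀, hU₀, hIU₀, hU₀A⟩ := hA₀good
  let U : Subgroup Γℚ := U₀ ⊓ ⨅ p : Fin (dimW R) × ι,
    MulAction.stabilizer Γℚ ((Y p.1 p.2 : 𝔖.A) : ℚbar)
  have hU : IsOpen (U : Set Γℚ) := by
    simp only [U, Subgroup.coe_inf, Subgroup.coe_iInf]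
    exact hU₀.inter (isOpen_iInter_of_finite fun p => stabilizer_isOpen_of_isIntegral _)
  have hIU : 𝔖.A.inertiaSubgroupIn ℚ ≤ U := le_inf hIU₀ (le_iInf fun p σ hσ => by
    rw [MulAction.mem_stabilizer_iff, AlgEquiv.smul_def]
    exact hYI σ hσ p.1 p.2)
  have hcU : ∀ u ∈ U, ∀ p, twist u (toQbar 𝔖.A (c p)) = toQbar 𝔖.A (c p) := by
    intro u hu p
    simp only [U, Subgroup.mem_inf, Subgroup.mem_iInf, MulAction.mem_stabilizer_iff,
      AlgEquiv.smul_def] at hu
    funext x
    rcases p with ⟨i, j⟩ | lab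
    swap
    · simp only [twist_apply, toQbar_apply, c, Sum.elim_inr, hqσ]
      split_ifs <;> simp
    have h := (hB (u⁻¹ • x)).gal u (hΛ u)
    have hY : (Y.map 𝔖.A.subtype).map u = Y.map 𝔖.A.subtype := by
      ext a b
      exact hu.2 (a, b)
    have hDx : 𝔖.gal u • D (u⁻¹ • x) = D x := by
      have h1 := htransEff u A₀ D ⟨hA₀deg, hA₀⟩ hD x
      rw [hU₀A u hu.1] at h1
      exact huniq A₀ D ⟨hA₀deg, hA₀⟩ hD x _ h1.1 h1.2
    rw [hY, smul_sub, hRfix, hDx] at h
    exact congrFun (congrFun (h.unique (hB x)) i) j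
  have hsep : ∀ x y : X, (∀ p, c p x = c p y) → x = y := by
    intro x y h
    have hq : q x = q y := by
      have := h (Sum.inr (q x))
      simp only [c, Sum.elim_inr, if_true] at this
      by_contra hne
      rw [if_neg (Ne.symm hne)] at this
      exact one_ne_zero this
    have hBxy : B x = B y := Matrix.ext fun i j => h (Sum.inl (i, j))
    have hDxy : D x = D y := by
      have := JacSpaces.eq_of_space_eq rr (D := R - D x) (D' := R - D y)
        (by rw [map_sub, hdeg]; omega) (by rw [map_sub, hdeg]; omega)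
        (by rw [← (hB x).space, ← (hB y).space, hBxy])
      exact sub_right_injective this
    refine hinj x y hq ?_
    rw [← hrep x, ← hrep y, pic0_mk_eq_iff]
    have h2 := sub_mem (hD y).2 (hD x).2
    convert h2 using 1
    rw [hDxy]
    abel
  exact JacHopf.hasFlatModel 𝔖.over hU hIU c hcU hsep hDec hflipc

end Fermat.Agent.FlatModel.JacModel
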