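/-
The torsion of `J₀(N)` has finite flat models at primes of good reduction, given the equivariant
good reduction data.
-/
import Fermat.Agent.Flat.JacobianModel
import Fermat.Agent.Curve.BasicModular

set_option autoImplicit false

open scoped Pointwise

namespace Fermat.Agent.FlatModel.JacTorsion

open AlgebraicCurve ModularCurve Fermat.Agent.Curve JacSetting

local notation "ℚbar" => AlgebraicClosure ℚ
local notation "Γℚ" => AlgebraicClosure ℚ ≃ₐ[ℚ] AlgebraicClosure ℚ

variable {N : ℕ} [NeZero N]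

/-- the Galois action on torsion classes -/
noncomputable def torsionAct (n : ℤ) (σ : Γℚ) (x : ↥(Submodule.torsionBy ℤ (JZero N) n)) :
    ↥(Submodule.torsionBy ℤ (JZero N) n) :=
  ⟨σ • (x : JZero N), by
    rw [Submodule.mem_torsionBy_iff, galois_smul_pic0_def, ← SemilinearAut.smul_zsmul]
    have hx := x.2
    rw [Submodule.mem_torsionBy_iff] at hx
    rw [hx]
    exact smul_zero (A := JZero N) (arithmeticGalois (modularFunctionFieldFull N) σ)⟩

/-- torsion of `J₀(N)` has finite flat models -/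
theorem hasFlatModel_torsion {ℓ : ℕ} [Fact ℓ.Prime]
    (𝔖 : Setting ℓ (modularFunctionFieldBar N))
    (hgal : ∀ σ, 𝔖.gal σ = arithmeticGalois (modularFunctionFieldFull N) σ) (n : ℤ)
    [Finite ↥(Submodule.torsionBy ℤ (JZero N) n)] :
    HasFlatModel ℓ ↥(Submodule.torsionBy ℤ (JZero N) n) (torsionAct n) := by
  let _inst : DistribMulAction Γℚ ↥(Submodule.torsionBy ℤ (JZero N) n) :=
    { smul := torsionAct n
      one_smul := fun x => Subtype.ext (one_smul Γℚ (x : JZero N))
      mul_smul := fun σ τ x => Subtype.ext (mul_smul σ τ (x : JZero N))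
      smul_zero := fun σ => Subtype.ext (smul_zero (A := JZero N) σ)
      smul_add := fun σ x y => Subtype.ext (smul_add σ (x : JZero N) (y : JZero N)) }
  exact JacModel.hasFlatModel_of_classes 𝔖 (Q := Unit) (fun _ => ()) (fun _ _ => rfl)
    (fun _ _ _ _ => rfl) (fun x => (x : JZero N))
    (fun σ x => by rw [hgal]; rfl)
    (fun x y _ h => Subtype.ext h)
    (fun s _ => ⟨(s : JZero N), fun x _ => Submodule.coe_sub _ s x⟩)

/-- the statement of S19 from the equivariant good reduction data -/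
theorem exists_finiteFlat_model (p ℓ : ℕ) [NeZero p] [Fact ℓ.Prime] (k : ℕ)
    (𝔖 : Setting ℓ (modularFunctionFieldBar p))
    (hgal : ∀ σ, 𝔖.gal σ = arithmeticGalois (modularFunctionFieldFull p) σ)
    [Finite ↥(Submodule.torsionBy ℤ (JZero p) ((ℓ : ℤ) ^ k))] :
    ∃ (H : Type) (_ : CommRing H) (_ : HopfAlgebra (GaloisRep.ratLocalizedAt ℓ) H),
      Module.Finite (GaloisRep.ratLocalizedAt ℓ) H ∧ Module.Flat (GaloisRep.ratLocalizedAt ℓ) H ∧
      Coalgebra.IsCocomm (GaloisRep.ratLocalizedAt ℓ) H ∧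
      ∃ e : WithConv (H →ₐ[GaloisRep.ratLocalizedAt ℓ] AlgebraicClosure ℚ) ≃
          ↥(Submodule.torsionBy ℤ (JZero p) ((ℓ : ℤ) ^ k)),
        (∀ f g, e (f * g) = e f + e g) ∧
        ∀ (σ : AlgebraicClosure ℚ ≃ₐ[ℚ] AlgebraicClosure ℚ)
          (f g : WithConv (H →ₐ[GaloisRep.ratLocalizedAt ℓ] AlgebraicClosure ℚ)),
          (∀ h : H, g h = σ (f h)) → ((e g : JZero p)) = σ • (e f : JZero p) := by
  obtain ⟨H, i1, i2, hfin, hflat, hcom, e, hadd, hgal'⟩ :=
    hasFlatModel_torsion 𝔖 hgal ((ℓ : ℤ) ^ k)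
  exact ⟨H, i1, i2, hfin, hflat, hcom, e, hadd, fun σ f g h => by
    rw [hgal' σ f g h]; rfl⟩

end Fermat.Agent.FlatModel.JacTorsion
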